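import Mathlib.Tactic

/-!
# The Hesse pencil of a Weierstrass cubic

For invariants `c`, `e` the pencil parameter `(a, m)` gives the invariants `hC4`, `hC6` with
`hC4 ^ 3 - hC6 ^ 2 = (c ^ 3 - e ^ 2) * hP ^ 3`. A linear substitution `(X, Y) ↦ (hN / hW, 3 hP Y /
hW)` carries the flexes of `Y² = X³ - 27 c X - 54 e` to those of the member with parameter `(a, m)`.

By Rubin and Silverberg (*Families of elliptic curves with constant mod p representations*, 1995)
the Hesse pencil is the family of curves with the same 3-torsion; the analogue at 5 is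
`Switch/Forms`. All identities below are checked by `ring`.
-/

set_option autoImplicit false

namespace Fermat.Agent.LT.Switch

section Ring

variable {R : Type*} [CommRing R]

/-- The quartic of the pencil: the discriminant is multiplied by its cube. -/
def hP (c e a m : R) : R :=
  a ^ 4 - 6 * c * a ^ 2 * m ^ 2 - 8 * e * a * m ^ 3 - 3 * c ^ 2 * m ^ 4

/-- The invariant `c₄` of the member. -/
def hC4 (c e a m : R) : R :=
  c * a ^ 4 + 4 * e * a ^ 3 * m + 6 * c ^ 2 * a ^ 2 * m ^ 2 + 4 * c * e * a * m ^ 3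
    + (4 * e ^ 2 - 3 * c ^ 3) * m ^ 4

/-- The invariant `c₆` of the member. -/
def hC6 (c e a m : R) : R :=
  e * a ^ 6 + 6 * c ^ 2 * a ^ 5 * m + 15 * c * e * a ^ 4 * m ^ 2 + 20 * e ^ 2 * a ^ 3 * m ^ 3
    + 15 * c ^ 2 * e * a ^ 2 * m ^ 4 + 6 * (3 * c ^ 4 - 2 * c * e ^ 2) * a * m ^ 5
    + (9 * c ^ 3 * e - 8 * e ^ 3) * m ^ 6

/-- Leading coefficient of the numerator of the substitution. -/
def hL (c e a m : R) : R := 3 * (a ^ 3 - 3 * c * a * m ^ 2 - 2 * e * m ^ 3)

/-- Constant coefficient of the numerator of the substitution. -/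
def hM (c e a m : R) : R := -27 * m * (c * a ^ 2 + 2 * e * a * m + c ^ 2 * m ^ 2)

/-- The numerator of the substitution. -/
def hN (c e a m X : R) : R := hL c e a m * X + hM c e a m

/-- The denominator of the substitution. -/
def hW (a m X : R) : R := 3 * a - m * X

/-- The quartic of the flexes of `Y² = X³ - 27 c X - 54 e`. -/
def flex (c e X : R) : R := 3 * X ^ 4 - 162 * c * X ^ 2 - 648 * e * X - 729 * c ^ 2

/-- The syzygy between the covariants of the Hesse pencil. -/
theorem hC4_cube_sub_hC6_sq (c e a m : R) :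
    hC4 c e a m ^ 3 - hC6 c e a m ^ 2 = (c ^ 3 - e ^ 2) * hP c e a m ^ 3 := by
  simp only [hC4, hC6, hP]; ring

/-- A flex where the denominator `hW` vanishes makes `hP` vanish: `m⁴ flex - 243 hP` is a multiple
of `hW`. -/
theorem flex_eq_of_hW (c e a m X : R) :
    m ^ 4 * flex c e X - 243 * hP c e a m =
      -hW a m X * (3 * (m * X) ^ 3 + 9 * a * (m * X) ^ 2 + 27 * a ^ 2 * (m * X) + 81 * a ^ 3
        - 162 * c * m ^ 2 * (m * X + 3 * a) - 648 * e * m ^ 3) := by
  simp only [flex, hP, hW]; ring

/-- At a flex the substitution carries a point of the curve to a point of the member: the equations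
differ by a multiple of `flex`. -/
theorem curve_image (c e a m X : R) :
    9 * hP c e a m ^ 2 * (X ^ 3 - 27 * c * X - 54 * e) * hW a m X
      - (hN c e a m X ^ 3 - 27 * hC4 c e a m * hN c e a m X * hW a m X ^ 2
          - 54 * hC6 c e a m * hW a m X ^ 3)
      = -3 * hP c e a m ^ 2 * m * flex c e X := by
  simp only [hP, hC4, hC6, hN, hL, hM, hW, flex]; ring

/-- The substitution carries flexes to flexes. -/
theorem flex_image (c e a m X : R) :
    3 * hN c e a m X ^ 4 - 162 * hC4 c e a m * hN c e a m X ^ 2 * hW a m X ^ 2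
      - 648 * hC6 c e a m * hN c e a m X * hW a m X ^ 3
      - 729 * hC4 c e a m ^ 2 * hW a m X ^ 4
      = (hL c e a m ^ 4 - 54 * hC4 c e a m * hL c e a m ^ 2 * m ^ 2
          + 216 * hC6 c e a m * hL c e a m * m ^ 3 - 243 * hC4 c e a m ^ 2 * m ^ 4)
        * flex c e X := by
  simp only [hC4, hC6, hN, hL, hM, hW, flex]; ring

/-- The substitution is linear fractional in `X`, so carries a line `Y = α X + β` to a line. -/
theorem line_image (c e a m X α β : R) :
    hN c e a m X * (3 * a * α + m * β) + hW a m X * (hL c e a m * β - hM c e a m * α)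
      = 9 * hP c e a m * (α * X + β) := by
  simp only [hP, hN, hL, hM, hW]; ring

/-- The substitution is injective on abscissae when `hP ≠ 0`. -/
theorem hN_hW_inj (c e a m X X' : R) :
    hN c e a m X * hW a m X' - hN c e a m X' * hW a m X = 9 * hP c e a m * (X - X') := by
  simp only [hP, hN, hL, hM, hW]; ring

theorem hP_smul (s c e a m : R) :
    hP (s ^ 2 * c) (s ^ 3 * e) (s * a) m = s ^ 4 * hP c e a m := by
  simp only [hP]; ring

theorem hC4_smul (s c e a m : R) :
    hC4 (s ^ 2 * c) (s ^ 3 * e) (s * a) m = s ^ 6 * hC4 c e a m := by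
  simp only [hC4]; ring

theorem hC6_smul (s c e a m : R) :
    hC6 (s ^ 2 * c) (s ^ 3 * e) (s * a) m = s ^ 9 * hC6 c e a m := by
  simp only [hC6]; ring

variable {S : Type*} [CommRing S]

/-- The quartic of the pencil commutes with ring homomorphisms. -/
theorem map_hP (f : R →+* S) (c e a m : R) : f (hP c e a m) = hP (f c) (f e) (f a) (f m) := by
  simp [hP, map_ofNat]

/-- The invariant `c₄` of the member commutes with ring homomorphisms. -/
theorem map_hC4 (f : R →+* S) (c e a m : R) :
    f (hC4 c e a m) = hC4 (f c) (f e) (f a) (f m) := by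
  simp [hC4, map_ofNat]

/-- The invariant `c₆` of the member commutes with ring homomorphisms. -/
theorem map_hC6 (f : R →+* S) (c e a m : R) :
    f (hC6 c e a m) = hC6 (f c) (f e) (f a) (f m) := by
  simp [hC6, map_ofNat]

end Ring

section Field

variable {F : Type*} [Field F]

/-- `hP` is separable when `c³ ≠ e²` in characteristic prime to `6`. -/
theorem hP_separable {c e r : F} (h2 : (2 : F) ≠ 0) (h3 : (3 : F) ≠ 0) (hD : c ^ 3 - e ^ 2 ≠ 0)
    (hr : hP c e r 1 = 0) : 4 * (r ^ 3 - 3 * c * r - 2 * e) ≠ 0 := by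
  intro h
  have h4 : (4 : F) ≠ 0 := by
    rw [show (4 : F) = 2 * 2 by norm_num]
    exact mul_ne_zero h2 h2
  have h' : r ^ 3 - 3 * c * r - 2 * e = 0 := (mul_eq_zero.mp h).resolve_left h4
  simp only [hP] at hr
  -- eliminate against the derivative down to `(c³ - e²) r = 0`
  have q1 : c * r ^ 2 + 2 * e * r + c ^ 2 = 0 := by
    refine mul_left_cancel₀ h3 ?_
    linear_combination r * h' - hr
  have q2 : e * r ^ 2 + 2 * c ^ 2 * r + c * e = 0 := by
    refine mul_left_cancel₀ h2 ?_
    linear_combination r * q1 - c * h'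
  have hr0 : r = 0 := by
    have : (2 * (e ^ 2 - c ^ 3)) * r = 0 := by linear_combination e * q1 - c * q2
    refine (mul_eq_zero.mp this).resolve_left (mul_ne_zero h2 fun h => hD ?_)
    linear_combination -h
  subst hr0
  have hc : c = 0 := by
    have : c ^ 2 = 0 := by linear_combination q1
    exact pow_eq_zero_iff two_ne_zero |>.mp this
  have he : e = 0 := by
    have : 2 * e = 0 := by linear_combination -h'
    exact (mul_eq_zero.mp this).resolve_left h2
  exact hD (by rw [hc, he]; ring)

/-- `hP` and `hC4` are coprime when `c³ ≠ e²` in characteristic prime to `6`. -/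
theorem hC4_ne_zero_of_hP {c e r : F} (h2 : (2 : F) ≠ 0) (h3 : (3 : F) ≠ 0)
    (hD : c ^ 3 - e ^ 2 ≠ 0) (hr : hP c e r 1 = 0) : hC4 c e r 1 ≠ 0 := by
  intro h
  have h4 : (4 : F) ≠ 0 := by
    rw [show (4 : F) = 2 * 2 by norm_num]
    exact mul_ne_zero h2 h2
  simp only [hP, hC4] at hr h
  -- eliminate down to `(c³ - e²) r (c r + e) = 0`
  have hT : e * r ^ 3 + 3 * c ^ 2 * r ^ 2 + 3 * c * e * r + e ^ 2 = 0 := by
    refine mul_left_cancel₀ h4 ?_
    linear_combination h - c * hr
  have hU : c ^ 2 * r ^ 3 + 3 * c * e * r ^ 2 + 3 * e ^ 2 * r + c ^ 2 * e = 0 := by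
    refine mul_left_cancel₀ h3 ?_
    linear_combination r * hT - e * hr
  have key : (3 * (c ^ 3 - e ^ 2)) * (r * (c * r + e)) = 0 := by
    linear_combination c ^ 2 * hT - e * hU
  rcases mul_eq_zero.mp ((mul_eq_zero.mp key).resolve_left (mul_ne_zero h3 hD)) with h0 | h0
  · subst h0
    have he : e = 0 := by
      have : e ^ 2 = 0 := by linear_combination hT
      exact pow_eq_zero_iff two_ne_zero |>.mp this
    have hc : c = 0 := by
      have : 3 * c ^ 2 = 0 := by linear_combination -hr
      exact pow_eq_zero_iff two_ne_zero |>.mp ((mul_eq_zero.mp this).resolve_left h3)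
    exact hD (by rw [hc, he]; ring)
  · have he : e ^ 2 * (c ^ 3 - e ^ 2) = 0 := by
      linear_combination c ^ 3 * hT - (e * (c * r) ^ 2 + (3 * c ^ 3 - e ^ 2) * (c * r) + e ^ 3) * h0
    have he0 : e = 0 :=
      pow_eq_zero_iff two_ne_zero |>.mp ((mul_eq_zero.mp he).resolve_right hD)
    subst he0
    rw [add_zero, mul_eq_zero] at h0
    rcases h0 with h0 | h0
    · exact hD (by rw [h0]; ring)
    · subst h0
      have : 3 * c ^ 2 = 0 := by linear_combination -hr
      exact hD (by rw [pow_eq_zero_iff two_ne_zero |>.mp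
        ((mul_eq_zero.mp this).resolve_left h3)]; ring)

end Field

end Fermat.Agent.LT.Switch
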