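import Mathlib.Tactic
import Fermat.Prelude.Def_FLTPrelim_Modularity

/-!
# Integral models with given invariants, and the rootless two-division cubic

If `c` is odd, `e ≡ 3 (mod 4)` and `1728 ∣ c³ - e²`, with a suitable `b₂` at `3`, there is an
integral model with `c₄ = c`, `c₆ = e`. A semistable model of negative discriminant with an odd
valuation at every bad prime, `2` among them, has no rational point of order `2`.
-/

set_option autoImplicit false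

namespace Fermat.Agent.LT.Switch

open WeierstrassCurve

/-- An integral model with given invariants. -/
theorem exists_model (c e : ℤ) (hc : Odd c) (he : e % 4 = 3) (hD : (1728 : ℤ) ∣ c ^ 3 - e ^ 2)
    (h3 : ∃ b : ℤ, 3 ∣ b ^ 2 - c ∧ 27 ∣ b ^ 3 - 3 * b * c - 2 * e) :
    ∃ V : WeierstrassCurve ℤ, V.c₄ = c ∧ V.c₆ = e := by
  obtain ⟨b3, h3a, h3b⟩ := h3
  obtain ⟨k, hk⟩ := hc
  have hcop : IsCoprime c (64 : ℤ) := by
    have : IsCoprime c (2 : ℤ) := ⟨1, -k, by rw [hk]; ring⟩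
    simpa using this.pow_right (n := 6)
  obtain ⟨s, t, hst⟩ := hcop
  obtain ⟨d, hd⟩ := hD
  -- `b₂ ≡ -e / c` modulo `64`, with `s` the inverse of `c`
  set b64 : ℤ := -(e * s) with hb64
  have hs : (64 : ℤ) ∣ c * s - 1 := ⟨-t, by linear_combination hst⟩
  obtain ⟨u, hu⟩ := hs
  have h64a : (64 : ℤ) ∣ b64 ^ 2 - c :=
    ⟨c * (c * s + 1) * u - 27 * d * s ^ 2, by
      rw [hb64]; linear_combination -s ^ 2 * hd + c * (c * s + 1) * hu⟩
  have h64b : (64 : ℤ) ∣ b64 ^ 3 - 3 * b64 * c - 2 * e :=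
    ⟨27 * d * (e * s ^ 3) - e * (c * s + 2) * (c * s - 1) * u, by
      rw [hb64]; linear_combination e * s ^ 3 * hd - e * (c * s + 2) * (c * s - 1) * hu⟩
  -- `513` and `1216` are the idempotents modulo `1728 = 64 * 27`
  set b : ℤ := b64 * 513 + b3 * 1216 with hb
  have hb1 : (64 : ℤ) ∣ b - b64 := ⟨8 * b64 + 19 * b3, by rw [hb]; ring⟩
  have hb2 : (27 : ℤ) ∣ b - b3 := ⟨19 * b64 + 45 * b3, by rw [hb]; ring⟩
  have hsq : (48 : ℤ) ∣ b ^ 2 - c := by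
    have e1 : (16 : ℤ) ∣ b ^ 2 - c := by
      rw [show b ^ 2 - c = (b - b64) * (b + b64) + (b64 ^ 2 - c) by ring]
      exact (dvd_trans ⟨4, by norm_num⟩ (dvd_add (hb1.mul_right _) h64a))
    have e2 : (3 : ℤ) ∣ b ^ 2 - c := by
      rw [show b ^ 2 - c = (b - b3) * (b + b3) + (b3 ^ 2 - c) by ring]
      exact dvd_add ((dvd_trans ⟨9, by norm_num⟩ hb2).mul_right _) h3a
    have : IsCoprime (16 : ℤ) 3 := ⟨1, -5, by norm_num⟩
    simpa using this.mul_dvd e1 e2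
  have hcu : (1728 : ℤ) ∣ b ^ 3 - 3 * b * c - 2 * e := by
    have e1 : (64 : ℤ) ∣ b ^ 3 - 3 * b * c - 2 * e := by
      rw [show b ^ 3 - 3 * b * c - 2 * e = (b - b64) * (b ^ 2 + b * b64 + b64 ^ 2 - 3 * c)
        + (b64 ^ 3 - 3 * b64 * c - 2 * e) by ring]
      exact dvd_add (hb1.mul_right _) h64b
    have e2 : (27 : ℤ) ∣ b ^ 3 - 3 * b * c - 2 * e := by
      rw [show b ^ 3 - 3 * b * c - 2 * e = (b - b3) * (b ^ 2 + b * b3 + b3 ^ 2 - 3 * c)
        + (b3 ^ 3 - 3 * b3 * c - 2 * e) by ring]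
      exact dvd_add (hb2.mul_right _) h3b
    have : IsCoprime (64 : ℤ) 27 := ⟨-8, 19, by norm_num⟩
    simpa using this.mul_dvd e1 e2
  have hb4 : (4 : ℤ) ∣ b - 1 := by
    -- `c ≡ 1 (mod 8)` since `e` is odd, so `b ≡ -e ≡ 1 (mod 4)`
    obtain ⟨j, rfl⟩ : ∃ j, e = 4 * j + 3 := ⟨e / 4, by omega⟩
    have hc1 : (8 : ℤ) ∣ c - 1 := by
      have h8 : ((c : ZMod 8)) ^ 3 - (4 * (j : ZMod 8) + 3) ^ 2 = 0 := by
        have := congrArg (Int.cast : ℤ → ZMod 8) hd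
        push_cast at this
        rw [this, show (1728 : ZMod 8) = 0 from rfl, zero_mul]
      have key : ∀ x y : ZMod 8, x ^ 3 - (4 * y + 3) ^ 2 = 0 → x - 1 = 0 := by decide
      have := key _ _ h8
      exact_mod_cast (ZMod.intCast_zmod_eq_zero_iff_dvd (c - 1) 8).mp (by push_cast; exact this)
    obtain ⟨l, hl⟩ := hc1
    obtain ⟨i, hi⟩ := hb1
    refine ⟨16 * i - (s * j + s) + 16 * u - 2 * l * s, ?_⟩
    rw [hb64] at hi
    linear_combination hi + hu - s * hl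
  obtain ⟨a2, ha2⟩ := hb4
  obtain ⟨a4, ha4⟩ := hsq
  obtain ⟨a6, ha6⟩ := hcu
  -- the model with `a₁ = 1`, `a₃ = 0` and `b₂ = b`
  refine ⟨⟨1, a2, 0, a4, a6⟩, ?_, ?_⟩
  · simp only [WeierstrassCurve.c₄, WeierstrassCurve.b₂, WeierstrassCurve.b₄]
    rw [show (1 : ℤ) ^ 2 + 4 * a2 = b by linarith]
    linear_combination ha4
  · simp only [WeierstrassCurve.c₆, WeierstrassCurve.b₂, WeierstrassCurve.b₄, WeierstrassCurve.b₆]
    rw [show (1 : ℤ) ^ 2 + 4 * a2 = b by linarith]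
    refine mul_left_cancel₀ (show (2 : ℤ) ≠ 0 by norm_num) ?_
    linear_combination ha6 - 3 * b * ha4

theorem padicValInt_lhs {p : ℕ} [Fact p.Prime] {x y n : ℤ} (h : y * x ^ 2 = n) (hn : n ≠ 0) :
    padicValInt p y + 2 * padicValInt p x = padicValInt p n := by
  obtain ⟨hy, hx⟩ := mul_ne_zero_iff.mp (h ▸ hn)
  rw [← h, padicValInt.mul hy hx, sq,
    padicValInt.mul (mul_self_ne_zero.mp (sq x ▸ hx)) (mul_self_ne_zero.mp (sq x ▸ hx))]
  ring

variable {c D x : ℤ}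

/-- In the valuation identity `v(4c - x²) + 2 v(x² - c) = v(6912 D)`, with `v(D)` odd at `2` and
`c` odd, `x² - c` is odd. -/
private theorem not_two_dvd_sq_sub (hB : x ^ 2 - c ≠ 0) (hc : ¬ (2 : ℤ) ∣ c)
    (hodd : Odd (padicValInt 2 D))
    (hv : padicValInt 2 (4 * c - x ^ 2) + 2 * padicValInt 2 (x ^ 2 - c) =
      padicValInt 2 6912 + padicValInt 2 D) : ¬ (2 : ℤ) ∣ x ^ 2 - c := by
  intro hpd
  have : Fact (Nat.Prime 2) := ⟨Nat.prime_two⟩
  have h1 : 1 ≤ padicValInt 2 (x ^ 2 - c) :=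
    ((padicValInt_dvd_iff 1 _).mp (by simpa using hpd)).resolve_left hB
  have h6912 : padicValInt 2 6912 = 8 := by
    rw [show (6912 : ℤ) = ((2 ^ 8 * 27 : ℕ) : ℤ) by norm_num, padicValInt.of_nat,
      padicValNat.mul (by norm_num) (by norm_num), padicValNat.prime_pow,
      padicValNat.eq_zero_of_not_dvd (by norm_num : ¬ 2 ∣ 27)]
  have hxodd : ¬ (2 : ℤ) ∣ x := fun h => hc (by
    have h' : (2 : ℤ) ∣ x ^ 2 := h.trans (dvd_pow_self x two_ne_zero)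
    simpa using dvd_sub h' hpd)
  have h0 : padicValInt 2 (4 * c - x ^ 2) = 0 := padicValInt.eq_zero_of_not_dvd fun h => hxodd
    (Int.prime_two.dvd_of_dvd_pow (n := 2) (by
      have : (2 : ℤ) ∣ 4 * c := Dvd.dvd.mul_right (by norm_num) c
      have h' : (2 : ℤ) ∣ 4 * c - x ^ 2 := by exact_mod_cast h
      simpa using dvd_sub this h'))
  obtain ⟨m, hm⟩ := hodd
  omega

/-- In the valuation identity at `3`, with `v(D)` odd and `3 ∤ c` if `3 ∣ D`, the square of `3`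
does not divide `x² - c`. -/
private theorem not_nine_dvd_sq_sub (hA : 4 * c - x ^ 2 ≠ 0) (hB : x ^ 2 - c ≠ 0)
    (hss : (3 : ℤ) ∣ D → ¬ (3 : ℤ) ∣ c) (hodd : (3 : ℤ) ∣ D → Odd (padicValInt 3 D))
    (hv : padicValInt 3 (4 * c - x ^ 2) + 2 * padicValInt 3 (x ^ 2 - c) =
      padicValInt 3 6912 + padicValInt 3 D)
    (hpd : (3 : ℤ) ∣ x ^ 2 - c) : ¬ (3 : ℤ) ^ 2 ∣ x ^ 2 - c := by
  intro h9
  have : Fact (Nat.Prime 3) := ⟨Nat.prime_three⟩
  have h2' : 2 ≤ padicValInt 3 (x ^ 2 - c) :=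
    ((padicValInt_dvd_iff 2 _).mp (by exact_mod_cast h9)).resolve_left hB
  have h6912 : padicValInt 3 6912 = 3 := by
    rw [show (6912 : ℤ) = ((3 ^ 3 * 256 : ℕ) : ℤ) by norm_num, padicValInt.of_nat,
      padicValNat.mul (by norm_num) (by norm_num), padicValNat.prime_pow,
      padicValNat.eq_zero_of_not_dvd (by norm_num : ¬ 3 ∣ 256)]
  by_cases h3D : (3 : ℤ) ∣ D
  · have h3c : ¬ (3 : ℤ) ∣ c := hss h3D
    have hA1 : (3 : ℤ) ∣ 4 * c - x ^ 2 := by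
      rw [show 4 * c - x ^ 2 = 3 * c - (x ^ 2 - c) by ring]
      exact dvd_sub (dvd_mul_right 3 c) (by exact_mod_cast hpd)
    have hA2 : ¬ ((3 : ℕ) : ℤ) ^ 2 ∣ 4 * c - x ^ 2 := fun h => h3c (by
      have h' := dvd_add h h9
      rw [show 4 * c - x ^ 2 + (x ^ 2 - c) = 3 * c by ring] at h'
      exact (mul_dvd_mul_iff_left (show (3 : ℤ) ≠ 0 by norm_num)).mp (by
        rwa [show ((3 : ℕ) : ℤ) ^ 2 = 3 * 3 by norm_num] at h'))
    have e1 : 1 ≤ padicValInt 3 (4 * c - x ^ 2) :=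
      ((padicValInt_dvd_iff 1 _).mp (by simpa using hA1)).resolve_left hA
    have e2 : padicValInt 3 (4 * c - x ^ 2) < 2 := by
      by_contra h
      exact hA2 ((padicValInt_dvd_iff 2 _).mpr (Or.inr (not_lt.mp h)))
    obtain ⟨m, hm⟩ := hodd h3D
    omega
  · have : padicValInt 3 D = 0 := padicValInt.eq_zero_of_not_dvd (by exact_mod_cast h3D)
    omega

/-- By the parities of the valuations in `(4c - x²) (x² - c)² = 6912 D`, the number `x² - c` has no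
prime factor but `3`, and that only once. -/
private theorem eq_three_of_dvd_sq_sub (hkey : (4 * c - x ^ 2) * (x ^ 2 - c) ^ 2 = 6912 * D)
    (hD : D ≠ 0) (hss : ∀ p : ℕ, p.Prime → (p : ℤ) ∣ D → ¬ (p : ℤ) ∣ c)
    (hodd : ∀ p : ℕ, p.Prime → (p : ℤ) ∣ D → Odd (padicValInt p D)) (h2 : (2 : ℤ) ∣ D)
    {p : ℕ} (hp : p.Prime) (hpd : (p : ℤ) ∣ x ^ 2 - c) :
    p = 3 ∧ ¬ (p : ℤ) ^ 2 ∣ x ^ 2 - c := by
  have : Fact p.Prime := ⟨hp⟩
  have hn : (6912 : ℤ) * D ≠ 0 := mul_ne_zero (by norm_num) hD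
  obtain ⟨hA, hB⟩ := mul_ne_zero_iff.mp (hkey ▸ hn)
  have hB' : x ^ 2 - c ≠ 0 := fun h => hB (by rw [h]; ring)
  have hv : padicValInt p (4 * c - x ^ 2) + 2 * padicValInt p (x ^ 2 - c) =
      padicValInt p 6912 + padicValInt p D := by
    rw [padicValInt_lhs hkey hn, padicValInt.mul (by norm_num) hD]
  have hpz := Nat.prime_iff_prime_int.mp hp
  have h1 : 1 ≤ padicValInt p (x ^ 2 - c) :=
    ((padicValInt_dvd_iff 1 _).mp (by simpa using hpd)).resolve_left hB'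
  by_cases hp2 : p = 2
  · subst hp2
    exact absurd hpd
      (not_two_dvd_sq_sub hB' (hss 2 Nat.prime_two h2) (hodd 2 Nat.prime_two h2) hv)
  by_cases hp3 : p = 3
  · subst hp3
    exact ⟨rfl, not_nine_dvd_sq_sub hA hB' (hss 3 Nat.prime_three) (hodd 3 Nat.prime_three) hv hpd⟩
  exfalso
  have h6912 : padicValInt p 6912 = 0 := padicValInt.eq_zero_of_not_dvd fun h => by
    rw [show (6912 : ℤ) = 2 ^ 8 * 3 ^ 3 by norm_num] at h
    rcases hpz.dvd_mul.mp h with h | h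
    · exact hp2 ((Nat.prime_dvd_prime_iff_eq hp Nat.prime_two).mp
        (by exact_mod_cast hpz.dvd_of_dvd_pow h))
    · exact hp3 ((Nat.prime_dvd_prime_iff_eq hp Nat.prime_three).mp
        (by exact_mod_cast hpz.dvd_of_dvd_pow h))
  have hpD : (p : ℤ) ∣ D := by
    by_contra h
    have := padicValInt.eq_zero_of_not_dvd (p := p) h
    omega
  have h0 : padicValInt p (4 * c - x ^ 2) = 0 :=
    padicValInt.eq_zero_of_not_dvd fun h => hss p hp hpD (by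
    have h' := dvd_add h hpd
    rw [show 4 * c - x ^ 2 + (x ^ 2 - c) = 3 * c by ring] at h'
    refine (hpz.dvd_mul.mp h').resolve_left fun h'' => hp3 ?_
    exact (Nat.prime_dvd_prime_iff_eq hp Nat.prime_three).mp (by exact_mod_cast h''))
  obtain ⟨m, hm⟩ := hodd p hp hpD
  omega

/-- A number whose only prime factor is `3`, occurring once, divides `3`. -/
private theorem natAbs_dvd_three {n : ℤ}
    (h : ∀ p : ℕ, p.Prime → (p : ℤ) ∣ n → p = 3 ∧ ¬ (p : ℤ) ^ 2 ∣ n) : n.natAbs ∣ 3 := by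
  set u := n.natAbs with hu
  by_cases h1 : u = 1
  · rw [h1]; exact one_dvd _
  obtain ⟨p, hp, hpu⟩ := Nat.exists_prime_and_dvd h1
  obtain ⟨rfl, h9⟩ := h p hp (Int.natCast_dvd.mpr hpu)
  obtain ⟨v, hv⟩ := hpu
  by_cases hv1 : v = 1
  · rw [hv, hv1]
  obtain ⟨r, hr, hrv⟩ := Nat.exists_prime_and_dvd hv1
  obtain ⟨rfl, -⟩ := h r hr (Int.natCast_dvd.mpr (hu ▸ hv ▸ dvd_mul_of_dvd_right hrv 3))
  refine absurd ?_ h9
  have h' : 3 ^ 2 ∣ u := by rw [hv, sq]; exact mul_dvd_mul_left 3 hrv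
  exact_mod_cast Int.natCast_dvd.mpr h'

/-- No integral root of the two-division cubic. -/
theorem cubic_ne_zero {c e D : ℤ} (hrel : c ^ 3 - e ^ 2 = 1728 * D) (hneg : D < 0)
    (hss : ∀ p : ℕ, p.Prime → (p : ℤ) ∣ D → ¬ (p : ℤ) ∣ c)
    (hodd : ∀ p : ℕ, p.Prime → (p : ℤ) ∣ D → Odd (padicValInt p D)) (h2 : (2 : ℤ) ∣ D) (x : ℤ) :
    x ^ 3 - 3 * c * x - 2 * e ≠ 0 := by
  intro hx
  -- `6912 = 4 * 1728 = 2 ^ 8 * 3 ^ 3`
  have hkey : (4 * c - x ^ 2) * (x ^ 2 - c) ^ 2 = 6912 * D := by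
    linear_combination 4 * hrel - (x ^ 3 - 3 * c * x + 2 * e) * hx
  have hdvd : (x ^ 2 - c).natAbs ∣ 3 := natAbs_dvd_three fun p hp hpd =>
    eq_three_of_dvd_sq_sub hkey hneg.ne hss hodd h2 hp hpd
  have hle : |x ^ 2 - c| ≤ 3 := by
    rw [← Int.natCast_natAbs]; exact_mod_cast Nat.le_of_dvd (by norm_num) hdvd
  -- `|x² - c| ≤ 3` and `4 c < x²` leave finitely many cases
  have hneg' : 4 * c - x ^ 2 < 0 := by
    by_contra h
    have := mul_nonneg (not_lt.mp h) (sq_nonneg (x ^ 2 - c))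
    omega
  obtain ⟨hl, hr⟩ := abs_le.mp hle
  have hx2 : x ^ 2 < 4 := by linarith
  have hx1 : -1 ≤ x ∧ x ≤ 1 := ⟨by nlinarith, by nlinarith⟩
  have hc1 : -3 ≤ c ∧ c ≤ 4 := ⟨by nlinarith, by nlinarith⟩
  obtain ⟨hx1, hx1'⟩ := hx1
  obtain ⟨hc1, hc1'⟩ := hc1
  interval_cases x <;> interval_cases c <;> omega

/-- A semistable model of negative discriminant with odd valuations has no point of order two. -/
theorem two_division_ne_zero (V : WeierstrassCurve ℤ) (hneg : V.Δ < 0)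
    (hss : V.IsSemistableModel)
    (hodd : ∀ p : ℕ, p.Prime → (p : ℤ) ∣ V.Δ → Odd (padicValInt p V.Δ)) (h2 : (2 : ℤ) ∣ V.Δ)
    (x : ℚ) : 4 * x ^ 3 + (V.b₂ : ℚ) * x ^ 2 + 2 * (V.b₄ : ℚ) * x + (V.b₆ : ℚ) ≠ 0 := by
  intro h
  have hX : (12 * x + (V.b₂ : ℚ)) ^ 3 - 3 * (V.c₄ : ℚ) * (12 * x + (V.b₂ : ℚ)) - 2 * (V.c₆ : ℚ)
      = 0 := by
    simp only [WeierstrassCurve.c₄, WeierstrassCurve.c₆]
    push_cast
    linear_combination 432 * h
  have hint : _root_.IsIntegral ℤ (12 * x + (V.b₂ : ℚ)) := by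
    refine ⟨Polynomial.X ^ 3 + (Polynomial.C 0 * Polynomial.X ^ 2
      + Polynomial.C (-3 * V.c₄) * Polynomial.X + Polynomial.C (-2 * V.c₆)), ?_, ?_⟩
    · exact Polynomial.monic_X_pow_add (Polynomial.degree_quadratic_le.trans_lt (by decide))
    · simp only [Polynomial.eval₂_add, Polynomial.eval₂_mul, Polynomial.eval₂_pow,
        Polynomial.eval₂_X, Polynomial.eval₂_C]
      simp only [eq_intCast]
      push_cast
      linear_combination hX
  obtain ⟨z, hz⟩ := IsIntegrallyClosed.isIntegral_iff.mp hint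
  rw [eq_intCast] at hz
  refine cubic_ne_zero V.c_relation.symm hneg hss hodd h2 z ?_
  rw [← hz] at hX
  exact_mod_cast hX

end Fermat.Agent.LT.Switch
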