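import Fermat.Agent.LT.Switch.Forms
import Fermat.Agent.Switch.Three

/-!
# The pencil preserves the `3`-torsion

The substitution of the pencil is linear on the plane, fixes the origin and carries flexes to
flexes, so it is an additive map on the points killed by `3`.

Main result: `img_add`.
-/

set_option autoImplicit false

namespace Fermat.Agent.LT.Switch

open WeierstrassCurve WeierstrassCurve.Affine
open Fermat.Agent.Switch (quartic quartic_short three_torsion_quartic)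
open Fermat.Agent.Mazur.Fifteen (tangentSlope three_torsion_coords)

variable {K : Type*} [Field K]

/-! ## Flexes of the short model -/

/-- The abscissa of the short model. -/
def sX (V : WeierstrassCurve K) (x : K) : K := 36 * x + 3 * V.b₂

/-- The ordinate of the short model. -/
def sY (V : WeierstrassCurve K) (x y : K) : K := 108 * (2 * y + V.a₁ * x + V.a₃)

theorem short_equation (V : WeierstrassCurve K) (x y : K) :
    sY V x y ^ 2 - (sX V x ^ 3 - 27 * V.c₄ * sX V x - 54 * V.c₆) =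
      46656 * (y ^ 2 + V.a₁ * x * y + V.a₃ * y - (x ^ 3 + V.a₂ * x ^ 2 + V.a₄ * x + V.a₆)) := by
  simp only [sX, sY, WeierstrassCurve.c₄, WeierstrassCurve.c₆, WeierstrassCurve.b₂,
    WeierstrassCurve.b₄, WeierstrassCurve.b₆]
  ring

theorem flex_short (V : WeierstrassCurve K) (x : K) :
    flex V.c₄ V.c₆ (sX V x) =
      1679616 * (3 * x ^ 4 + V.b₂ * x ^ 3 + 3 * V.b₄ * x ^ 2 + 3 * V.b₆ * x + V.b₈) := by
  rw [← quartic_short]
  simp only [flex, quartic, sX]
  ring

variable [CharZero K]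

theorem short_equation_iff (V : WeierstrassCurve K) (x y : K) :
    V.toAffine.Equation x y ↔
      sY V x y ^ 2 = sX V x ^ 3 - 27 * V.c₄ * sX V x - 54 * V.c₆ := by
  rw [Affine.equation_iff, ← sub_eq_zero, ← sub_eq_zero (a := sY V x y ^ 2), short_equation,
    mul_eq_zero]
  norm_num

/-! ## The substitution of the pencil -/

/-- A member of the pencil of `V`, up to the scale `k`. -/
structure Member (V V' : WeierstrassCurve K) where
  a : K
  m : K
  k : K
  hk : k ≠ 0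
  hc : hC4 V.c₄ V.c₆ a m = k ^ 4 * V'.c₄
  he : hC6 V.c₄ V.c₆ a m = k ^ 6 * V'.c₆
  hP0 : hP V.c₄ V.c₆ a m ≠ 0
  hΔ : V'.Δ ≠ 0

namespace Member

variable {V V' : WeierstrassCurve K} (D : Member V V')

/-- The short abscissa of the image. -/
noncomputable def imgSX (X : K) : K := hN V.c₄ V.c₆ D.a D.m X / hW D.a D.m X

/-- The short ordinate of the image. -/
noncomputable def imgSY (X Y : K) : K := 3 * hP V.c₄ V.c₆ D.a D.m * Y / hW D.a D.m X

/-- The abscissa of the image. -/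
noncomputable def imgX (x : K) : K := (D.imgSX (sX V x) / D.k ^ 2 - 3 * V'.b₂) / 36

/-- The ordinate of the image. -/
noncomputable def imgY (x y : K) : K :=
  (D.imgSY (sX V x) (sY V x y) / (108 * D.k ^ 3) - V'.a₁ * D.imgX x - V'.a₃) / 2

theorem sX_imgX (x : K) : sX V' (D.imgX x) = D.imgSX (sX V x) / D.k ^ 2 := by
  rw [sX, imgX]; ring

theorem sY_imgY (x y : K) :
    sY V' (D.imgX x) (D.imgY x y) = D.imgSY (sX V x) (sY V x y) / D.k ^ 3 := by
  rw [sY, imgY]; ring

theorem imgY_negY (x y : K) :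
    D.imgY x (V.toAffine.negY x y) = V'.toAffine.negY (D.imgX x) (D.imgY x y) := by
  have e : sY V x (V.toAffine.negY x y) = -sY V x y := by
    rw [sY, sY, Affine.negY]; ring
  rw [imgY, imgY, e, Affine.negY, imgSY, imgSY, mul_neg, neg_div]
  ring

theorem hW_ne_zero {X : K} (h : flex V.c₄ V.c₆ X = 0) : hW D.a D.m X ≠ 0 := by
  intro h0
  have e := flex_eq_of_hW V.c₄ V.c₆ D.a D.m X
  rw [h, h0] at e
  refine D.hP0 ?_
  linear_combination (-1 / 243 : K) * e

theorem equation_img {x y : K} (he : V.toAffine.Equation x y)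
    (hf : flex V.c₄ V.c₆ (sX V x) = 0) : V'.toAffine.Equation (D.imgX x) (D.imgY x y) := by
  have hw := D.hW_ne_zero hf
  have hk := D.hk
  rw [short_equation_iff] at he ⊢
  have key := curve_image V.c₄ V.c₆ D.a D.m (sX V x)
  rw [hf, mul_zero, ← he, D.hc, D.he] at key
  rw [sX_imgX, sY_imgY, imgSX, imgSY]
  field_simp
  linear_combination key

theorem flex_img {x : K} (hf : flex V.c₄ V.c₆ (sX V x) = 0) :
    flex V'.c₄ V'.c₆ (sX V' (D.imgX x)) = 0 := by
  have hw := D.hW_ne_zero hf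
  have hk := D.hk
  have key := flex_image V.c₄ V.c₆ D.a D.m (sX V x)
  rw [hf, mul_zero, D.hc, D.he] at key
  have e : flex V'.c₄ V'.c₆ (sX V' (D.imgX x)) * (D.k ^ 8 * hW D.a D.m (sX V x) ^ 4) = 0 := by
    rw [sX_imgX, imgSX, flex]
    field_simp
    linear_combination key
  exact (mul_eq_zero.mp e).resolve_right (mul_ne_zero (pow_ne_zero _ hk) (pow_ne_zero _ hw))

theorem imgX_inj {x x' : K} (hf : flex V.c₄ V.c₆ (sX V x) = 0)
    (hf' : flex V.c₄ V.c₆ (sX V x') = 0) (h : D.imgX x = D.imgX x') : x = x' := by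
  have hs : D.imgSX (sX V x) = D.imgSX (sX V x') := by
    have := congrArg (sX V') h
    rw [sX_imgX, sX_imgX] at this
    exact (div_left_inj' (pow_ne_zero 2 D.hk)).mp this
  rw [imgSX, imgSX, div_eq_div_iff (D.hW_ne_zero hf) (D.hW_ne_zero hf'), ← sub_eq_zero,
    hN_hW_inj, mul_eq_zero] at hs
  have h9 := hs.resolve_left (mul_ne_zero (by norm_num) D.hP0)
  rw [sub_eq_zero, sX, sX] at h9
  linear_combination (1 / 36 : K) * h9

/-- The substitution carries the flexes on a line to points on a line. -/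
theorem img_line (l n : K) :
    ∃ L N : K, ∀ x y : K, flex V.c₄ V.c₆ (sX V x) = 0 → y = l * x + n →
      D.imgY x y = L * D.imgX x + N := by
  -- the line is `Y = α X + β` in short coordinates, its image is `Y' = A X' + B` by `line_image`
  set α : K := 108 * (2 * l + V.a₁) / 36 with hα
  set β : K := 108 * (2 * n + V.a₃) - α * (3 * V.b₂) with hβ
  set A : K := (3 * D.a * α + D.m * β) / 3 with hA
  set B : K := (hL V.c₄ V.c₆ D.a D.m * β - hM V.c₄ V.c₆ D.a D.m * α) / 3 with hB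
  refine ⟨(A * 36 / D.k / 108 - V'.a₁) / 2,
    ((A * (3 * V'.b₂) / D.k + B / D.k ^ 3) / 108 - V'.a₃) / 2, fun x y hf hy => ?_⟩
  have hw := D.hW_ne_zero hf
  have hk := D.hk
  have hY : sY V x y = α * sX V x + β := by
    rw [hβ, hα, sY, sX, hy]; ring
  have e : D.imgSY (sX V x) (sY V x y) = A * D.imgSX (sX V x) + B := by
    rw [imgSY, imgSX, hY, hA, hB]
    field_simp
    linear_combination -line_image V.c₄ V.c₆ D.a D.m (sX V x) α β
  rw [imgY, e, imgX]
  field_simp
  ring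

end Member

variable [DecidableEq K]

/-! ## The map on the `3`-torsion -/

theorem flex_of_three_nsmul (V : WeierstrassCurve K) {x y : K} (h : V.toAffine.Nonsingular x y)
    (h3 : (3 : ℕ) • (Point.some x y h : V.toAffine.Point) = 0) :
    flex V.c₄ V.c₆ (sX V x) = 0 ∧ sY V x y ≠ 0 := by
  refine ⟨by rw [flex_short, three_torsion_quartic V h h3, mul_zero], ?_⟩
  obtain ⟨hη, -⟩ := three_torsion_coords V h h3
  exact mul_ne_zero (by norm_num) hη

theorem three_nsmul_of_flex (V : WeierstrassCurve K) {x y : K} (h : V.toAffine.Nonsingular x y)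
    (hf : flex V.c₄ V.c₆ (sX V x) = 0) (hY : sY V x y ≠ 0) :
    (3 : ℕ) • (Point.some x y h : V.toAffine.Point) = 0 := by
  rw [flex_short, mul_eq_zero] at hf
  replace hf := hf.resolve_left (by norm_num)
  have hη : 2 * y + V.a₁ * x + V.a₃ ≠ 0 := fun h0 => hY (by rw [sY, h0, mul_zero])
  have hy : y ≠ V.toAffine.negY x y := fun h0 => hη (by
    rw [Affine.negY] at h0; linear_combination h0)
  have he := (Affine.equation_iff ..).mp h.1
  -- at a flex the tangent slope `L` has `(2 L + a₁)² = b₂ + 12 x`: the tangent meets the curve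
  -- only at the point
  set L := tangentSlope V x y with hL
  have hl : L * (2 * y + V.a₁ * x + V.a₃) = 3 * x ^ 2 + 2 * V.a₂ * x + V.a₄ - V.a₁ * y := by
    rw [hL, tangentSlope, div_mul_cancel₀ _ hη]
  have hη2 : (2 * y + V.a₁ * x + V.a₃) ^ 2 =
      4 * x ^ 3 + V.b₂ * x ^ 2 + 2 * V.b₄ * x + V.b₆ := by
    simp only [WeierstrassCurve.b₂, WeierstrassCurve.b₄, WeierstrassCurve.b₆]
    linear_combination 4 * he
  have hnum : (2 * L + V.a₁) * (2 * y + V.a₁ * x + V.a₃) = 6 * x ^ 2 + V.b₂ * x + V.b₄ := by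
    simp only [WeierstrassCurve.b₂, WeierstrassCurve.b₄]
    linear_combination 2 * hl
  have key : (6 * x ^ 2 + V.b₂ * x + V.b₄) ^ 2
      = (V.b₂ + 12 * x) * (4 * x ^ 3 + V.b₂ * x ^ 2 + 2 * V.b₄ * x + V.b₆) := by
    linear_combination -4 * hf + V.b_relation
  have hsq : (2 * L + V.a₁) ^ 2 = V.b₂ + 12 * x := by
    refine mul_right_cancel₀ (pow_ne_zero 2 hη) ?_
    rw [← mul_pow, hnum, hη2, key]
  have hadd : L ^ 2 + V.a₁ * L - V.a₂ - 3 * x = 0 := by
    simp only [WeierstrassCurve.b₂] at hsq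
    linear_combination (1 / 4 : K) * hsq
  have hs : V.toAffine.slope x x y y = L := by
    rw [Affine.slope_of_Y_ne rfl hy, hL, tangentSlope, Affine.negY]
    congr 1; ring
  rw [succ_nsmul, two_nsmul, ← eq_neg_iff_add_eq_zero, Point.add_self_of_Y_ne hy, Point.neg_some,
    Point.some.injEq]
  have hx : V.toAffine.addX x x L = x := by
    rw [Affine.addX]; linear_combination hadd
  refine ⟨by rw [hs, hx], ?_⟩
  rw [hs, Affine.addY, Affine.negAddY, hx, sub_self, mul_zero, zero_add]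

namespace Member

variable {V V' : WeierstrassCurve K} (D : Member V V')

omit [DecidableEq K] in
theorem nonsingular_img {x y : K} (h : V.toAffine.Nonsingular x y)
    (hf : flex V.c₄ V.c₆ (sX V x) = 0) : V'.toAffine.Nonsingular (D.imgX x) (D.imgY x y) :=
  (Affine.equation_iff_nonsingular_of_Δ_ne_zero D.hΔ).mp (D.equation_img h.1 hf)

open Classical in
/-- The map on points, meaningful on the points killed by `3`. -/
noncomputable def img : V.toAffine.Point → V'.toAffine.Point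
  | .zero => 0
  | .some x y _ =>
    if h : V'.toAffine.Nonsingular (D.imgX x) (D.imgY x y) then Point.some _ _ h else 0

omit [CharZero K] [DecidableEq K] in
theorem img_zero : D.img 0 = 0 := rfl

theorem img_some {x y : K} (h : V.toAffine.Nonsingular x y)
    (h3 : (3 : ℕ) • (Point.some x y h : V.toAffine.Point) = 0) :
    D.img (Point.some x y h) =
      Point.some _ _ (D.nonsingular_img h (flex_of_three_nsmul V h h3).1) := by
  simp only [img]
  rw [dif_pos]

theorem three_nsmul_img {P : V.toAffine.Point} (h3 : (3 : ℕ) • P = 0) : (3 : ℕ) • D.img P = 0 := by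
  obtain _ | ⟨x, y, h⟩ := P
  · exact smul_zero _
  rw [D.img_some h h3]
  obtain ⟨hf, hY⟩ := flex_of_three_nsmul V h h3
  refine three_nsmul_of_flex V' _ (D.flex_img hf) ?_
  rw [sY_imgY, imgSY]
  exact div_ne_zero (div_ne_zero (mul_ne_zero (mul_ne_zero (by norm_num) D.hP0) hY)
    (D.hW_ne_zero hf)) (pow_ne_zero _ D.hk)

theorem img_neg {P : V.toAffine.Point} (h3 : (3 : ℕ) • P = 0) : D.img (-P) = -D.img P := by
  obtain _ | ⟨x, y, h⟩ := P
  · rfl
  have h3' : (3 : ℕ) • -(Point.some x y h : V.toAffine.Point) = 0 := by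
    rw [smul_neg, h3, neg_zero]
  rw [Point.neg_some] at h3' ⊢
  rw [D.img_some _ h3', D.img_some h h3, Point.neg_some, Point.some.injEq]
  exact ⟨rfl, D.imgY_negY x y⟩

theorem img_injOn {P Q : V.toAffine.Point} (hP : (3 : ℕ) • P = 0) (hQ : (3 : ℕ) • Q = 0)
    (h : D.img P = D.img Q) : P = Q := by
  obtain _ | ⟨x, y, hxy⟩ := P <;> obtain _ | ⟨x', y', hxy'⟩ := Q
  · rfl
  · rw [D.img_some hxy' hQ] at h
    exact absurd h.symm (Point.some_ne_zero _)
  · rw [D.img_some hxy hP] at h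
    exact absurd h (Point.some_ne_zero _)
  · rw [D.img_some hxy hP, D.img_some hxy' hQ, Point.some.injEq] at h
    obtain ⟨hf, -⟩ := flex_of_three_nsmul V hxy hP
    obtain ⟨hf', -⟩ := flex_of_three_nsmul V hxy' hQ
    obtain rfl := D.imgX_inj hf hf' h.1
    have hw := D.hW_ne_zero hf
    have hy := congrArg (sY V' (D.imgX x)) h.2
    rw [sY_imgY, sY_imgY, imgSY, imgSY, div_left_inj' (pow_ne_zero 3 D.hk), div_left_inj' hw] at hy
    have hy' := mul_left_cancel₀ (mul_ne_zero (by norm_num) D.hP0) hy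
    obtain rfl : y = y' := by
      simp only [sY] at hy'
      linear_combination (1 / 216 : K) * hy'
    rfl

/-- If `-(P + Q)` is `P` or `-P`, with `P` killed by `3`, then `Q` is `P` or `0`. -/
private theorem eq_or_eq_zero_of_neg_add {G : Type*} [AddCommGroup G] {P Q : G}
    (hP : (3 : ℕ) • P = 0) (h : -(P + Q) = P ∨ -(P + Q) = -P) : Q = P ∨ Q = 0 := by
  rcases h with h | h
  · refine Or.inl ?_
    rw [neg_eq_iff_eq_neg] at h
    rw [show Q = -P - P by rw [← h]; abel, ← sub_eq_zero,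
      show -P - P - P = -((3 : ℕ) • P) by abel, hP, neg_zero]
  · exact Or.inr (add_eq_left.mp (neg_injective h))

omit [CharZero K] [DecidableEq K] in
/-- The third of three distinct roots of the cubic cut out by the line `y = L x + N`. -/
private theorem thirdRoot_eq {W : WeierstrassCurve K} {u₁ u₂ u₃ L N : K} (hu₁₂ : u₁ - u₂ ≠ 0)
    (hu₁₃ : u₁ - u₃ ≠ 0) (hu₂₃ : u₂ - u₃ ≠ 0)
    (g₁ : (L * u₁ + N) ^ 2 + W.a₁ * u₁ * (L * u₁ + N) + W.a₃ * (L * u₁ + N) =
      u₁ ^ 3 + W.a₂ * u₁ ^ 2 + W.a₄ * u₁ + W.a₆)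
    (g₂ : (L * u₂ + N) ^ 2 + W.a₁ * u₂ * (L * u₂ + N) + W.a₃ * (L * u₂ + N) =
      u₂ ^ 3 + W.a₂ * u₂ ^ 2 + W.a₄ * u₂ + W.a₆)
    (g₃ : (L * u₃ + N) ^ 2 + W.a₁ * u₃ * (L * u₃ + N) + W.a₃ * (L * u₃ + N) =
      u₃ ^ 3 + W.a₂ * u₃ ^ 2 + W.a₄ * u₃ + W.a₆) :
    u₃ = L ^ 2 + W.a₁ * L - W.a₂ - u₁ - u₂ := by
  have h12 : u₁ ^ 2 + u₁ * u₂ + u₂ ^ 2 + (W.a₂ - L ^ 2 - W.a₁ * L) * (u₁ + u₂) +
      (W.a₄ - 2 * L * N - W.a₁ * N - W.a₃ * L) = 0 := by
    refine mul_left_cancel₀ hu₁₂ ?_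
    linear_combination g₂ - g₁
  have h13 : u₁ ^ 2 + u₁ * u₃ + u₃ ^ 2 + (W.a₂ - L ^ 2 - W.a₁ * L) * (u₁ + u₃) +
      (W.a₄ - 2 * L * N - W.a₁ * N - W.a₃ * L) = 0 := by
    refine mul_left_cancel₀ hu₁₃ ?_
    linear_combination g₃ - g₁
  have : (u₂ - u₃) * (u₁ + u₂ + u₃ + (W.a₂ - L ^ 2 - W.a₁ * L)) = 0 := by
    linear_combination h12 - h13
  linear_combination (mul_eq_zero.mp this).resolve_left hu₂₃

/-- **Additivity**: the flexes on a line go to flexes on a line. -/
theorem img_add {P Q : V.toAffine.Point} (hP : (3 : ℕ) • P = 0) (hQ : (3 : ℕ) • Q = 0) :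
    D.img (P + Q) = D.img P + D.img Q := by
  have hPQ : (3 : ℕ) • (P + Q) = 0 := by rw [smul_add, hP, hQ, add_zero]
  by_cases hPQ1 : Q = -P
  · rw [hPQ1, D.img_neg hP, add_neg_cancel, add_neg_cancel, D.img_zero]
  by_cases hPQ2 : Q = P
  · subst hPQ2
    have e : ∀ {G : Type _} [AddCommGroup G] (R : G), (3 : ℕ) • R = 0 → R + R = -R := fun R hR => by
      rw [eq_neg_iff_add_eq_zero, ← hR]; abel
    rw [e _ hP, D.img_neg hP, e _ (D.three_nsmul_img hP)]
  obtain _ | ⟨x₁, y₁, h₁⟩ := P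
  · show D.img (0 + Q) = D.img 0 + D.img Q
    rw [zero_add, D.img_zero, zero_add]
  obtain _ | ⟨x₂, y₂, h₂⟩ := Q
  · show D.img (_ + 0) = D.img _ + D.img 0
    rw [add_zero, D.img_zero, add_zero]
  obtain ⟨hf₁, -⟩ := flex_of_three_nsmul V h₁ hP
  obtain ⟨hf₂, -⟩ := flex_of_three_nsmul V h₂ hQ
  have hne : x₁ ≠ x₂ := by
    intro hx
    subst hx
    rcases Affine.Y_eq_of_X_eq h₁.1 h₂.1 rfl with h | h
    · subst h; exact hPQ2 rfl
    · exact hPQ1 (by rw [Point.neg_some, Point.some.injEq]; exact ⟨rfl, by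
        rw [h, Affine.negY_negY]⟩)
  set l := V.toAffine.slope x₁ x₂ y₁ y₂ with hl
  set x₃ := V.toAffine.addX x₁ x₂ l with hx₃
  set y₃ := V.toAffine.negAddY x₁ x₂ y₁ l with hy₃
  -- the third point of the line
  have hR : -(Point.some x₁ y₁ h₁ + Point.some x₂ y₂ h₂ : V.toAffine.Point) =
      Point.some x₃ y₃ (Affine.nonsingular_negAdd h₁ h₂ fun hxy => hne hxy.1) := by
    rw [Point.add_of_X_ne hne, Point.neg_some, Point.some.injEq]
    exact ⟨rfl, by rw [Affine.addY, Affine.negY_negY]⟩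
  have hR3 : (3 : ℕ) • (Point.some x₃ y₃ (Affine.nonsingular_negAdd h₁ h₂ fun hxy => hne hxy.1)
      : V.toAffine.Point) = 0 := by
    rw [← hR, smul_neg, hPQ, neg_zero]
  obtain ⟨hf₃, -⟩ := flex_of_three_nsmul V _ hR3
  -- the three abscissae differ: `-(P + Q) = ±P` would make `Q = P` or `Q = 0`
  have hthird : ∀ {x y : K} (h : V.toAffine.Nonsingular x y), x₃ = x →
      -(Point.some x₁ y₁ h₁ + Point.some x₂ y₂ h₂ : V.toAffine.Point) = Point.some x y h ∨
        -(Point.some x₁ y₁ h₁ + Point.some x₂ y₂ h₂ : V.toAffine.Point) = -Point.some x y h := by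
    intro x y h hx
    rw [hR, Point.neg_some]
    rcases Affine.Y_eq_of_X_eq (Affine.nonsingular_negAdd h₁ h₂ fun hxy => hne hxy.1).1 h.1 hx
      with hy | hy
    · exact Or.inl (by rw [Point.some.injEq]; exact ⟨hx, hy⟩)
    · exact Or.inr (by rw [Point.some.injEq]; exact ⟨hx, hy⟩)
  have hne₁ : x₃ ≠ x₁ := fun hx =>
    (eq_or_eq_zero_of_neg_add hP (hthird h₁ hx)).elim hPQ2 (Point.some_ne_zero h₂)
  have hne₂ : x₃ ≠ x₂ := fun hx =>
    (eq_or_eq_zero_of_neg_add hQ (by rw [add_comm]; exact hthird h₂ hx)).elim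
      (fun e => hPQ2 e.symm) (Point.some_ne_zero h₁)
  -- the three images lie on a line
  obtain ⟨L, N, hline⟩ := D.img_line l (y₁ - l * x₁)
  have e₁ := hline x₁ y₁ hf₁ (by ring)
  have e₂ := hline x₂ y₂ hf₂ (by
    rw [hl, Affine.slope_of_X_ne hne]
    have := sub_ne_zero.mpr hne
    field_simp
    ring)
  have e₃ := hline x₃ y₃ hf₃ (by rw [hy₃, Affine.negAddY, ← hx₃]; ring)
  have g₁ := (Affine.equation_iff ..).mp (D.equation_img h₁.1 hf₁)
  have g₂ := (Affine.equation_iff ..).mp (D.equation_img h₂.1 hf₂)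
  have g₃ := (Affine.equation_iff ..).mp
    (D.equation_img (Affine.nonsingular_negAdd h₁ h₂ fun hxy => hne hxy.1).1 hf₃)
  rw [e₁] at g₁; rw [e₂] at g₂; rw [e₃] at g₃
  set u₁ := D.imgX x₁
  set u₂ := D.imgX x₂
  set u₃ := D.imgX x₃
  have hu₁₂ : u₁ - u₂ ≠ 0 := sub_ne_zero.mpr fun h => hne (D.imgX_inj hf₁ hf₂ h)
  have hu₁₃ : u₁ - u₃ ≠ 0 := sub_ne_zero.mpr fun h => hne₁ (D.imgX_inj hf₃ hf₁ h.symm)
  have hu₂₃ : u₂ - u₃ ≠ 0 := sub_ne_zero.mpr fun h => hne₂ (D.imgX_inj hf₃ hf₂ h.symm)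
  -- three distinct roots of a cubic
  have hsum := thirdRoot_eq hu₁₂ hu₁₃ hu₂₃ g₁ g₂ g₃
  have hslope : V'.toAffine.slope u₁ u₂ (D.imgY x₁ y₁) (D.imgY x₂ y₂) = L := by
    rw [Affine.slope_of_X_ne (sub_ne_zero.mp hu₁₂), e₁, e₂]
    field_simp
    ring
  have key : D.img (Point.some x₃ y₃ (Affine.nonsingular_negAdd h₁ h₂ fun hxy => hne hxy.1)) =
      -(D.img (Point.some x₁ y₁ h₁) + D.img (Point.some x₂ y₂ h₂)) := by
    rw [D.img_some _ hR3, D.img_some h₁ hP, D.img_some h₂ hQ,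
      Point.add_of_X_ne (sub_ne_zero.mp hu₁₂), Point.neg_some, Point.some.injEq]
    simp only [hslope]
    refine ⟨?_, ?_⟩
    · rw [Affine.addX]; exact hsum
    · rw [Affine.addY, Affine.negY_negY, Affine.negAddY, Affine.addX, e₁, e₃, hsum]
      ring
  rw [← hR, D.img_neg hPQ] at key
  exact neg_injective key

end Member

end Fermat.Agent.LT.Switch
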