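import Mathlib
import Fermat.Prelude.Def_FLTPrelim_Modularity
import Fermat.Agent.LT.Switch.Torsion

/-!
# The type of multiplicative reduction and the invariants

Two models with multiplicative reduction at `l` have the same number of points modulo `l` if their
invariants differ by a scaling (`l` odd) or their `c₆` agree modulo `8` (`l = 2`).
-/

set_option autoImplicit false

namespace Fermat.Agent.LT.Switch

open WeierstrassCurve

section Field

variable {F : Type*} [Field F]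

/-- The points of a Weierstrass curve as an option of pairs. -/
def pointOptionEquiv (V : WeierstrassCurve F) :
    V.toAffine.Point ≃ Option {p : F × F // V.toAffine.Nonsingular p.1 p.2} where
  toFun
    | .zero => none
    | .some x y h => some ⟨(x, y), h⟩
  invFun
    | none => .zero
    | some p => .some _ _ p.2
  left_inv := by rintro (_ | ⟨x, y, h⟩) <;> rfl
  right_inv := by rintro (_ | ⟨⟨x, y⟩, h⟩) <;> rfl

/-- A point of the short model `Y² = X³ - 27 c X - 54 e` where it is smooth. -/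
def ShortSmooth (c e : F) (p : F × F) : Prop :=
  p.2 ^ 2 = p.1 ^ 3 - 27 * c * p.1 - 54 * e ∧ (p.2 ≠ 0 ∨ p.1 ^ 2 ≠ 9 * c)

theorem nonsingular_short_iff (h2 : (2 : F) ≠ 0) (h3 : (3 : F) ≠ 0) (V : WeierstrassCurve F)
    (x y : F) : V.toAffine.Nonsingular x y ↔ ShortSmooth V.c₄ V.c₆ (sX V x, sY V x y) := by
  have h108 : (108 : F) ≠ 0 := by
    rw [show (108 : F) = 2 ^ 2 * 3 ^ 3 by norm_num]
    exact mul_ne_zero (pow_ne_zero _ h2) (pow_ne_zero _ h3)
  have h46656 : (46656 : F) ≠ 0 := by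
    rw [show (46656 : F) = 2 ^ 6 * 3 ^ 6 by norm_num]
    exact mul_ne_zero (pow_ne_zero _ h2) (pow_ne_zero _ h3)
  have heq : V.toAffine.Equation x y ↔
      sY V x y ^ 2 = sX V x ^ 3 - 27 * V.c₄ * sX V x - 54 * V.c₆ := by
    rw [Affine.equation_iff, ← sub_eq_zero, ← sub_eq_zero (a := sY V x y ^ 2), short_equation,
      mul_eq_zero]
    simp [h46656]
  have hy : sY V x y = 108 * (2 * y + V.a₁ * x + V.a₃) := rfl
  have hx : 108 * (sX V x ^ 2 - 9 * V.c₄) = 216 * (V.a₁ * sY V x y)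
      - 46656 * (V.a₁ * y - (3 * x ^ 2 + 2 * V.a₂ * x + V.a₄)) := by
    simp only [sX, sY, WeierstrassCurve.c₄, WeierstrassCurve.b₂, WeierstrassCurve.b₄]
    ring
  rw [Affine.nonsingular_iff', heq, ShortSmooth]
  refine and_congr_right' ?_
  rw [← not_iff_not]
  push Not
  constructor
  · rintro ⟨hA, hB⟩
    have hy0 : sY V x y = 0 := by rw [hy, hB, mul_zero]
    refine ⟨hy0, sub_eq_zero.mp ((mul_eq_zero.mp ?_).resolve_left h108)⟩
    rw [hx, hy0, hA]; ring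
  · rintro ⟨hy0, hc⟩
    dsimp only at hy0 hc
    rw [hy0, hc, sub_self, mul_zero, mul_zero, mul_zero, zero_sub, eq_comm, neg_eq_zero,
      mul_eq_zero] at hx
    rw [hy, mul_eq_zero] at hy0
    exact ⟨hx.resolve_left h46656, hy0.resolve_left h108⟩

/-- The affine substitution to the short model. -/
noncomputable def shortPairEquiv (h2 : (2 : F) ≠ 0) (h3 : (3 : F) ≠ 0) (V : WeierstrassCurve F) :
    F × F ≃ F × F where
  toFun p := (sX V p.1, sY V p.1 p.2)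
  invFun q := ((q.1 - 3 * V.b₂) / 36,
    (q.2 / 108 - V.a₁ * ((q.1 - 3 * V.b₂) / 36) - V.a₃) / 2)
  left_inv p := by
    have h36 : (36 : F) ≠ 0 := by
      rw [show (36 : F) = 2 ^ 2 * 3 ^ 2 by norm_num]
      exact mul_ne_zero (pow_ne_zero _ h2) (pow_ne_zero _ h3)
    have h108 : (108 : F) ≠ 0 := by
      rw [show (108 : F) = 2 ^ 2 * 3 ^ 3 by norm_num]
      exact mul_ne_zero (pow_ne_zero _ h2) (pow_ne_zero _ h3)
    have ex : (sX V p.1 - 3 * V.b₂) / 36 = p.1 := by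
      rw [sX, add_sub_cancel_right, mul_div_cancel_left₀ _ h36]
    refine Prod.ext ex ?_
    simp only [ex]
    rw [sY, mul_div_cancel_left₀ _ h108,
      show 2 * p.2 + V.a₁ * p.1 + V.a₃ - V.a₁ * p.1 - V.a₃ = 2 * p.2 by ring,
      mul_div_cancel_left₀ _ h2]
  right_inv q := by
    have h36 : (36 : F) ≠ 0 := by
      rw [show (36 : F) = 2 ^ 2 * 3 ^ 2 by norm_num]
      exact mul_ne_zero (pow_ne_zero _ h2) (pow_ne_zero _ h3)
    have h108 : (108 : F) ≠ 0 := by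
      rw [show (108 : F) = 2 ^ 2 * 3 ^ 3 by norm_num]
      exact mul_ne_zero (pow_ne_zero _ h2) (pow_ne_zero _ h3)
    refine Prod.ext ?_ ?_
    · simp only [sX]; field_simp; ring
    · simp only [sY]; field_simp; ring

/-- Scaling of short models. -/
noncomputable def scaleEquiv (c e : F) {w : F} (hw : w ≠ 0) :
    {p // ShortSmooth c e p} ≃ {p // ShortSmooth (w ^ 4 * c) (w ^ 6 * e) p} :=
  (((Equiv.mulLeft₀ (w ^ 2) (pow_ne_zero _ hw)).prodCongr
    (Equiv.mulLeft₀ (w ^ 3) (pow_ne_zero _ hw)))).subtypeEquiv fun p => by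
    show ShortSmooth c e p ↔ ShortSmooth (w ^ 4 * c) (w ^ 6 * e) (w ^ 2 * p.1, w ^ 3 * p.2)
    simp only [ShortSmooth]
    refine and_congr ?_ (or_congr ?_ ?_)
    · rw [show (w ^ 2 * p.1) ^ 3 - 27 * (w ^ 4 * c) * (w ^ 2 * p.1) - 54 * (w ^ 6 * e)
        = w ^ 6 * (p.1 ^ 3 - 27 * c * p.1 - 54 * e) by ring,
        show (w ^ 3 * p.2) ^ 2 = w ^ 6 * p.2 ^ 2 by ring]
      exact (mul_right_inj' (pow_ne_zero _ hw)).symm
    · simp [hw]
    · rw [not_iff_not, show (w ^ 2 * p.1) ^ 2 = w ^ 4 * p.1 ^ 2 by ring,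
        show 9 * (w ^ 4 * c) = w ^ 4 * (9 * c) by ring]
      exact (mul_right_inj' (pow_ne_zero _ hw)).symm

/-- Curves with scaled invariants `c₄`, `c₆` have the same number of points, away from `2` and
`3`. -/
theorem natCard_point_eq_of_scale (h2 : (2 : F) ≠ 0) (h3 : (3 : F) ≠ 0)
    (V V' : WeierstrassCurve F) {w : F} (hw : w ≠ 0) (hc : V'.c₄ = w ^ 4 * V.c₄)
    (he : V'.c₆ = w ^ 6 * V.c₆) :
    Nat.card V'.toAffine.Point = Nat.card V.toAffine.Point := by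
  have key : ∀ U : WeierstrassCurve F, {p : F × F // U.toAffine.Nonsingular p.1 p.2} ≃
      {p // ShortSmooth U.c₄ U.c₆ p} := fun U =>
    (shortPairEquiv h2 h3 U).subtypeEquiv fun p => nonsingular_short_iff h2 h3 U p.1 p.2
  have e := key V'
  rw [hc, he] at e
  exact Nat.card_congr ((pointOptionEquiv V').trans
    ((Equiv.optionCongr (e.trans ((scaleEquiv _ _ hw).symm.trans (key V).symm))).trans
      (pointOptionEquiv V).symm))

end Field

section Small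

/-- The smooth affine points of `⟨a₁, a₂, a₃, a₄, a₆⟩`, decidably. -/
def smoothSet {n : ℕ} [NeZero n] (a₁ a₂ a₃ a₄ a₆ : ZMod n) : Finset (ZMod n × ZMod n) :=
  Finset.univ.filter fun p =>
    p.2 ^ 2 + a₁ * p.1 * p.2 + a₃ * p.2 = p.1 ^ 3 + a₂ * p.1 ^ 2 + a₄ * p.1 + a₆ ∧
      (a₁ * p.2 - (3 * p.1 ^ 2 + 2 * a₂ * p.1 + a₄) ≠ 0 ∨ 2 * p.2 + a₁ * p.1 + a₃ ≠ 0)

/-- The points of a reduced curve are its smooth affine solutions and one more. -/
theorem natCard_point_eq_smoothSet {n : ℕ} [Fact n.Prime] (V : WeierstrassCurve (ZMod n)) :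
    Nat.card V.toAffine.Point = (smoothSet V.a₁ V.a₂ V.a₃ V.a₄ V.a₆).card + 1 := by
  classical
  rw [Nat.card_congr (pointOptionEquiv V), Nat.card_eq_fintype_card, Fintype.card_option,
    Fintype.card_subtype, smoothSet]
  simp only [Affine.nonsingular_iff', Affine.equation_iff]

theorem smoothSet_three : ∀ a₁ a₂ a₃ a₄ a₆ : ZMod 3,
    (⟨a₁, a₂, a₃, a₄, a₆⟩ : WeierstrassCurve (ZMod 3)).Δ = 0 →
    (⟨a₁, a₂, a₃, a₄, a₆⟩ : WeierstrassCurve (ZMod 3)).c₄ ≠ 0 →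
    (smoothSet a₁ a₂ a₃ a₄ a₆).card =
      if (⟨a₁, a₂, a₃, a₄, a₆⟩ : WeierstrassCurve (ZMod 3)).c₆ = 2 then 1 else 3 := by
  decide +kernel

theorem smoothSet_two : ∀ a₁ a₂ a₃ a₄ a₆ : ZMod 2,
    (⟨a₁, a₂, a₃, a₄, a₆⟩ : WeierstrassCurve (ZMod 2)).Δ = 0 →
    a₁ = 1 → (smoothSet a₁ a₂ a₃ a₄ a₆).card = if a₂ + a₃ = 0 then 0 else 2 := by
  decide +kernel

theorem c₆_mod_eight (V : WeierstrassCurve ℤ) (h : Odd V.a₁) :
    (8 : ℤ) ∣ V.c₆ - (-1 + 4 * (V.a₂ + V.a₃)) := by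
  have key : ∀ a₁ a₂ a₃ a₄ : ZMod 8, 4 * a₁ = 4 →
      -(a₁ ^ 2 + 4 * a₂) ^ 3 + 36 * (a₁ ^ 2 + 4 * a₂) * (2 * a₄ + a₁ * a₃)
        = -1 + 4 * (a₂ + a₃) := by decide +kernel
  refine (ZMod.intCast_zmod_eq_zero_iff_dvd _ 8).mp ?_
  obtain ⟨k, hk⟩ := h
  simp only [WeierstrassCurve.c₆, WeierstrassCurve.b₂, WeierstrassCurve.b₄]
  push_cast
  rw [show (216 : ZMod 8) = 0 from rfl, zero_mul, sub_zero]
  refine sub_eq_zero.mpr (key _ _ _ _ ?_)
  rw [hk]; push_cast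
  rw [show (4 : ZMod 8) * (2 * (k : ZMod 8) + 1) = 8 * (k : ZMod 8) + 4 by ring,
    show (8 : ZMod 8) = 0 from rfl, zero_mul, zero_add]

end Small

variable {V V' : WeierstrassCurve ℤ}

/-- `c₄` commutes with reduction. -/
theorem reductionMod_c₄ (l : ℕ) : (V.reductionMod l).c₄ = (V.c₄ : ZMod l) := by
  rw [WeierstrassCurve.reductionMod, map_c₄]; rfl

/-- `c₆` commutes with reduction. -/
theorem reductionMod_c₆ (l : ℕ) : (V.reductionMod l).c₆ = (V.c₆ : ZMod l) := by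
  rw [WeierstrassCurve.reductionMod, map_c₆]; rfl

theorem pow_six_three : ∀ w : ZMod 3, w ≠ 0 → w ^ 6 = 1 := by decide

/-- Curves with equally many points modulo `l` have the same trace at `l`. -/
theorem apOfModel_congr {l : ℕ}
    (h : Nat.card (V'.reductionMod l).toAffine.Point = Nat.card (V.reductionMod l).toAffine.Point) :
    V'.apOfModel l = V.apOfModel l := by
  simp only [WeierstrassCurve.apOfModel, WeierstrassCurve.traceOfFrobenius,
    WeierstrassCurve.card, h]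

/-- Multiplicative at the odd prime `l`, with invariants differing by a scaling. -/
theorem apOfModel_eq_of_scale {l : ℕ} [Fact l.Prime] (hl2 : l ≠ 2) (hΔ : (l : ℤ) ∣ V.Δ)
    (hΔ' : (l : ℤ) ∣ V'.Δ) (hc : ¬ (l : ℤ) ∣ V.c₄) (hc' : ¬ (l : ℤ) ∣ V'.c₄) {w : ZMod l}
    (hw : w ≠ 0) (h4 : (V'.c₄ : ZMod l) = w ^ 4 * (V.c₄ : ZMod l))
    (h6 : (V'.c₆ : ZMod l) = w ^ 6 * (V.c₆ : ZMod l)) :
    V'.apOfModel l = V.apOfModel l := by
  refine apOfModel_congr ?_
  -- at `3` the count is read off `c₆`, otherwise the short models are isomorphic by `w`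
  by_cases hl3 : l = 3
  · subst hl3
    rw [pow_six_three w hw, one_mul] at h6
    have key : ∀ U : WeierstrassCurve ℤ, ((3 : ℕ) : ℤ) ∣ U.Δ → ¬ ((3 : ℕ) : ℤ) ∣ U.c₄ →
        Nat.card (U.reductionMod 3).toAffine.Point =
          (if ((U.c₆ : ℤ) : ZMod 3) = 2 then 1 else 3) + 1 := fun U h h' => by
      rw [natCard_point_eq_smoothSet, smoothSet_three, ← reductionMod_c₆]
      · show (U.reductionMod 3).Δ = 0
        rw [WeierstrassCurve.reductionMod, map_Δ]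
        exact (ZMod.intCast_zmod_eq_zero_iff_dvd _ _).mpr h
      · show (U.reductionMod 3).c₄ ≠ 0
        rw [reductionMod_c₄]
        exact fun h0 => h' ((ZMod.intCast_zmod_eq_zero_iff_dvd _ _).mp h0)
    rw [key V' hΔ' hc', key V hΔ hc, h6]
  have hne : ∀ {k : ℕ}, k.Prime → l ≠ k → (k : ZMod l) ≠ 0 := fun {k} hk hlk h0 => hlk
    ((Nat.prime_dvd_prime_iff_eq Fact.out hk).mp ((ZMod.natCast_eq_zero_iff k l).mp h0))
  exact natCard_point_eq_of_scale (by exact_mod_cast hne Nat.prime_two hl2)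
    (by exact_mod_cast hne Nat.prime_three hl3) _ _ hw
    (by rw [reductionMod_c₄, reductionMod_c₄, h4]) (by rw [reductionMod_c₆, reductionMod_c₆, h6])

theorem odd_a₁ {U : WeierstrassCurve ℤ} (h : ¬ (2 : ℤ) ∣ U.c₄) : Odd U.a₁ := by
  refine Int.not_even_iff_odd.mp fun ⟨r, hr⟩ => h ?_
  refine ⟨2 * U.b₂ * r ^ 2 + 2 * U.a₂ * U.b₂ - 12 * U.b₄, ?_⟩
  simp only [WeierstrassCurve.c₄, WeierstrassCurve.b₂]
  rw [hr]; ring

/-- Multiplicative at `2` with the same `c₆` modulo `8`. -/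
theorem apOfModel_two_eq (hΔ : (2 : ℤ) ∣ V.Δ) (hΔ' : (2 : ℤ) ∣ V'.Δ) (hc : ¬ (2 : ℤ) ∣ V.c₄)
    (hc' : ¬ (2 : ℤ) ∣ V'.c₄) (h6 : (8 : ℤ) ∣ V'.c₆ - V.c₆) :
    V'.apOfModel 2 = V.apOfModel 2 := by
  refine apOfModel_congr ?_
  have key : ∀ U : WeierstrassCurve ℤ, (2 : ℤ) ∣ U.Δ → Odd U.a₁ →
      Nat.card (U.reductionMod 2).toAffine.Point =
        (if ((U.a₂ + U.a₃ : ℤ) : ZMod 2) = 0 then 0 else 2) + 1 := fun U h ⟨r, hr⟩ => by
    rw [natCard_point_eq_smoothSet, smoothSet_two]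
    · simp [WeierstrassCurve.reductionMod]
    · show (U.reductionMod 2).Δ = 0
      rw [WeierstrassCurve.reductionMod, map_Δ]
      exact (ZMod.intCast_zmod_eq_zero_iff_dvd _ 2).mpr (by exact_mod_cast h)
    · show ((U.a₁ : ℤ) : ZMod 2) = 1
      rw [hr]; push_cast
      rw [show (2 : ZMod 2) = 0 from rfl, zero_mul, zero_add]
  -- the count is read off the parity of `a₂ + a₃`, which `c₆` modulo `8` determines
  have h1 := c₆_mod_eight V (odd_a₁ hc)
  have h2 := c₆_mod_eight V' (odd_a₁ hc')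
  have hpar : ((V'.a₂ + V'.a₃ : ℤ) : ZMod 2) = ((V.a₂ + V.a₃ : ℤ) : ZMod 2) := by
    rw [ZMod.intCast_eq_intCast_iff_dvd_sub]
    push_cast
    omega
  rw [key V' hΔ' (odd_a₁ hc'), key V hΔ (odd_a₁ hc), hpar]

end Fermat.Agent.LT.Switch
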