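import Fermat.Agent.LT.Switch.Forms
import Mathlib

/-!
# Values of the pencil quartic with no square factor away from a modulus

If the primes up to `16` and those dividing `c³ - e²` divide `m`, then for large `X` a box of side
`X` of parameters in fixed classes modulo `m`, with value not divisible by `m`, contains a coprime
pair whose value is divisible by no square of a prime outside `m`: primitive points of the lattices
`a ≡ r b (mod q²)` are few, and there are `o(X²)` primes up to a constant times `X²`.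

In the box the primes `16 < q ≤ Q` exclude at most `5 X² / 16 + 7 Q X` points. With `M = C X` the
coordinates, the primes beyond `Q` exclude at most `(9 + 120) M² / Q` plus `8` for each prime up
to `R M²`. Hence `Q = 8 * 129 * C ^ 2 + 16`, `X > 56 Q` and at most `X² / 64` such primes leave a
point (`counts_lt_sq`); primes up to `16` are put into the modulus.

Main result: `eventually_exists_squarefree`.
-/

set_option autoImplicit false

open Finset Filter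

namespace Fermat.Agent.LT.Switch

/-! ## Primitive points of a lattice -/

/-- The number of rows times the length of a row, for a shortest vector of size `l` in a box of
radius `M`, when the lattice has determinant `Q`. -/
private theorem rows_mul_le {l M Q : ℝ} (hl : 0 < l) (hQ : 0 < Q) (hlM : l ≤ M)
    (hQle : Q ≤ 2 * l * M) :
    (2 * (2 * l * M / Q) + 1) * (2 * (2 * M / l) + 1) ≤ 30 * M ^ 2 / Q := by
  rw [div_eq_mul_inv _ Q, div_eq_mul_inv _ l]
  have e1 : l⁻¹ * l = 1 := inv_mul_cancel₀ hl.ne'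
  have e2 : Q⁻¹ * Q = 1 := inv_mul_cancel₀ hQ.ne'
  set A := Q⁻¹
  set B := l⁻¹
  have hA : 0 ≤ A := by positivity
  have hB : 0 ≤ B := by positivity
  have hM : 0 ≤ M := hl.le.trans hlM
  have hB2 : B * M ≤ 2 * M ^ 2 * A := by
    have := mul_le_mul_of_nonneg_left hQle (mul_nonneg hA (mul_nonneg hB hM))
    have e3 : A * (B * M) * Q = B * M := by linear_combination (B * M) * e2
    have e4 : A * (B * M) * (2 * l * M) = 2 * M ^ 2 * A := by
      linear_combination (2 * M ^ 2 * A) * e1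
    linarith
  have h1 : 1 ≤ 2 * M ^ 2 * A := by
    have : l * B ≤ M * B := mul_le_mul_of_nonneg_right hlM hB
    linarith [mul_comm l B, mul_comm M B]
  have h3 : l * M * A ≤ M ^ 2 * A := by
    rw [sq]
    gcongr
  have e5 : (2 * (2 * l * M * A) + 1) * (2 * (2 * M * B) + 1)
      = 16 * M ^ 2 * A + 4 * (l * M * A) + 4 * (B * M) + 1 := by
    linear_combination (16 * M ^ 2 * A) * e1
  rw [e5, show 30 * M ^ 2 / Q = 30 * (M ^ 2 * A) by rw [div_eq_mul_inv]; ring]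
  linarith

/-- The points of `T` on one line `det = k q ²` lie in one translate of a segment of the line
through the shortest point. -/
private theorem card_det_fibre_le {T : Finset (ℤ × ℤ)} {det : ℤ × ℤ → ℤ} {v : ℤ × ℤ} {x y : ℤ}
    {q lam M : ℕ} (hdet : det = fun u => v.1 * u.2 - v.2 * u.1)
    (hmul : ∀ u : ℤ × ℤ, det u = 0 →
      u = ((x * u.1 + y * u.2) * v.1, (x * u.1 + y * u.2) * v.2))
    (hlam' : (lam : ℤ) = max |v.1| |v.2|) (hlam0 : 0 < lam)
    (hbox : ∀ u ∈ T, |u.1| ≤ M ∧ |u.2| ≤ M) (hdiv : ∀ u ∈ T, (q : ℤ) ^ 2 ∣ det u) (k : ℤ) :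
    (T.filter fun u => det u / (q : ℤ) ^ 2 = k).card ≤ 2 * (2 * M / lam) + 1 := by
  set L : ℕ := 2 * M / lam
  rcases (T.filter fun u => det u / (q : ℤ) ^ 2 = k).eq_empty_or_nonempty with he | ⟨u₀, hu₀⟩
  · rw [he]; simp
  rw [Finset.mem_filter] at hu₀
  refine le_of_le_of_eq (Finset.card_le_card_of_injOn
    (fun u : ℤ × ℤ => x * (u.1 - u₀.1) + y * (u.2 - u₀.2)) (t := Finset.Icc (-(L : ℤ)) L)
    (fun u hu => ?_) (fun u hu u' hu' he => ?_)) (by rw [Int.card_Icc]; omega)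
  -- `u - u₀ = t • v` on the line, and the box gives `|t| * lam ≤ 2 * M`
  · obtain ⟨hu, hk⟩ := Finset.mem_filter.mp hu
    have e : det (u.1 - u₀.1, u.2 - u₀.2) = 0 := by
      have h1 := Int.ediv_mul_cancel (hdiv u hu)
      have h2 := Int.ediv_mul_cancel (hdiv u₀ hu₀.1)
      rw [hk] at h1
      rw [hu₀.2] at h2
      simp only [hdet] at h1 h2 ⊢
      linear_combination h2 - h1
    have e' := hmul _ e
    simp only [Prod.mk.injEq] at e'
    set t := x * (u.1 - u₀.1) + y * (u.2 - u₀.2)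
    have b1 : |t| * |v.1| ≤ 2 * M := by
      rw [← abs_mul, ← e'.1]
      have := (hbox u hu).1
      have := (hbox u₀ hu₀.1).1
      have := abs_sub u.1 u₀.1
      linarith
    have b2 : |t| * |v.2| ≤ 2 * M := by
      rw [← abs_mul, ← e'.2]
      have := (hbox u hu).2
      have := (hbox u₀ hu₀.1).2
      have := abs_sub u.2 u₀.2
      linarith
    have b : |t| * (lam : ℤ) ≤ 2 * M := by
      rw [hlam', mul_max_of_nonneg _ _ (abs_nonneg _)]
      exact max_le b1 b2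
    simp only [Finset.coe_Icc, Set.mem_Icc]
    rw [← abs_le]
    have b' : t.natAbs * lam ≤ 2 * M := by
      rw [← Int.natCast_natAbs] at b
      exact_mod_cast b
    rw [← Int.natCast_natAbs]
    exact_mod_cast (Nat.le_div_iff_mul_le hlam0).mpr b'
  -- the coefficient `t` determines the point
  · obtain ⟨hu, hk⟩ := Finset.mem_filter.mp hu
    obtain ⟨hu', hk'⟩ := Finset.mem_filter.mp hu'
    have e : det (u.1 - u'.1, u.2 - u'.2) = 0 := by
      have h1 := Int.ediv_mul_cancel (hdiv u hu)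
      have h2 := Int.ediv_mul_cancel (hdiv u' hu')
      rw [hk] at h1
      rw [hk'] at h2
      simp only [hdet] at h1 h2 ⊢
      linear_combination h2 - h1
    have e' := hmul _ e
    simp only [Prod.mk.injEq] at e'
    simp only at he
    have ht : x * (u.1 - u'.1) + y * (u.2 - u'.2) = 0 := by linear_combination he
    rw [ht, zero_mul, zero_mul] at e'
    exact Prod.ext (by linarith [e'.1]) (by linarith [e'.2])

/-- A set of primitive multiples of one vector has at most two points. -/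
private theorem card_le_two_of_primitive {T : Finset (ℤ × ℤ)} {v : ℤ × ℤ}
    (h : ∀ u ∈ T, ∃ t : ℤ, u = (t * v.1, t * v.2) ∧ IsCoprime u.1 u.2) : T.card ≤ 2 := by
  have hsub : T ⊆ {v, -v} := fun u hu => by
    obtain ⟨t, e, hcop⟩ := h u hu
    rw [e] at hcop
    rcases Int.isUnit_iff.mp (hcop.isUnit_of_dvd' ⟨v.1, rfl⟩ ⟨v.2, rfl⟩) with h | h
    · rw [e, h]; simp
    · rw [e, h]; simp [Prod.ext_iff]
  exact (card_le_card hsub).trans card_le_two

/-- Primitive points of a small box in a lattice of index `q²`. -/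
theorem card_primitive_lattice {q : ℕ} (hq : 0 < q) (r : ℤ) (M : ℕ) (T : Finset (ℤ × ℤ))
    (hT : ∀ x ∈ T, IsCoprime x.1 x.2 ∧ (q : ℤ) ^ 2 ∣ x.1 - r * x.2 ∧ |x.1| ≤ M ∧ |x.2| ≤ M) :
    (T.card : ℝ) ≤ 30 * (M : ℝ) ^ 2 / (q : ℝ) ^ 2 + 2 := by
  classical
  have hpos : 0 ≤ 30 * (M : ℝ) ^ 2 / (q : ℝ) ^ 2 := by positivity
  rcases T.eq_empty_or_nonempty with rfl | hne
  · simpa using by linarith
  -- a shortest point `v` of `T`; as it is primitive, the points with `det = 0` are its multiples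
  obtain ⟨v, hv, hmin⟩ := T.exists_min_image (fun x => max |x.1| |x.2|) hne
  set det : ℤ × ℤ → ℤ := fun x => v.1 * x.2 - v.2 * x.1 with hdet
  obtain ⟨⟨x, y, hxy⟩, hvdvd, hv1, hv2⟩ := hT v hv
  have hmul : ∀ u : ℤ × ℤ, det u = 0 →
      u = ((x * u.1 + y * u.2) * v.1, (x * u.1 + y * u.2) * v.2) := fun u hu => by
    simp only [hdet] at hu
    refine Prod.ext ?_ ?_
    · linear_combination (-u.1) * hxy - y * hu
    · linear_combination (-u.2) * hxy + x * hu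
  -- if all points are on the line of `v`, they are primitive multiples of it, so `±v`
  by_cases hall : ∀ u ∈ T, det u = 0
  · have := card_le_two_of_primitive fun u hu => ⟨_, hmul u (hall u hu), (hT u hu).1⟩
    have : (T.card : ℝ) ≤ 2 := by exact_mod_cast this
    linarith
  -- otherwise `q² ∣ det u` and `|det u| ≤ 2 * lam * M`: the points lie on at most `2 K + 1`
  -- lines parallel to `v`, with at most `2 L + 1` points on each
  push Not at hall
  obtain ⟨w, hw, hwdet⟩ := hall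
  set lam : ℕ := (max |v.1| |v.2|).toNat
  have hlam' : (lam : ℤ) = max |v.1| |v.2| := Int.toNat_of_nonneg (le_max_of_le_left (abs_nonneg _))
  have hlamM : lam ≤ M := by
    have : (lam : ℤ) ≤ M := hlam' ▸ max_le hv1 hv2
    exact_mod_cast this
  have hdiv : ∀ u ∈ T, (q : ℤ) ^ 2 ∣ det u := fun u hu => by
    obtain ⟨k, hk⟩ := hvdvd
    obtain ⟨l, hl⟩ := (hT u hu).2.1
    exact ⟨k * u.2 - l * v.2, by simp only [hdet]; linear_combination u.2 * hk - v.2 * hl⟩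
  have hbd : ∀ u ∈ T, |det u| ≤ 2 * lam * M := fun u hu => by
    obtain ⟨-, -, h1, h2⟩ := hT u hu
    have a1 : |v.1| ≤ (lam : ℤ) := hlam' ▸ le_max_left _ _
    have a2 : |v.2| ≤ (lam : ℤ) := hlam' ▸ le_max_right _ _
    calc |det u| ≤ |v.1 * u.2| + |v.2 * u.1| := abs_sub _ _
      _ = |v.1| * |u.2| + |v.2| * |u.1| := by rw [abs_mul, abs_mul]
      _ ≤ lam * M + lam * M := by
        gcongr
      _ = 2 * lam * M := by ring
  have hlam0 : 0 < lam := by
    by_contra h0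
    have h := hbd w hw
    rw [Nat.eq_zero_of_not_pos h0] at h
    simp only [Nat.cast_zero, mul_zero, zero_mul, abs_nonpos_iff] at h
    exact hwdet h
  have hq2 : q ^ 2 ≤ 2 * lam * M := by
    have h1 := Int.le_of_dvd (abs_pos.mpr hwdet) ((dvd_abs _ _).mpr (hdiv w hw))
    have h2 : ((q ^ 2 : ℕ) : ℤ) ≤ ((2 * lam * M : ℕ) : ℤ) := by
      push_cast
      exact h1.trans (hbd w hw)
    exact_mod_cast h2
  set K : ℕ := 2 * lam * M / q ^ 2
  have hq20 : 0 < q ^ 2 := pow_pos hq 2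
  have hkey : ∀ u ∈ T, det u / (q : ℤ) ^ 2 ∈ Finset.Icc (-(K : ℤ)) K := fun u hu => by
    obtain ⟨k, hk⟩ := hdiv u hu
    rw [hk, Int.mul_ediv_cancel_left _ (by positivity), Finset.mem_Icc, ← abs_le]
    have h := hbd u hu
    rw [hk, abs_mul, abs_of_nonneg (a := (q : ℤ) ^ 2) (by positivity)] at h
    have h' : q ^ 2 * k.natAbs ≤ 2 * lam * M := by
      rw [← Int.natCast_natAbs] at h
      exact_mod_cast h
    rw [← Int.natCast_natAbs]
    exact_mod_cast (Nat.le_div_iff_mul_le hq20).mpr (by rw [mul_comm]; exact h')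
  set L : ℕ := 2 * M / lam
  have hfib : ∀ k ∈ Finset.Icc (-(K : ℤ)) K,
      (T.filter fun u => det u / (q : ℤ) ^ 2 = k).card ≤ 2 * L + 1 := fun k _ =>
    card_det_fibre_le hdet hmul hlam' hlam0 (fun u hu => (hT u hu).2.2) hdiv k
  have hcard : T.card ≤ (2 * K + 1) * (2 * L + 1) := by
    refine (Finset.card_le_mul_card_image_of_maps_to hkey _ hfib).trans_eq ?_
    rw [Int.card_Icc, show ((K : ℤ) + 1 - -(K : ℤ)).toNat = 2 * K + 1 by omega]
    ring
  have hR : (0 : ℝ) < (lam : ℝ) := Nat.cast_pos.mpr hlam0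
  have hQ : (0 : ℝ) < (q : ℝ) ^ 2 := by positivity
  have hKle : (K : ℝ) ≤ 2 * lam * M / (q : ℝ) ^ 2 := by
    refine le_trans Nat.cast_div_le ?_
    push_cast; rfl
  have hLle : (L : ℝ) ≤ 2 * M / lam := by
    refine le_trans Nat.cast_div_le ?_
    push_cast; rfl
  have hq2' : (q : ℝ) ^ 2 ≤ 2 * lam * M := by exact_mod_cast hq2
  have hlM : (lam : ℝ) ≤ M := by exact_mod_cast hlamM
  calc (T.card : ℝ) ≤ ((2 * K + 1 : ℕ) : ℝ) * ((2 * L + 1 : ℕ) : ℝ) := by exact_mod_cast hcard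
    _ ≤ (2 * (2 * lam * M / (q : ℝ) ^ 2) + 1) * (2 * (2 * M / lam) + 1) := by
      push_cast
      gcongr
    _ ≤ 30 * (M : ℝ) ^ 2 / (q : ℝ) ^ 2 := rows_mul_le hR hQ hlM hq2'
    _ ≤ _ := by linarith

/-! ## Classes and roots modulo a square -/

/-- Integers of an interval of length `X` in one class modulo `Q`. -/
theorem card_class_le {Q : ℕ} (A : ℤ) (X : ℕ) (s : Finset ℤ)
    (hs : s ⊆ Finset.Ico A (A + X)) (h : ∀ i ∈ s, ∀ i' ∈ s, (Q : ℤ) ∣ i - i') :
    s.card ≤ X / Q + 1 := by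
  refine le_of_le_of_eq (Finset.card_le_card_of_injOn (fun i => (i - A).toNat / Q)
    (t := Finset.range (X / Q + 1)) (fun i hi => ?_) fun i hi i' hi' he => ?_) (Finset.card_range _)
  · have := Finset.mem_Ico.mp (hs hi)
    simp only [Finset.coe_range, Set.mem_Iio]
    exact Nat.lt_succ_of_le (Nat.div_le_div_right (by omega))
  · have h1 := Finset.mem_Ico.mp (hs hi)
    have h2 := Finset.mem_Ico.mp (hs hi')
    have hd := h i hi i' hi'
    simp only at he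
    have hm : (i - A).toNat % Q = (i' - A).toNat % Q := by
      have : (((i - A).toNat : ℤ)) % Q = (((i' - A).toNat : ℤ)) % Q := by
        rw [Int.toNat_of_nonneg (by omega), Int.toNat_of_nonneg (by omega)]
        refine Int.emod_eq_emod_iff_emod_sub_eq_zero.mpr (Int.emod_eq_zero_of_dvd ?_)
        rwa [show i - A - (i' - A) = i - i' by ring]
      exact_mod_cast this
    have e1 := Nat.div_add_mod (i - A).toNat Q
    have e2 := Nat.div_add_mod (i' - A).toNat Q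
    rw [he, hm, e2] at e1
    omega

open Polynomial in
/-- The roots of the quartic modulo `q²`. -/
theorem card_roots_sq_le {q : ℕ} [Fact q.Prime] (c e : ℤ) (h2 : q ≠ 2) (h3 : q ≠ 3)
    (hD : ¬ (q : ℤ) ∣ c ^ 3 - e ^ 2) :
    ((Finset.range (q ^ 2)).filter fun r : ℕ => (q : ℤ) ^ 2 ∣ hP c e r 1).card ≤ 4 := by
  classical
  have hq : q.Prime := Fact.out
  set p : (ZMod q)[X] := X ^ 4 - (Polynomial.C (6 * (c : ZMod q)) * X ^ 2
    + Polynomial.C (8 * (e : ZMod q)) * X + Polynomial.C (3 * (c : ZMod q) ^ 2)) with hp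
  have hdeg : (Polynomial.C (6 * (c : ZMod q)) * X ^ 2
    + Polynomial.C (8 * (e : ZMod q)) * X + Polynomial.C (3 * (c : ZMod q) ^ 2)).degree < 4 :=
    Polynomial.degree_quadratic_le.trans_lt (by decide)
  have hpdeg : p.natDegree = 4 := Polynomial.natDegree_eq_of_degree_eq_some (by
    rw [hp, Polynomial.degree_sub_eq_left_of_degree_lt (by rwa [Polynomial.degree_X_pow]),
      Polynomial.degree_X_pow])
  have hne : ∀ {k : ℕ}, k.Prime → q ≠ k → (k : ZMod q) ≠ 0 := fun {k} hk hqk h0 =>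
    hqk ((Nat.prime_dvd_prime_iff_eq hq hk).mp ((ZMod.natCast_eq_zero_iff k q).mp h0))
  have hz : ∀ {n : ℤ}, (q : ℤ) ∣ n → (n : ZMod q) = 0 := fun {n} h =>
    (ZMod.intCast_zmod_eq_zero_iff_dvd n q).mpr h
  have hD' : (c : ZMod q) ^ 3 - (e : ZMod q) ^ 2 ≠ 0 := fun h => hD
    ((ZMod.intCast_zmod_eq_zero_iff_dvd _ q).mp (by push_cast; exact h))
  have hroot : ∀ r : ℕ, (q : ℤ) ^ 2 ∣ hP c e r 1 → hP (c : ZMod q) e (r : ZMod q) 1 = 0 :=
    fun r hr => by
    have := hz (dvd_trans (dvd_pow_self _ two_ne_zero) hr)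
    simp only [hP] at this ⊢
    push_cast at this ⊢
    linear_combination this
  -- reduction modulo `q` maps the roots modulo `q²` injectively into the roots of `p`
  refine le_trans (Finset.card_le_card_of_injOn (fun r : ℕ => (r : ZMod q))
    (t := p.roots.toFinset) (fun r hr => ?_) fun r hr r' hr' he => ?_)
    ((p.roots.toFinset_card_le).trans (p.card_roots'.trans_eq hpdeg))
  · obtain ⟨-, hr⟩ := Finset.mem_filter.mp hr
    have h := hroot r hr
    have hp0 : p ≠ 0 := fun h0 => by rw [h0] at hpdeg; simp at hpdeg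
    simp only [Finset.mem_coe, Multiset.mem_toFinset, Polynomial.mem_roots hp0]
    simp only [hP] at h
    simp only [Polynomial.IsRoot, hp, eval_sub, eval_pow, eval_X, eval_add, eval_mul, eval_C]
    linear_combination h
  · obtain ⟨hrq, hr⟩ := Finset.mem_filter.mp hr
    obtain ⟨hrq', hr'⟩ := Finset.mem_filter.mp hr'
    simp only at he
    obtain ⟨d, hd⟩ : (q : ℤ) ∣ (r' : ℤ) - r := by
      rw [← ZMod.intCast_zmod_eq_zero_iff_dvd]; push_cast; rw [he, sub_self]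
    -- Taylor at `r`: the derivative `D` is prime to `q`, so `r' ≡ r (mod q²)`
    set D : ℤ := 4 * ((r : ℤ) ^ 3 - 3 * c * r - 2 * e) with hDdef
    have hDq : ¬ (q : ℤ) ∣ D := fun h => by
      refine hP_separable (by exact_mod_cast hne Nat.prime_two h2)
        (by exact_mod_cast hne Nat.prime_three h3) hD' (hroot r hr) ?_
      have := hz h
      rw [hDdef] at this
      push_cast at this
      linear_combination this
    have hdd : (q : ℤ) ^ 2 ∣ ((r' : ℤ) - r) * D := by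
      have e1 : ((r' : ℤ) - r) * D = hP c e r' 1 - hP c e r 1 - ((r' : ℤ) - r) ^ 2 *
          (6 * (r : ℤ) ^ 2 + 4 * r * ((r' : ℤ) - r) + ((r' : ℤ) - r) ^ 2 - 6 * c) := by
        simp only [hDdef, hP]; ring
      rw [e1]
      exact dvd_sub (dvd_sub hr' hr) (Dvd.dvd.mul_right (pow_dvd_pow_of_dvd ⟨d, hd⟩ 2) _)
    have hcop : IsCoprime ((q : ℤ) ^ 2) D :=
      ((Nat.prime_iff_prime_int.mp hq).coprime_iff_not_dvd.mpr hDq).pow_left
    have h4 := hcop.dvd_of_dvd_mul_right hdd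
    have h5 := Finset.mem_range.mp hrq
    have h6 := Finset.mem_range.mp hrq'
    have h7 : ((r' : ℤ) - r).natAbs < q ^ 2 := by omega
    have h8 : (r' : ℤ) - r = 0 := Int.eq_zero_of_dvd_of_natAbs_lt_natAbs h4 (by
      rwa [Int.natAbs_pow, Int.natAbs_natCast])
    omega

/-- A value divisible by `q²` with `q ∤ b` lies over a root. -/
theorem exists_root_of_dvd {q : ℕ} (hq : q.Prime) (c e a b : ℤ) (hb : ¬ (q : ℤ) ∣ b)
    (h : (q : ℤ) ^ 2 ∣ hP c e a b) :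
    ∃ r ∈ (Finset.range (q ^ 2)).filter (fun r : ℕ => (q : ℤ) ^ 2 ∣ hP c e r 1),
      (q : ℤ) ^ 2 ∣ a - r * b := by
  have hcop : IsCoprime b ((q : ℤ) ^ 2) :=
    (((Nat.prime_iff_prime_int.mp hq).coprime_iff_not_dvd.mpr hb).pow_left).symm
  obtain ⟨s, t, hst⟩ := hcop
  have : NeZero (q ^ 2) := ⟨pow_ne_zero 2 hq.ne_zero⟩
  set r : ℕ := ((a * s : ℤ) : ZMod (q ^ 2)).val with hr
  have hr' : (q : ℤ) ^ 2 ∣ (r : ℤ) - a * s := by
    have : (((r : ℤ) - a * s : ℤ) : ZMod (q ^ 2)) = 0 := by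
      push_cast; rw [hr, ZMod.natCast_zmod_val]; push_cast; ring
    exact_mod_cast (ZMod.intCast_zmod_eq_zero_iff_dvd _ _).mp this
  obtain ⟨k, hk⟩ := hr'
  have hab : (q : ℤ) ^ 2 ∣ a - r * b := ⟨a * t - k * b, by linear_combination -a * hst - b * hk⟩
  refine ⟨r, Finset.mem_filter.mpr ⟨Finset.mem_range.mpr (ZMod.val_lt _), ?_⟩, hab⟩
  have hcop4 : IsCoprime ((q : ℤ) ^ 2) (b ^ 4) :=
    (((Nat.prime_iff_prime_int.mp hq).coprime_iff_not_dvd.mpr hb).pow_left).pow_right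
  refine hcop4.dvd_of_dvd_mul_left ?_
  obtain ⟨l, hl⟩ := hab
  have e1 : b ^ 4 * hP c e r 1 = hP c e (a - q ^ 2 * l) b := by
    rw [← hl]; simp only [hP]; ring
  rw [e1]
  have e2 : hP c e (a - q ^ 2 * l) b = hP c e a b + (q : ℤ) ^ 2 * (-(4 * a ^ 3 * l)
      + 6 * a ^ 2 * (q : ℤ) ^ 2 * l ^ 2 - 4 * a * ((q : ℤ) ^ 2) ^ 2 * l ^ 3
      + ((q : ℤ) ^ 2) ^ 3 * l ^ 4 + 12 * c * a * l * b ^ 2 - 6 * c * (q : ℤ) ^ 2 * l ^ 2 * b ^ 2
      + 8 * e * l * b ^ 3) := by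
    simp only [hP]; ring
  rw [e2]
  exact dvd_add h (dvd_mul_right _ _)

/-! ## Sizes and primes -/

/-- The size of a value in a box. -/
theorem natAbs_hP_le (c e a b : ℤ) (M : ℕ) (ha : |a| ≤ M) (hb : |b| ≤ M) :
    |hP c e a b| ≤ (1 + 6 * |c| + 8 * |e| + 3 * c ^ 2) * (M : ℤ) ^ 4 := by
  have hp : ∀ i j : ℕ, i + j = 4 → |a| ^ i * |b| ^ j ≤ (M : ℤ) ^ 4 := fun i j h => by
    rw [← h, pow_add]; gcongr
  have h40 := hp 4 0 rfl
  have h22 := hp 2 2 rfl
  have h13 := hp 1 3 rfl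
  have h04 := hp 0 4 rfl
  calc |hP c e a b| ≤ |a ^ 4| + |6 * c * a ^ 2 * b ^ 2| + |8 * e * a * b ^ 3|
      + |3 * c ^ 2 * b ^ 4| := by
        refine (abs_sub _ _).trans (add_le_add_left ((abs_sub _ _).trans
          (add_le_add_left (abs_sub _ _) _)) _)
    _ = |a| ^ 4 * |b| ^ 0 + 6 * |c| * (|a| ^ 2 * |b| ^ 2) + 8 * |e| * (|a| ^ 1 * |b| ^ 3)
        + 3 * c ^ 2 * (|a| ^ 0 * |b| ^ 4) := by
        simp only [abs_mul, abs_pow, abs_of_pos (show (0 : ℤ) < 6 by norm_num),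
          abs_of_pos (show (0 : ℤ) < 8 by norm_num),
          abs_of_pos (show (0 : ℤ) < 3 by norm_num), sq_abs]
        ring
    _ ≤ (M : ℤ) ^ 4 + 6 * |c| * (M : ℤ) ^ 4 + 8 * |e| * (M : ℤ) ^ 4 + 3 * c ^ 2 * (M : ℤ) ^ 4 := by
        gcongr
    _ = _ := by ring

/-- Primes up to a multiple of `X²` are few compared with `X²`. -/
theorem eventually_primeCounting_sq_le (C : ℕ) (hC : 0 < C) {ε : ℝ} (hε : 0 < ε) :
    ∀ᶠ X : ℕ in atTop, ((Nat.primeCounting (C * X ^ 2) : ℕ) : ℝ) ≤ ε * (X : ℝ) ^ 2 := by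
  have ht : Tendsto (fun X : ℕ => ((C * X ^ 2 : ℕ) : ℝ)) atTop atTop :=
    tendsto_natCast_atTop_atTop.comp (tendsto_atTop_mono (fun X => by
      calc X ≤ X ^ 2 := Nat.le_self_pow two_ne_zero X
        _ ≤ C * X ^ 2 := Nat.le_mul_of_pos_left _ hC) tendsto_id)
  filter_upwards [ht.eventually (Chebyshev.eventually_primeCounting_le one_pos),
    ht.eventually (Real.tendsto_log_atTop.eventually_ge_atTop
      ((Real.log 4 + 1) * C / ε + 1))] with X h1 h2
  rw [Nat.floor_natCast] at h1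
  have hpos : 0 < Real.log ((C * X ^ 2 : ℕ) : ℝ) := by
    have : 0 ≤ (Real.log 4 + 1) * C / ε := by positivity
    linarith
  refine h1.trans ((div_le_iff₀ hpos).mpr ?_)
  have h3 : (Real.log 4 + 1) * C ≤ ε * Real.log ((C * X ^ 2 : ℕ) : ℝ) := by
    rw [← div_le_iff₀' hε]; linarith
  push_cast at h3 ⊢
  have := mul_le_mul_of_nonneg_left h3 (sq_nonneg (X : ℝ))
  linarith

/-! ## The bad parameters in a box -/

/-- The parameters divisible by `q ^ k` in a class modulo `m` are congruent modulo `q ^ k`. -/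
private theorem dvd_sub_of_dvd_affine {q m : ℕ} (hq : q.Prime) (hqm : ¬ q ∣ m) (k : ℕ)
    {i i' a : ℤ} (h : (q : ℤ) ^ k ∣ a + m * i) (h' : (q : ℤ) ^ k ∣ a + m * i') :
    ((q ^ k : ℕ) : ℤ) ∣ i - i' := by
  have h2 : (q : ℤ) ^ k ∣ (m : ℤ) * (i - i') := by
    rw [show (m : ℤ) * (i - i') = a + m * i - (a + m * i') by ring]
    exact dvd_sub h h'
  push_cast
  refine (IsCoprime.pow_left ?_).dvd_of_dvd_mul_left h2
  exact (Nat.prime_iff_prime_int.mp hq).coprime_iff_not_dvd.mpr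
    fun h => hqm (Int.natCast_dvd_natCast.mp h)

/-- A prime dividing `b` whose square divides the value divides `a`. -/
private theorem dvd_fst_of_dvd_hP {q : ℕ} (hq : q.Prime) (c e a b : ℤ) (hb : (q : ℤ) ∣ b)
    (h : (q : ℤ) ^ 2 ∣ hP c e a b) : (q : ℤ) ∣ a := by
  refine (Nat.prime_iff_prime_int.mp hq).dvd_of_dvd_pow (n := 4) ?_
  obtain ⟨k, hk⟩ := hb
  obtain ⟨l, hl⟩ := h
  refine ⟨q * l + 6 * c * a ^ 2 * b * k + 8 * e * a * b ^ 2 * k + 3 * c ^ 2 * b ^ 3 * k, ?_⟩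
  simp only [hP] at hl
  linear_combination hl + (6 * c * a ^ 2 * b + 8 * e * a * b ^ 2 + 3 * c ^ 2 * b ^ 3) * hk

/-- Parameters of a box of side `X` at which `q` divides both coordinates. -/
private theorem card_both_le {q m : ℕ} (hq : q.Prime) (hqm : ¬ q ∣ m) (A B a₀ b₀ : ℤ) (X : ℕ) :
    (((Finset.Ico A (A + X) ×ˢ Finset.Ico B (B + X)).filter fun p =>
      (q : ℤ) ∣ a₀ + m * p.1 ∧ (q : ℤ) ∣ b₀ + m * p.2).card : ℝ) ≤ ((X : ℝ) / q + 1) ^ 2 := by
  rw [Finset.filter_product (fun i : ℤ => (q : ℤ) ∣ a₀ + m * i) fun j : ℤ => (q : ℤ) ∣ b₀ + m * j,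
    Finset.card_product, Nat.cast_mul, sq]
  have hle : ∀ A a : ℤ, ((((Finset.Ico A (A + X)).filter fun i =>
      (q : ℤ) ∣ a + m * i).card : ℕ) : ℝ)
      ≤ (X : ℝ) / q + 1 := fun A a => by
    have h := card_class_le A X
      ((Finset.Ico A (A + X)).filter fun i => (q : ℤ) ∣ a + m * i) (Finset.filter_subset _ _)
      fun i hi i' hi' => by
        simpa using dvd_sub_of_dvd_affine hq hqm 1 (by simpa using (Finset.mem_filter.mp hi).2)
          (by simpa using (Finset.mem_filter.mp hi').2)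
    calc _ ≤ (((X / q + 1 : ℕ)) : ℝ) := by exact_mod_cast h
      _ ≤ _ := by push_cast; gcongr; exact Nat.cast_div_le
  exact mul_le_mul (hle A a₀) (hle B b₀) (Nat.cast_nonneg _) (by positivity)

/-- Parameters of a box of side `X` with a value divisible by `q ^ 2` or both coordinates by `q`. -/
private theorem card_bad_le {q m : ℕ} (hq : q.Prime) (hqm : ¬ q ∣ m) (c e : ℤ)
    (hroots : ((Finset.range (q ^ 2)).filter fun r : ℕ => (q : ℤ) ^ 2 ∣ hP c e r 1).card ≤ 4)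
    (A B a₀ b₀ : ℤ) {X : ℕ} (hX : 0 < X) :
    (((Finset.Ico A (A + X) ×ˢ Finset.Ico B (B + X)).filter fun p =>
      (q : ℤ) ^ 2 ∣ hP c e (a₀ + m * p.1) (b₀ + m * p.2) ∨
        ((q : ℤ) ∣ a₀ + m * p.1 ∧ (q : ℤ) ∣ b₀ + m * p.2)).card : ℝ) ≤
      5 * (X : ℝ) ^ 2 * ((q : ℝ) ^ 2)⁻¹ + 7 * X := by
  classical
  set rts := (Finset.range (q ^ 2)).filter fun r : ℕ => (q : ℤ) ^ 2 ∣ hP c e r 1
  set box := Finset.Ico A (A + X) ×ˢ Finset.Ico B (B + X)
  let G := box.filter fun p => (q : ℤ) ∣ a₀ + m * p.1 ∧ (q : ℤ) ∣ b₀ + m * p.2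
  let F := box.filter fun p => (q : ℤ) ^ 2 ∣ hP c e (a₀ + m * p.1) (b₀ + m * p.2) ∨
    ((q : ℤ) ∣ a₀ + m * p.1 ∧ (q : ℤ) ∣ b₀ + m * p.2)
  let J : ℕ → ℤ → Finset (ℤ × ℤ) := fun r j =>
    ((Finset.Ico A (A + X)).filter fun i =>
      (q : ℤ) ^ 2 ∣ (a₀ + m * i) - r * (b₀ + m * j)).image fun i => (i, j)
  -- a bad point has both coordinates divisible by `q`, or lies over a root `r` modulo `q²`,
  -- where `j` determines the class of `i` modulo `q²`
  have hsub : F ⊆ G ∪ rts.biUnion fun r => (Finset.Ico B (B + X)).biUnion (J r) := by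
    intro p hp
    obtain ⟨hp, h⟩ := Finset.mem_filter.mp hp
    rcases h with h | h
    · by_cases hb : (q : ℤ) ∣ b₀ + m * p.2
      · exact Finset.mem_union_left _
          (Finset.mem_filter.mpr ⟨hp, dvd_fst_of_dvd_hP hq c e _ _ hb h, hb⟩)
      · obtain ⟨r, hr, hrd⟩ := exists_root_of_dvd hq c e _ _ hb h
        obtain ⟨g1, g2⟩ := Finset.mem_product.mp hp
        exact Finset.mem_union_right _ (Finset.mem_biUnion.mpr ⟨r, hr, Finset.mem_biUnion.mpr
          ⟨p.2, g2, Finset.mem_image.mpr ⟨p.1, Finset.mem_filter.mpr ⟨g1, hrd⟩, rfl⟩⟩⟩)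
    · exact Finset.mem_union_left _ (Finset.mem_filter.mpr ⟨hp, h⟩)
  have hJ : ∀ r : ℕ, ∀ j : ℤ, (J r j).card ≤ X / q ^ 2 + 1 := fun r j => by
    refine Finset.card_image_le.trans (card_class_le (Q := q ^ 2) _ X _
      (Finset.filter_subset _ _) fun i hi i' hi' => ?_)
    refine dvd_sub_of_dvd_affine hq hqm 2 (a := a₀ - r * (b₀ + m * j)) ?_ ?_
    · convert (Finset.mem_filter.mp hi).2 using 1; ring
    · convert (Finset.mem_filter.mp hi').2 using 1; ring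
  have hle : F.card ≤ G.card + 4 * (X * (X / q ^ 2 + 1)) := by
    refine (Finset.card_le_card hsub).trans ((Finset.card_union_le _ _).trans
      (Nat.add_le_add_left ?_ _))
    refine (Finset.card_biUnion_le_card_mul _ _ (X * (X / q ^ 2 + 1)) fun r _ => ?_).trans
      (Nat.mul_le_mul_right _ hroots)
    refine (Finset.card_biUnion_le_card_mul _ _ (X / q ^ 2 + 1) fun j _ => hJ r j).trans_eq ?_
    rw [Int.card_Ico, add_sub_cancel_left, Int.toNat_natCast]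
  -- `(x / q + 1)² + 4 x (x / q² + 1) ≤ 5 x² / q² + 7 x`
  set x : ℝ := (X : ℝ) with hx
  have h1 : ((X / q ^ 2 : ℕ) : ℝ) ≤ x / (q : ℝ) ^ 2 := by
    refine Nat.cast_div_le.trans ?_
    push_cast; rfl
  have hle' : (F.card : ℝ) ≤ (G.card : ℝ) + 4 * (x * (((X / q ^ 2 : ℕ) : ℝ) + 1)) := by
    rw [hx]; exact_mod_cast hle
  have h2 : (G.card : ℝ) ≤ (x / q + 1) ^ 2 := card_both_le hq hqm A B a₀ b₀ X
  have hxpos : 0 ≤ x := Nat.cast_nonneg X
  have hq1 : (1 : ℝ) ≤ q := by exact_mod_cast hq.pos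
  have h3 : x / q ≤ x := div_le_self hxpos hq1
  have h4 : 1 ≤ x := by rw [hx]; exact_mod_cast hX
  have h5 : (x / q + 1) ^ 2 = x ^ 2 * ((q : ℝ) ^ 2)⁻¹ + 2 * (x / q) + 1 := by
    rw [div_eq_mul_inv, ← inv_pow]; ring
  have h6 : x * (((X / q ^ 2 : ℕ) : ℝ) + 1) ≤ x * (x / (q : ℝ) ^ 2 + 1) := by gcongr
  rw [div_eq_mul_inv x ((q : ℝ) ^ 2)] at h6
  show (F.card : ℝ) ≤ _
  linarith

/-- Coprime values in a box with value divisible by `q ^ 2` are few. -/
private theorem card_bad_coprime_le {q m : ℕ} (hq : q.Prime) (hm : 0 < m) (c e : ℤ)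
    (hroots : ((Finset.range (q ^ 2)).filter fun r : ℕ => (q : ℤ) ^ 2 ∣ hP c e r 1).card ≤ 4)
    (a₀ b₀ : ℤ) (box : Finset (ℤ × ℤ)) (M : ℕ)
    (hmem : ∀ p ∈ box, |a₀ + m * p.1| ≤ M ∧ |b₀ + m * p.2| ≤ M) :
    ((box.filter fun p => (q : ℤ) ^ 2 ∣ hP c e (a₀ + m * p.1) (b₀ + m * p.2) ∧
      IsCoprime (a₀ + m * p.1) (b₀ + m * p.2)).card : ℝ) ≤
      120 * (M : ℝ) ^ 2 * ((q : ℝ) ^ 2)⁻¹ + 8 := by
  classical
  set rts := (Finset.range (q ^ 2)).filter fun r : ℕ => (q : ℤ) ^ 2 ∣ hP c e r 1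
  set av : ℤ × ℤ → ℤ × ℤ := fun p => (a₀ + m * p.1, b₀ + m * p.2) with hav
  have hinj : Function.Injective av := fun p p' h => by
    simp only [hav, Prod.mk.injEq, add_right_inj, mul_eq_mul_left_iff,
      Int.natCast_eq_zero, hm.ne', or_false] at h
    exact Prod.ext h.1 h.2
  set H := box.filter fun p => (q : ℤ) ^ 2 ∣ hP c e (a₀ + m * p.1) (b₀ + m * p.2) ∧
    IsCoprime (a₀ + m * p.1) (b₀ + m * p.2)
  let T : ℕ → Finset (ℤ × ℤ) := fun r => (H.image av).filter fun w =>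
    (q : ℤ) ^ 2 ∣ w.1 - r * w.2
  have hsub : H.image av ⊆ rts.biUnion T := fun w hw => by
    obtain ⟨p, hp, rfl⟩ := Finset.mem_image.mp hw
    obtain ⟨-, h2, hc⟩ := Finset.mem_filter.mp hp
    have hb : ¬ (q : ℤ) ∣ (av p).2 := fun hb => by
      have h1 : (q : ℤ) = 1 := Int.eq_one_of_dvd_one (Int.natCast_nonneg q)
        (isUnit_iff_dvd_one.mp (hc.isUnit_of_dvd' (dvd_fst_of_dvd_hP hq c e _ _ hb h2) hb))
      exact hq.ne_one (by exact_mod_cast h1)
    obtain ⟨r, hr, hrd⟩ := exists_root_of_dvd hq c e _ _ hb h2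
    exact Finset.mem_biUnion.mpr ⟨r, hr, Finset.mem_filter.mpr ⟨hw, hrd⟩⟩
  -- the primitive points over one root lie in a lattice of index `q²`
  have hT : ∀ r : ℕ, ((T r).card : ℝ) ≤ 30 * (M : ℝ) ^ 2 / (q : ℝ) ^ 2 + 2 := fun r =>
    card_primitive_lattice hq.pos r M _ fun w hw => by
      obtain ⟨hw, hrd⟩ := Finset.mem_filter.mp hw
      obtain ⟨p, hp, rfl⟩ := Finset.mem_image.mp hw
      obtain ⟨hp, -, hc⟩ := Finset.mem_filter.mp hp
      exact ⟨hc, hrd, (hmem p hp).1, (hmem p hp).2⟩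
  have h1 : (H.card : ℝ) ≤ ∑ r ∈ rts, ((T r).card : ℝ) := by
    rw [← Nat.cast_sum]
    exact_mod_cast (Finset.card_image_of_injective _ hinj).symm.le.trans
      ((Finset.card_le_card hsub).trans Finset.card_biUnion_le)
  refine h1.trans ((Finset.sum_le_sum fun r _ => hT r).trans ?_)
  rw [Finset.sum_const, nsmul_eq_mul]
  have h4 : (rts.card : ℝ) ≤ 4 := by exact_mod_cast hroots
  refine (mul_le_mul_of_nonneg_right h4 (by positivity)).trans_eq ?_
  rw [div_eq_mul_inv]; ring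

/-- The tail of `∑ 1 / q ^ 2`. -/
private theorem sum_inv_sq_le {s : Finset ℕ} {k : ℕ} (hk : k ≠ 0) (hs : ∀ q ∈ s, k < q) :
    ∑ q ∈ s, ((q : ℝ) ^ 2)⁻¹ ≤ (k : ℝ)⁻¹ := by
  refine (Finset.sum_le_sum_of_subset_of_nonneg (t := Finset.Ioc k (max k (s.sup id)))
    (fun q hq => Finset.mem_Ioc.mpr ⟨hs q hq, le_max_of_le_right (Finset.le_sup (f := id) hq)⟩)
    fun q _ _ => by positivity).trans ?_
  exact (sum_Ioc_inv_sq_le_sub hk (le_max_left _ _)).trans (sub_le_self _ (by positivity))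

/-- A union over primes `q > k` of sets of size at most `A / q ^ 2 + B` has size at most
`A / k + n B`, when there are at most `n` of them. -/
private theorem card_biUnion_le_inv_sq {s : Finset ℕ} {F : ℕ → Finset (ℤ × ℤ)} {k : ℕ}
    (hk : k ≠ 0) (hs : ∀ q ∈ s, k < q) {A B n : ℝ} (hA : 0 ≤ A) (hB : 0 ≤ B) (hn : (s.card : ℝ) ≤ n)
    (hF : ∀ q ∈ s, ((F q).card : ℝ) ≤ A * ((q : ℝ) ^ 2)⁻¹ + B) :
    ((s.biUnion F).card : ℝ) ≤ A / k + n * B := by
  refine (Nat.cast_le.mpr Finset.card_biUnion_le).trans ?_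
  rw [Nat.cast_sum]
  refine (Finset.sum_le_sum hF).trans ?_
  rw [Finset.sum_add_distrib, ← Finset.mul_sum, Finset.sum_const, nsmul_eq_mul, div_eq_mul_inv]
  exact add_le_add (mul_le_mul_of_nonneg_left (sum_inv_sq_le hk hs) hA)
    (mul_le_mul_of_nonneg_right hn hB)

/-- The size of a coordinate in a box. -/
private theorem abs_affine_le {a i : ℤ} {m w X : ℕ} (hX : 0 < X) (h0 : 0 ≤ i)
    (hi : i ≤ (w : ℤ) * X) : |a + m * i| ≤ (|a| + (w : ℤ) * m) * X := by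
  refine (abs_add_le _ _).trans ?_
  rw [abs_mul, Nat.abs_cast, abs_of_nonneg h0, add_mul]
  refine add_le_add (le_mul_of_one_le_right (abs_nonneg a) (by exact_mod_cast hX)) ?_
  rw [mul_comm (w : ℤ), mul_assoc]
  exact mul_le_mul_of_nonneg_left hi (Int.natCast_nonneg m)

/-! ## The count -/

/-- A point of `[-M, M] ^ 2` outside the three families of bad points has coprime coordinates and a
value without square factor away from `m`. -/
private theorem isCoprime_and_squarefree_of_not_bad {c e x y : ℤ} {m Q M R : ℕ}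
    (hR : (R : ℤ) = 1 + 6 * |c| + 8 * |e| + 3 * c ^ 2)
    (hsm : ∀ q : ℕ, q.Prime → ¬ q ∣ m → 16 < q)
    (hcm : ∀ q : ℕ, q.Prime → q ∣ m → ¬ ((q : ℤ) ∣ x ∧ (q : ℤ) ∣ y))
    (hne0 : hP c e x y ≠ 0) (hb1 : |x| ≤ M) (hb2 : |y| ≤ M)
    (hF : ∀ q ∈ (Finset.Ioc 16 Q).filter fun q => q.Prime ∧ ¬ q ∣ m,
      ¬ ((q : ℤ) ^ 2 ∣ hP c e x y ∨ ((q : ℤ) ∣ x ∧ (q : ℤ) ∣ y)))
    (hG : ∀ q ∈ (Finset.Ioc Q M).filter fun q => q.Prime ∧ ¬ q ∣ m,
      ¬ ((q : ℤ) ∣ x ∧ (q : ℤ) ∣ y))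
    (hH : ∀ q ∈ (Nat.primesLE (R * M ^ 2)).filter fun q => Q < q ∧ ¬ q ∣ m,
      ¬ ((q : ℤ) ^ 2 ∣ hP c e x y ∧ IsCoprime x y)) :
    IsCoprime x y ∧ ∀ q : ℕ, q.Prime → ¬ q ∣ m → ¬ (q : ℤ) ^ 2 ∣ hP c e x y := by
  have hcp : IsCoprime x y := by
    rw [Int.isCoprime_iff_gcd_eq_one]
    by_contra hg
    obtain ⟨q, hq, hqd⟩ := Nat.exists_prime_and_dvd hg
    have hqa : (q : ℤ) ∣ x := (Int.natCast_dvd_natCast.mpr hqd).trans (Int.gcd_dvd_left _ _)
    have hqb : (q : ℤ) ∣ y := (Int.natCast_dvd_natCast.mpr hqd).trans (Int.gcd_dvd_right _ _)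
    have hqm : ¬ q ∣ m := fun h => hcm q hq h ⟨hqa, hqb⟩
    by_cases hqQ : q ≤ Q
    · exact hF q (Finset.mem_filter.mpr ⟨Finset.mem_Ioc.mpr ⟨hsm q hq hqm, hqQ⟩, hq, hqm⟩)
        (Or.inr ⟨hqa, hqb⟩)
    · refine hG q (Finset.mem_filter.mpr ⟨Finset.mem_Ioc.mpr ⟨not_le.mp hqQ, ?_⟩, hq, hqm⟩)
        ⟨hqa, hqb⟩
      by_cases h0 : x = 0
      · have h0' : y ≠ 0 := fun h => hne0 (by rw [h0, h]; simp [hP])
        have := Int.le_of_dvd (abs_pos.mpr h0') ((dvd_abs _ _).mpr hqb)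
        exact_mod_cast this.trans hb2
      · have := Int.le_of_dvd (abs_pos.mpr h0) ((dvd_abs _ _).mpr hqa)
        exact_mod_cast this.trans hb1
  refine ⟨hcp, fun q hq hqm hq2 => ?_⟩
  by_cases hqQ : q ≤ Q
  · exact hF q (Finset.mem_filter.mpr ⟨Finset.mem_Ioc.mpr ⟨hsm q hq hqm, hqQ⟩, hq, hqm⟩)
      (Or.inl hq2)
  · refine hH q (Finset.mem_filter.mpr ⟨Nat.mem_primesLE.mpr ⟨?_, hq⟩, not_le.mp hqQ, hqm⟩)
      ⟨hq2, hcp⟩
    have h1 := Int.le_of_dvd (abs_pos.mpr hne0) ((dvd_abs _ _).mpr hq2)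
    have h2 := h1.trans (natAbs_hP_le c e _ _ M hb1 hb2)
    rw [← hR] at h2
    have h3 : q ^ 2 ≤ R * M ^ 4 := by exact_mod_cast h2
    have h4 : q ^ 2 ≤ (R * M ^ 2) ^ 2 := h3.trans <|
      (Nat.mul_le_mul_right (M ^ 4) (Nat.le_self_pow two_ne_zero R)).trans_eq
        (by rw [mul_pow R, ← pow_mul M])
    exact (Nat.pow_le_pow_iff_left two_ne_zero).mp h4

/-- The parameters of a box of side `X` at `(u X, v X)` give coordinates bounded by a multiple
of `X`. -/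
private theorem abs_box_le {a₀ b₀ : ℤ} {m u v X : ℕ} (hX : 0 < X) {p : ℤ × ℤ}
    (hp : p ∈ Finset.Ico ((u * X : ℕ) : ℤ) ((u * X : ℕ) + X : ℤ) ×ˢ
      Finset.Ico ((v * X : ℕ) : ℤ) ((v * X : ℕ) + X : ℤ)) :
    |a₀ + m * p.1| ≤ ((a₀.natAbs + b₀.natAbs + (u + v + 1) * m) * X : ℕ) ∧
      |b₀ + m * p.2| ≤ ((a₀.natAbs + b₀.natAbs + (u + v + 1) * m) * X : ℕ) := by
  obtain ⟨h1, h2⟩ := Finset.mem_product.mp hp
  rw [Finset.mem_Ico] at h1 h2
  push_cast [Int.natCast_natAbs] at h1 h2 ⊢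
  have hu : (0 : ℤ) ≤ (u : ℤ) * X := by positivity
  have hv : (0 : ℤ) ≤ (v : ℤ) * X := by positivity
  have ha : 0 ≤ |a₀| * X := by positivity
  have hb : 0 ≤ |b₀| * X := by positivity
  constructor
  · refine (abs_affine_le (w := u + v + 1) hX (by linarith) (by push_cast; linarith)).trans ?_
    push_cast; linarith
  · refine (abs_affine_le (w := u + v + 1) hX (by linarith) (by push_cast; linarith)).trans ?_
    push_cast; linarith

/-- A value with parameters in the classes of `(a₀, b₀)` is nonzero when `m` does not divide the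
value at `(a₀, b₀)`. -/
private theorem hP_affine_ne_zero {c e a₀ b₀ i j : ℤ} {m : ℕ} (hne : ¬ (m : ℤ) ∣ hP c e a₀ b₀) :
    hP c e (a₀ + m * i) (b₀ + m * j) ≠ 0 := fun h0 => hne (by
  rw [← ZMod.intCast_zmod_eq_zero_iff_dvd]
  have := congrArg (Int.cast : ℤ → ZMod m) h0
  simp only [hP] at this ⊢
  push_cast at this ⊢
  simpa using this)

/-- For a prime up to `M` the count of doubly divisible parameters is quadratic in `M / q`. -/
private theorem div_add_one_sq_le {x q M : ℝ} (hx : 0 ≤ x) (hxM : x ≤ M) (hq : 0 < q)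
    (hqM : q ≤ M) : (x / q + 1) ^ 2 ≤ 9 * M ^ 2 * (q ^ 2)⁻¹ := by
  have : x / q + 1 ≤ 3 * M / q := by
    rw [div_add_one hq.ne', div_le_div_iff_of_pos_right hq]
    linarith
  calc (x / q + 1) ^ 2 ≤ (3 * M / q) ^ 2 := by gcongr
    _ = _ := by rw [div_pow, div_eq_mul_inv]; ring

/-- The three counts together fall short of the box. -/
private theorem counts_lt_sq {x Q M : ℝ} (hx : 1 ≤ x) (hMQ : 129 * M ^ 2 / Q ≤ x ^ 2 / 8)
    (hQx : 7 * x * Q ≤ x ^ 2 / 8) :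
    5 * x ^ 2 / 16 + Q * (7 * x) + 9 * M ^ 2 / Q + (120 * M ^ 2 / Q + 1 / 64 * x ^ 2 * 8)
      < x ^ 2 := by
  have : 9 * M ^ 2 / Q + 120 * M ^ 2 / Q = 129 * M ^ 2 / Q := by ring
  nlinarith

/-- Outside `m` the quartic has at most four roots modulo a square of a prime. -/
private theorem card_roots_sq_le_of_not_dvd {c e : ℤ} {m q : ℕ}
    (hsmall : ∀ q : ℕ, q.Prime → q ≤ 16 → q ∣ m)
    (hmD : ∀ q : ℕ, q.Prime → (q : ℤ) ∣ c ^ 3 - e ^ 2 → q ∣ m) (hq : q.Prime) (hqm : ¬ q ∣ m) :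
    ((Finset.range (q ^ 2)).filter fun r : ℕ => (q : ℤ) ^ 2 ∣ hP c e r 1).card ≤ 4 := by
  have : Fact q.Prime := ⟨hq⟩
  exact card_roots_sq_le c e (fun h => hqm (hsmall q hq (by omega)))
    (fun h => hqm (hsmall q hq (by omega))) fun h => hqm (hmD q hq h)

/-- The choices of `Q` and of `X > 56 Q` make the main terms small. -/
private theorem main_terms_le {C X Q : ℕ} (hQ : Q = 8 * 129 * C ^ 2 + 16) (hX : 56 * Q + 1 ≤ X) :
    129 * ((C * X : ℕ) : ℝ) ^ 2 / Q ≤ (X : ℝ) ^ 2 / 8 ∧ 7 * (X : ℝ) * Q ≤ (X : ℝ) ^ 2 / 8 := by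
  refine ⟨?_, ?_⟩
  · rw [div_le_div_iff₀ (by exact_mod_cast (show 0 < Q by omega)) (by norm_num), hQ]
    push_cast
    nlinarith [sq_nonneg (X : ℝ)]
  · have : (56 * Q + 1 : ℝ) ≤ X := by exact_mod_cast hX
    nlinarith

/-- A box of side `X` has `X ^ 2` points. -/
private theorem natCast_card_box (a b : ℤ) (X : ℕ) :
    ((Finset.Ico a (a + X) ×ˢ Finset.Ico b (b + X)).card : ℝ) = (X : ℝ) ^ 2 := by
  rw [Finset.card_product, Int.card_Ico, Int.card_Ico, add_sub_cancel_left,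
    add_sub_cancel_left, Int.toNat_natCast, Nat.cast_mul, sq]

/-- **A value without square factor away from `m`**, in every large box. -/
theorem eventually_exists_squarefree (c e : ℤ) (m : ℕ) (hm : 0 < m)
    (hsmall : ∀ q : ℕ, q.Prime → q ≤ 16 → q ∣ m)
    (hmD : ∀ q : ℕ, q.Prime → (q : ℤ) ∣ c ^ 3 - e ^ 2 → q ∣ m) (a₀ b₀ : ℤ)
    (hcop : ∀ q : ℕ, q.Prime → q ∣ m → ¬ ((q : ℤ) ∣ a₀ ∧ (q : ℤ) ∣ b₀))
    (hne : ¬ (m : ℤ) ∣ hP c e a₀ b₀) (u v : ℕ) :
    ∀ᶠ X : ℕ in atTop, ∃ i ∈ Finset.Ico ((u * X : ℕ) : ℤ) ((u * X : ℕ) + X : ℤ),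
      ∃ j ∈ Finset.Ico ((v * X : ℕ) : ℤ) ((v * X : ℕ) + X : ℤ),
        IsCoprime (a₀ + m * i) (b₀ + m * j) ∧
          ∀ q : ℕ, q.Prime → ¬ q ∣ m → ¬ (q : ℤ) ^ 2 ∣ hP c e (a₀ + m * i) (b₀ + m * j) := by
  classical
  -- the coordinates are at most `M = C0 * X`, the values at most `R * M ^ 4`
  set C0 : ℕ := a₀.natAbs + b₀.natAbs + (u + v + 1) * m with hC0
  set R : ℕ := 1 + 6 * c.natAbs + 8 * e.natAbs + 3 * c.natAbs ^ 2 with hR
  set Q : ℕ := 8 * 129 * C0 ^ 2 + 16 with hQ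
  have hC0pos : 0 < C0 := by
    have : 0 < (u + v + 1) * m := by positivity
    omega
  filter_upwards [eventually_primeCounting_sq_le (R * C0 ^ 2) (by positivity)
      (show (0 : ℝ) < 1 / 64 by norm_num),
    eventually_ge_atTop (56 * Q + 1)] with X hπ hX
  set box : Finset (ℤ × ℤ) := Finset.Ico ((u * X : ℕ) : ℤ) ((u * X : ℕ) + X : ℤ) ×ˢ
    Finset.Ico ((v * X : ℕ) : ℤ) ((v * X : ℕ) + X : ℤ) with hbox
  set av : ℤ × ℤ → ℤ × ℤ := fun p => (a₀ + m * p.1, b₀ + m * p.2)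
  set M : ℕ := C0 * X with hM
  have hXpos : 0 < X := by omega
  have hmem : ∀ p ∈ box, |(av p).1| ≤ M ∧ |(av p).2| ≤ M := fun p hp => abs_box_le hXpos hp
  -- the three families of bad parameters: `F` for `16 < q ≤ Q`, `G` and `H` beyond `Q`
  let F : ℕ → Finset (ℤ × ℤ) := fun q => box.filter fun p =>
    (q : ℤ) ^ 2 ∣ hP c e (av p).1 (av p).2 ∨ ((q : ℤ) ∣ (av p).1 ∧ (q : ℤ) ∣ (av p).2)
  let G : ℕ → Finset (ℤ × ℤ) := fun q => box.filter fun p =>
    (q : ℤ) ∣ (av p).1 ∧ (q : ℤ) ∣ (av p).2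
  let H : ℕ → Finset (ℤ × ℤ) := fun q => box.filter fun p =>
    (q : ℤ) ^ 2 ∣ hP c e (av p).1 (av p).2 ∧ IsCoprime (av p).1 (av p).2
  let s₁ := ((Finset.Ioc 16 Q).filter fun q => q.Prime ∧ ¬ q ∣ m)
  let s₂ := ((Finset.Ioc Q M).filter fun q => q.Prime ∧ ¬ q ∣ m)
  let s₃ := ((Nat.primesLE (R * C0 ^ 2 * X ^ 2)).filter fun q => Q < q ∧ ¬ q ∣ m)
  suffices hlt : (s₁.biUnion F ∪ s₂.biUnion G ∪ s₃.biUnion H).card < box.card by
    obtain ⟨p, hp, hpn⟩ := Finset.exists_mem_notMem_of_card_lt_card hlt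
    obtain ⟨hp1, hp2⟩ := Finset.mem_product.mp hp
    simp only [Finset.mem_union, Finset.mem_biUnion, not_or, not_exists, not_and] at hpn
    obtain ⟨⟨hF, hG⟩, hH⟩ := hpn
    obtain ⟨hb1, hb2⟩ := hmem p hp
    obtain ⟨hcp, hsq⟩ := isCoprime_and_squarefree_of_not_bad (R := R) (Q := Q)
      (by rw [hR]; push_cast [Int.natCast_natAbs, sq_abs]; rfl)
      (fun q hq hqm => not_le.mp fun h => hqm (hsmall q hq h))
      (fun q hq h hd => hcop q hq h
        ⟨(dvd_add_left ((Int.natCast_dvd_natCast.mpr h).mul_right _)).mp hd.1,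
          (dvd_add_left ((Int.natCast_dvd_natCast.mpr h).mul_right _)).mp hd.2⟩)
      (hP_affine_ne_zero hne)
      hb1 hb2 (fun q hq h => hF q hq (Finset.mem_filter.mpr ⟨hp, h⟩))
      (fun q hq h => hG q hq (Finset.mem_filter.mpr ⟨hp, h⟩))
      (fun q hq h => hH q (by rwa [hM, mul_pow, ← mul_assoc] at hq)
        (Finset.mem_filter.mpr ⟨hp, h⟩))
    exact ⟨p.1, hp1, p.2, hp2, hcp, hsq⟩
  -- counting: the box has `x²` points
  set x : ℝ := (X : ℝ) with hx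
  have hxpos : 0 ≤ x := Nat.cast_nonneg X
  have hbc : ((box.card : ℕ) : ℝ) = x ^ 2 := natCast_card_box _ _ X
  have hroots : ∀ q : ℕ, q.Prime → ¬ q ∣ m →
      ((Finset.range (q ^ 2)).filter fun r : ℕ => (q : ℤ) ^ 2 ∣ hP c e r 1).card ≤ 4 :=
    fun q hq hqm => card_roots_sq_le_of_not_dvd hsmall hmD hq hqm
  have hF : ∀ q ∈ s₁, ((F q).card : ℝ) ≤ 5 * x ^ 2 * ((q : ℝ) ^ 2)⁻¹ + 7 * x := fun q hq => by
    obtain ⟨-, hqp, hqm⟩ := Finset.mem_filter.mp hq
    exact card_bad_le hqp hqm c e (hroots q hqp hqm) _ _ a₀ b₀ hXpos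
  have hG : ∀ q ∈ s₂, ((G q).card : ℝ) ≤ 9 * (M : ℝ) ^ 2 * ((q : ℝ) ^ 2)⁻¹ := fun q hq => by
    obtain ⟨hqI, hqp, hqm⟩ := Finset.mem_filter.mp hq
    refine (card_both_le hqp hqm _ _ a₀ b₀ X).trans (div_add_one_sq_le hxpos ?_
      (by exact_mod_cast hqp.pos) (by exact_mod_cast (Finset.mem_Ioc.mp hqI).2))
    rw [hM]; push_cast; exact le_mul_of_one_le_left hxpos (by exact_mod_cast hC0pos)
  have hH : ∀ q ∈ s₃, ((H q).card : ℝ) ≤ 120 * (M : ℝ) ^ 2 * ((q : ℝ) ^ 2)⁻¹ + 8 := fun q hq => by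
    obtain ⟨hqI, -, hqm⟩ := Finset.mem_filter.mp hq
    have hqp := (Nat.mem_primesLE.mp hqI).2
    exact card_bad_coprime_le hqp hm c e (hroots q hqp hqm) a₀ b₀ box M hmem
  -- summing over `q`, with `∑_{q > k} 1 / q² ≤ 1 / k` and at most `Q`, resp. `x² / 64`, primes
  have hc₁ : ((s₁.biUnion F).card : ℝ) ≤ 5 * x ^ 2 / 16 + (Q : ℝ) * (7 * x) := by
    exact_mod_cast card_biUnion_le_inv_sq (s := s₁) (k := 16) (by norm_num)
      (fun q hq => (Finset.mem_Ioc.mp (Finset.mem_filter.mp hq).1).1) (by positivity)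
        (by positivity)
      (by exact_mod_cast (Finset.card_filter_le _ _).trans (by rw [Nat.card_Ioc]; omega)) hF
  have hc₂ : ((s₂.biUnion G).card : ℝ) ≤ 9 * (M : ℝ) ^ 2 / Q + (s₂.card : ℝ) * 0 :=
    card_biUnion_le_inv_sq (k := Q) (by omega)
      (fun q hq => (Finset.mem_Ioc.mp (Finset.mem_filter.mp hq).1).1) (by positivity) le_rfl le_rfl
      fun q hq => (hG q hq).trans_eq (add_zero _).symm
  have hc₃ : ((s₃.biUnion H).card : ℝ) ≤ 120 * (M : ℝ) ^ 2 / Q + 1 / 64 * x ^ 2 * 8 :=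
    card_biUnion_le_inv_sq (k := Q) (by omega) (fun q hq => (Finset.mem_filter.mp hq).2.1)
      (by positivity) (by norm_num)
        (le_trans (by exact_mod_cast ((Finset.card_filter_le _ _).trans_eq
        (Nat.primesLE_card_eq_primeCounting _) : s₃.card ≤ _)) hπ) hH
  -- the choices of `Q` and of `X > 56 Q` make the total less than `x²`
  obtain ⟨hMQ, hQx⟩ := main_terms_le hQ hX
  have hx1 : 1 ≤ x := by rw [hx]; exact_mod_cast hXpos
  have key : ((s₁.biUnion F ∪ s₂.biUnion G ∪ s₃.biUnion H).card : ℝ) < x ^ 2 := by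
    refine lt_of_le_of_lt (Nat.cast_le.mpr ((Finset.card_union_le _ _).trans
      (Nat.add_le_add_right (Finset.card_union_le _ _) _))) ?_
    push_cast
    linarith [counts_lt_sq hx1 hMQ hQx]
  rw [← hbc] at key
  exact_mod_cast key

end Fermat.Agent.LT.Switch
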