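import Fermat.Agent.LT.Switch.Forms

/-!
# The residue classes of the parameter at the exceptional primes

* `congr_base`: near `(1, 0)` the member has the invariants of the curve.
* `exists_exact`: near a simple root of `hP` the value is divisible exactly once; the root is
  `3 e / c` at a prime of multiplicative reduction (`exists_exact_of_bad`).
* `exists_class_two`: at `2` with `256 ∣ c³ - e²`. Up to a twist by `s` both invariants are one
  `g ≡ 1 (mod 256)` modulo `2 ^ 15`, and for `g = 1` the quartic is `(a + 1)³ (a - 3)`. At `11`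
  it is `2 ^ 9` times an odd number and `hC4`, `hC6` are `4 ^ 4`, `4 ^ 6` times odd numbers
  (`two_values`, the `128` classes of `g` by computation): the member rescaled by `4` has odd
  `c₄` and `Δ` multiplied by `2 ^ 3` times an odd cube, so the parity of its valuation changes.
  The modulus `2 ^ 15` determines the quotient of `hC6` by `4 ^ 6` modulo `8`.
-/

set_option autoImplicit false

namespace Fermat.Agent.LT.Switch

/-! ## Odd primes -/

/-- Near `(1, 0)` the member has the invariants of the curve. -/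
theorem congr_base (m : ℕ) (c e a b : ℤ) (ha : (m : ℤ) ∣ a - 1) (hb : (m : ℤ) ∣ b) :
    (m : ℤ) ∣ hP c e a b - 1 ∧ (m : ℤ) ∣ hC4 c e a b - c ∧ (m : ℤ) ∣ hC6 c e a b - e := by
  have ha' : (a : ZMod m) = 1 := by
    have := (ZMod.intCast_zmod_eq_zero_iff_dvd _ m).mpr ha
    rwa [Int.cast_sub, Int.cast_one, sub_eq_zero] at this
  have hb' : (b : ZMod m) = 0 := (ZMod.intCast_zmod_eq_zero_iff_dvd _ m).mpr hb
  refine ⟨?_, ?_, ?_⟩ <;> rw [← ZMod.intCast_zmod_eq_zero_iff_dvd] <;>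
    simp [hP, hC4, hC6, ha', hb']

/-- A simple root gives a class on which the value is divisible exactly once. -/
theorem exists_exact {q : ℕ} (hq : q.Prime) (c e a₀ : ℤ) (hroot : (q : ℤ) ∣ hP c e a₀ 1)
    (hsep : ¬ (q : ℤ) ∣ 4 * (a₀ ^ 3 - 3 * c * a₀ - 2 * e))
    (hC4' : ¬ (q : ℤ) ∣ hC4 c e a₀ 1) :
    ∃ a₁ : ℤ, ∀ a b : ℤ, (q : ℤ) ^ 2 ∣ a - a₁ → (q : ℤ) ^ 2 ∣ b - 1 →
      (q : ℤ) ∣ a - a₀ ∧
      (q : ℤ) ∣ hP c e a b ∧ ¬ (q : ℤ) ^ 2 ∣ hP c e a b ∧ ¬ (q : ℤ) ∣ hC4 c e a b := by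
  have hq0 : (q : ℤ) ≠ 0 := Int.natCast_ne_zero.mpr hq.ne_zero
  have htay : ∀ k : ℤ, hP c e (a₀ + q * k) 1 = hP c e a₀ 1 +
      q * k * (4 * (a₀ ^ 3 - 3 * c * a₀ - 2 * e)) + (q : ℤ) ^ 2 *
        (k ^ 2 * (6 * a₀ ^ 2 + 4 * a₀ * (q * k) + (q * k) ^ 2 - 6 * c)) := fun k => by
    simp only [hP]; ring
  -- the values at `a₀` and `a₀ + q` differ by `q` times the unit derivative modulo `q²`
  obtain ⟨k, hk⟩ : ∃ k : ℤ, ¬ (q : ℤ) ^ 2 ∣ hP c e (a₀ + q * k) 1 := by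
    by_contra! h
    have h0 := h 0
    have h1 := h 1
    rw [mul_zero, add_zero] at h0
    rw [htay 1] at h1
    have h2 := (dvd_add_right h0).mp ((dvd_add_left (dvd_mul_right _ _)).mp h1)
    rw [mul_one, sq] at h2
    exact hsep ((mul_dvd_mul_iff_left hq0).mp h2)
  refine ⟨a₀ + q * k, fun a b ha hb => ?_⟩
  -- the class fixes the value modulo `q²` and `hC4` modulo `q`
  have key : (q : ℤ) ^ 2 ∣ hP c e a b - hP c e (a₀ + q * k) 1 := by
    have ha' := (ZMod.intCast_zmod_eq_zero_iff_dvd (a - (a₀ + q * k)) (q ^ 2)).mpr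
      (by exact_mod_cast ha)
    have hb' := (ZMod.intCast_zmod_eq_zero_iff_dvd (b - 1) (q ^ 2)).mpr (by exact_mod_cast hb)
    rw [Int.cast_sub, sub_eq_zero] at ha' hb'
    have := (ZMod.intCast_zmod_eq_zero_iff_dvd (hP c e a b - hP c e (a₀ + q * k) 1) (q ^ 2)).mp (by
      simp only [hP]; push_cast; push_cast at ha' hb'; rw [ha', hb']; ring)
    exact_mod_cast this
  have key1 : (q : ℤ) ∣ hC4 c e a b - hC4 c e a₀ 1 := by
    have ha' := (ZMod.intCast_zmod_eq_zero_iff_dvd (a - (a₀ + q * k)) q).mpr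
      ((dvd_pow_self _ two_ne_zero).trans ha)
    have hb' := (ZMod.intCast_zmod_eq_zero_iff_dvd (b - 1) q).mpr
      ((dvd_pow_self _ two_ne_zero).trans hb)
    rw [Int.cast_sub, sub_eq_zero] at ha' hb'
    refine (ZMod.intCast_zmod_eq_zero_iff_dvd _ q).mp ?_
    simp only [hC4]; push_cast; push_cast at ha' hb'; rw [ha', hb', ZMod.natCast_self]; ring
  refine ⟨?_, ?_, fun h => hk (by have := dvd_sub h key; simpa using this), fun h => hC4' ?_⟩
  · have := dvd_add ((dvd_pow_self _ two_ne_zero).trans ha) (dvd_mul_right (q : ℤ) k)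
    simpa [sub_add_eq_sub_sub] using this
  · have h1 : (q : ℤ) ∣ hP c e (a₀ + q * k) 1 := by
      rw [htay k]
      exact dvd_add (dvd_add hroot ((dvd_mul_right _ _).mul_right _))
        ((dvd_pow_self _ two_ne_zero).mul_right _)
    have := dvd_add ((dvd_pow_self _ two_ne_zero).trans key) h1
    simpa using this
  · have := dvd_sub h key1
    simpa using this

/-- At an odd prime of multiplicative reduction with `q² ∣ c³ - e²`. -/
theorem exists_exact_of_bad {q : ℕ} (hq : q.Prime) (hq2 : q ≠ 2) (c e : ℤ)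
    (hD : (q : ℤ) ^ 2 ∣ c ^ 3 - e ^ 2) (hc : ¬ (q : ℤ) ∣ c) :
    ∃ a₁ : ℤ, ∀ a b : ℤ, (q : ℤ) ^ 2 ∣ a - a₁ → (q : ℤ) ^ 2 ∣ b - 1 → (q : ℤ) ∣ c * a - 3 * e ∧
      (q : ℤ) ∣ hP c e a b ∧ ¬ (q : ℤ) ^ 2 ∣ hP c e a b ∧ ¬ (q : ℤ) ∣ hC4 c e a b := by
  have hqz := Nat.prime_iff_prime_int.mp hq
  have h2 : ¬ (q : ℤ) ∣ 2 := fun h => hq2 ((Nat.prime_dvd_prime_iff_eq hq Nat.prime_two).mp
    (by exact_mod_cast h))
  have he : ¬ (q : ℤ) ∣ e := fun h => hc (hqz.dvd_of_dvd_pow (n := 3) (by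
    have := dvd_add ((dvd_pow_self _ two_ne_zero).trans hD) (dvd_pow h two_ne_zero)
    simpa using this))
  obtain ⟨s, t, hst⟩ := (hqz.coprime_iff_not_dvd.mpr hc).pow_left (m := 2)
  obtain ⟨d, hd⟩ := hD
  -- `c a₀ ≡ 3 e`
  suffices H : (q : ℤ) ∣ hP c e (3 * e * t) 1 ∧
      ¬ (q : ℤ) ∣ 4 * ((3 * e * t) ^ 3 - 3 * c * (3 * e * t) - 2 * e) ∧
      ¬ (q : ℤ) ∣ hC4 c e (3 * e * t) 1 from
    let ⟨a₁, ha₁⟩ := exists_exact hq c e (3 * e * t) H.1 H.2.1 H.2.2
    ⟨a₁, fun a b ha hb => ⟨by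
      obtain ⟨i, hi⟩ := (ha₁ a b ha hb).1
      exact ⟨c * i - 3 * e * s * q, by linear_combination c * hi + 3 * e * hst⟩,
      (ha₁ a b ha hb).2⟩⟩
  refine ⟨?_, ?_, ?_⟩
  -- `c⁴ hP ≡ -3 (c³ - e²) (c³ + 27 e²)`, divisible by `q²`
  · have hu : IsCoprime ((q : ℤ) ^ 2) (c ^ 4) :=
      ((hqz.coprime_iff_not_dvd.mpr hc).pow_left).pow_right
    refine (dvd_pow_self _ two_ne_zero).trans (hu.dvd_of_dvd_mul_left ?_)
    have hx : c * (3 * e * t) = 3 * e - 3 * e * s * (q : ℤ) ^ 2 := by linear_combination 3 * e * hst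
    set x := -(3 * e * s * (q : ℤ) ^ 2) with hxdef
    have e1 : c ^ 4 * hP c e (3 * e * t) 1 =
        -3 * (c ^ 3 - e ^ 2) * (c ^ 3 + 27 * e ^ 2) + x * (108 * e ^ 3 + 54 * e ^ 2 * x
          + 12 * e * x ^ 2 + x ^ 3 - 36 * c ^ 3 * e - 6 * c ^ 3 * x - 8 * c ^ 3 * e) := by
      simp only [hP]
      rw [show c ^ 4 * ((3 * e * t) ^ 4 - 6 * c * (3 * e * t) ^ 2 * 1 ^ 2
        - 8 * e * (3 * e * t) * 1 ^ 3 - 3 * c ^ 2 * 1 ^ 4) = (c * (3 * e * t)) ^ 4
        - 6 * c ^ 3 * (c * (3 * e * t)) ^ 2 - 8 * c ^ 3 * e * (c * (3 * e * t)) - 3 * c ^ 6 by ring,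
        hx, hxdef]
      ring
    rw [e1]
    refine dvd_add ?_ ((dvd_neg.mpr (dvd_mul_left _ _)).mul_right _)
    exact ((dvd_mul_of_dvd_right ⟨d, hd⟩ _)).mul_right _
  -- modulo `q` the derivative times `c³` is `64 e³`
  · intro h
    have hc' : (c : ZMod q) * ((3 * e * t : ℤ) : ZMod q) = 3 * (e : ZMod q) := by
      have := congrArg (Int.cast : ℤ → ZMod q) hst
      push_cast at this ⊢
      rw [ZMod.natCast_self] at this
      linear_combination 3 * (e : ZMod q) * this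
    have hD' := congrArg (Int.cast : ℤ → ZMod q) hd
    push_cast at hD'
    rw [ZMod.natCast_self] at hD'
    have h' := (ZMod.intCast_zmod_eq_zero_iff_dvd _ q).mpr h
    push_cast at h' hc'
    set A := 3 * (e : ZMod q) * (t : ZMod q)
    have h64 : ((64 * e ^ 3 : ℤ) : ZMod q) = 0 := by
      push_cast
      linear_combination (c : ZMod q) ^ 3 * h'
        - 4 * ((c : ZMod q) ^ 2 * A ^ 2 + (c : ZMod q) * A * (3 * (e : ZMod q))
        + 9 * (e : ZMod q) ^ 2 - 3 * (c : ZMod q) ^ 3) * hc' + 44 * (e : ZMod q) * hD'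
    have := (ZMod.intCast_zmod_eq_zero_iff_dvd _ q).mp h64
    rcases hqz.dvd_mul.mp this with h | h
    · exact h2 (hqz.dvd_of_dvd_pow (n := 6) (by simpa using h))
    · exact he (hqz.dvd_of_dvd_pow h)
  -- and `c⁴ hC4` is `256 c e⁴`
  · intro h
    have hc' : (c : ZMod q) * ((3 * e * t : ℤ) : ZMod q) = 3 * (e : ZMod q) := by
      have := congrArg (Int.cast : ℤ → ZMod q) hst
      push_cast at this ⊢
      rw [ZMod.natCast_self] at this
      linear_combination 3 * (e : ZMod q) * this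
    have hD' : (c : ZMod q) ^ 3 = (e : ZMod q) ^ 2 := by
      have := congrArg (Int.cast : ℤ → ZMod q) hd
      push_cast at this
      rw [ZMod.natCast_self] at this
      linear_combination this
    have h' := (ZMod.intCast_zmod_eq_zero_iff_dvd _ q).mpr h
    simp only [hC4] at h'
    push_cast at h' hc'
    set A := 3 * (e : ZMod q) * (t : ZMod q)
    have e1 : (c : ZMod q) * ((c : ZMod q) * A) ^ 4
        + 4 * (e : ZMod q) * (c : ZMod q) * ((c : ZMod q) * A) ^ 3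
        + 6 * (c : ZMod q) ^ 4 * ((c : ZMod q) * A) ^ 2
        + 4 * (e : ZMod q) * (c : ZMod q) ^ 4 * ((c : ZMod q) * A)
        + (4 * (e : ZMod q) ^ 2 - 3 * (c : ZMod q) ^ 3) * (c : ZMod q) ^ 4 = 0 := by
      linear_combination (c : ZMod q) ^ 4 * h'
    rw [hc'] at e1
    have h256 : ((256 * c * e ^ 4 : ℤ) : ZMod q) = 0 := by
      push_cast
      linear_combination e1 - (c : ZMod q) *
        ((67 * (e : ZMod q) ^ 2) - 3 * (c : ZMod q) ^ 3) * hD'
    have := (ZMod.intCast_zmod_eq_zero_iff_dvd _ q).mp h256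
    rcases hqz.dvd_mul.mp this with h | h
    · rcases hqz.dvd_mul.mp h with h | h
      · exact h2 (hqz.dvd_of_dvd_pow (n := 8) (by simpa using h))
      · exact hc h
    · exact he (hqz.dvd_of_dvd_pow h)

/-- At a prime not dividing `6 (c³ - e²)` with a root of the quartic. -/
theorem exists_exact_of_root {q : ℕ} [Fact q.Prime] (c e r : ℤ) (h2 : q ≠ 2) (h3 : q ≠ 3)
    (hD : ¬ (q : ℤ) ∣ c ^ 3 - e ^ 2) (hr : (q : ℤ) ∣ hP c e r 1) :
    ∃ a₁ : ℤ, ∀ a b : ℤ, (q : ℤ) ^ 2 ∣ a - a₁ → (q : ℤ) ^ 2 ∣ b - 1 →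
      (q : ℤ) ∣ hP c e a b ∧ ¬ (q : ℤ) ^ 2 ∣ hP c e a b ∧ ¬ (q : ℤ) ∣ hC4 c e a b := by
  have hne : ∀ {k : ℕ}, k.Prime → q ≠ k → (k : ZMod q) ≠ 0 := fun {k} hk hqk h0 => hqk
    ((Nat.prime_dvd_prime_iff_eq (Fact.out : q.Prime) hk).mp ((ZMod.natCast_eq_zero_iff k q).mp h0))
  have hD' : (c : ZMod q) ^ 3 - (e : ZMod q) ^ 2 ≠ 0 := fun h => hD
    ((ZMod.intCast_zmod_eq_zero_iff_dvd _ q).mp (by push_cast; exact h))
  have hr' : hP (c : ZMod q) e (r : ZMod q) 1 = 0 := by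
    have := (ZMod.intCast_zmod_eq_zero_iff_dvd _ q).mpr hr
    simp only [hP] at this ⊢
    push_cast at this
    linear_combination this
  have h2' : (2 : ZMod q) ≠ 0 := by exact_mod_cast hne Nat.prime_two h2
  have h3' : (3 : ZMod q) ≠ 0 := by exact_mod_cast hne Nat.prime_three h3
  suffices H : ¬ (q : ℤ) ∣ 4 * (r ^ 3 - 3 * c * r - 2 * e) ∧ ¬ (q : ℤ) ∣ hC4 c e r 1 from
    let ⟨a₁, ha₁⟩ := exists_exact (Fact.out : q.Prime) c e r hr H.1 H.2
    ⟨a₁, fun a b ha hb => (ha₁ a b ha hb).2⟩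
  refine ⟨fun h => ?_, fun h => ?_⟩
  · refine hP_separable h2' h3' hD' hr' ?_
    have := (ZMod.intCast_zmod_eq_zero_iff_dvd _ q).mpr h
    push_cast at this
    linear_combination this
  · refine hC4_ne_zero_of_hP h2' h3' hD' hr' ?_
    have := (ZMod.intCast_zmod_eq_zero_iff_dvd _ q).mpr h
    simp only [hC4] at this ⊢
    push_cast at this
    linear_combination this

/-! ## The prime `2` -/

/-- The values at the point `11` of the normalised curve at `2`: modulo `2 ^ 15`, `32 hP` and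
`64 hC4` are `2 ^ 14` and `hC6` is `2 ^ 12`. -/
theorem two_values : ∀ n : Fin 128,
    32 * hP (1 + 256 * (n.val : ZMod 32768)) (1 + 256 * (n.val : ZMod 32768)) 11 1 = 16384 ∧
    64 * hC4 (1 + 256 * (n.val : ZMod 32768)) (1 + 256 * (n.val : ZMod 32768)) 11 1 = 16384 ∧
    hC6 (1 + 256 * (n.val : ZMod 32768)) (1 + 256 * (n.val : ZMod 32768)) 11 1 = 4096 := by
  decide +kernel

/-- At `2`, with `256 ∣ c³ - e²`, the curve is a twist by `s` of a normalised one modulo `2 ^ 15`.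
-/
private theorem exists_normal_two (c e : ℤ) (hD : (256 : ℤ) ∣ c ^ 3 - e ^ 2) (hc : Odd c)
    (he : e % 4 = 3) :
    ∃ (s : ℤ) (i : Fin 128), s % 4 = 3 ∧ (8 : ℤ) ∣ s - e ∧
      (c : ZMod 32768) = (s : ZMod 32768) ^ 2 * (1 + 256 * (i.val : ZMod 32768)) ∧
      (e : ZMod 32768) = (s : ZMod 32768) ^ 3 * (1 + 256 * (i.val : ZMod 32768)) := by
  obtain ⟨k, hk⟩ := hc
  have hoc : ∀ x : ℤ, IsCoprime x (2 : ℤ) → IsCoprime x (32768 : ℤ) := fun x h => by
    simpa using h.pow_right (n := 15)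
  have hc8 : c % 8 = 1 := by
    have key : ∀ x y : ZMod 8, x ^ 3 - (4 * y + 3) ^ 2 = 0 → x = 1 := by decide
    have h8 : ((c : ZMod 8)) ^ 3 - (4 * ((e / 4 : ℤ) : ZMod 8) + 3) ^ 2 = 0 := by
      have := (ZMod.intCast_zmod_eq_zero_iff_dvd _ 8).mpr
        ((show (8 : ℤ) ∣ 256 by norm_num).trans hD)
      rw [show e = 4 * (e / 4) + 3 by omega] at this
      push_cast at this
      exact this
    have := (ZMod.intCast_zmod_eq_zero_iff_dvd (c - 1) 8).mp (by
      push_cast; rw [key _ _ h8, sub_self])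
    omega
  have hc4 : c % 4 = 1 := by omega
  set C : (ZMod 32768) := (c : ZMod 32768) with hC
  set E : (ZMod 32768) := (e : ZMod 32768) with hE
  -- `s = e / c` and `g = c / s²`, so `c = s² g` and `e = s³ g` modulo `2 ^ 15`
  obtain ⟨s, hs⟩ : ∃ s : ℤ, C * (s : ZMod 32768) = E := by
    obtain ⟨x, y, hxy⟩ := hoc c ⟨1, -k, by rw [hk]; ring⟩
    refine ⟨x * e, ?_⟩
    have := congrArg (Int.cast : ℤ → (ZMod 32768)) hxy
    push_cast at this
    rw [show (32768 : ZMod 32768) = 0 from rfl] at this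
    rw [hC, hE]; push_cast
    linear_combination (e : ZMod 32768) * this
  have hsmod : s % 4 = 3 := by
    have h := (ZMod.intCast_zmod_eq_zero_iff_dvd (c * s - e) 32768).mp (by
      push_cast; rw [← hC, ← hE, hs, sub_self])
    have : (c * s) % 4 = (c % 4) * (s % 4) % 4 := Int.mul_emod _ _ _
    rw [hc4, one_mul] at this
    omega
  obtain ⟨x, y, hxy⟩ := hoc s ⟨1, -(s / 2), by omega⟩
  have hxy' : (s : ZMod 32768) * (x : ZMod 32768) = 1 := by
    have := congrArg (Int.cast : ℤ → (ZMod 32768)) hxy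
    push_cast at this
    rw [show (32768 : ZMod 32768) = 0 from rfl] at this
    linear_combination this
  set g : ℤ := c * x ^ 2 with hg
  have hgC : C = (s : ZMod 32768) ^ 2 * (g : ZMod 32768) := by
    rw [hg]; push_cast; rw [← hC]
    linear_combination -C * ((s : ZMod 32768) * (x : ZMod 32768) + 1) * hxy'
  have hgE : E = (s : ZMod 32768) ^ 3 * (g : ZMod 32768) := by
    rw [← hs]; linear_combination (s : ZMod 32768) * hgC
  -- `g = c³ / e² ≡ 1 (mod 256)`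
  have hg256 : (256 : ℤ) ∣ g - 1 := by
    have key : ∀ Z : ℤ, (256 : ℤ) ∣ Z ↔ (Z : ZMod 256) = 0 := fun Z =>
      (ZMod.intCast_zmod_eq_zero_iff_dvd Z 256).symm
    rw [key]
    have hd := (key _).mp hD
    have hsc : ((c * s - e : ℤ) : ZMod 256) = 0 :=
      (key _).mp ((show (256 : ℤ) ∣ 32768 by norm_num).trans
      ((ZMod.intCast_zmod_eq_zero_iff_dvd (c * s - e) 32768).mp (by
        push_cast; rw [← hC, ← hE, hs, sub_self])))
    have hsx : ((s * x - 1 : ℤ) : ZMod 256) = 0 :=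
      (key _).mp ((show (256 : ℤ) ∣ 32768 by norm_num).trans
      ((ZMod.intCast_zmod_eq_zero_iff_dvd (s * x - 1) 32768).mp (by
        push_cast; exact sub_eq_zero.mpr hxy')))
    have hc1 : IsUnit (c : ZMod 256) := by
      obtain ⟨u, v, huv⟩ := (hoc c ⟨1, -k, by rw [hk]; ring⟩)
      have := congrArg (Int.cast : ℤ → ZMod 256) huv
      push_cast at this
      rw [show (32768 : ZMod 256) = 0 from rfl, mul_zero, add_zero] at this
      exact IsUnit.of_mul_eq_one _ ((mul_comm _ _).trans this)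
    push_cast at hd hsc hsx ⊢
    rw [hg]; push_cast
    refine (IsUnit.mul_right_eq_zero (hc1.pow 2)).mp ?_
    linear_combination (x : ZMod 256) ^ 2 * hd + (x : ZMod 256) ^ 2 * (-((e : ZMod 256))
      - (c : ZMod 256) * s) * hsc + (c : ZMod 256) ^ 2 * ((s : ZMod 256) * x + 1) * hsx
  obtain ⟨n, hn⟩ := hg256
  have hG : (g : ZMod 32768) = 1
      + 256 * (((⟨(n % 128).toNat, by omega⟩ : Fin 128).val : ℕ) : ZMod 32768) := by
    have hnn : ((n % 128).toNat : ℤ) = n % 128 := Int.toNat_of_nonneg (by omega)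
    have e1 : g = 1 + 256 * ((n % 128).toNat : ℤ) + 32768 * (n / 128) := by rw [hnn]; omega
    conv_lhs => rw [e1]
    push_cast
    rw [show (32768 : ZMod 32768) = 0 from rfl]
    ring
  have hs8 : (8 : ℤ) ∣ s - e := by
    have h := (show (8 : ℤ) ∣ 32768 by norm_num).trans
      ((ZMod.intCast_zmod_eq_zero_iff_dvd (c * s - e) 32768).mp (by
        push_cast; rw [← hC, ← hE, hs, sub_self]))
    obtain ⟨l, hl⟩ : (8 : ℤ) ∣ c - 1 := by omega
    rw [show c * s - e = (s - e) + 8 * (l * s) by linear_combination s * hl] at h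
    simpa using h
  exact ⟨s, ⟨(n % 128).toNat, by omega⟩, hsmod, hs8, hG ▸ hgC, hG ▸ hgE⟩

/-- At `2`, with `256 ∣ c³ - e²`: near the root, with scale `4`. -/
theorem exists_class_two (c e : ℤ) (hD : (256 : ℤ) ∣ c ^ 3 - e ^ 2) (hc : Odd c)
    (he : e % 4 = 3) :
    ∃ a₁ : ℤ, ∀ a b : ℤ, (2 : ℤ) ^ 15 ∣ a - a₁ → (2 : ℤ) ^ 15 ∣ b - 1 →
      (∃ u : ℤ, Odd u ∧ hP c e a b = 512 * u) ∧ (∃ c₁ : ℤ, Odd c₁ ∧ hC4 c e a b = 256 * c₁) ∧
        ∃ e₁ : ℤ, e₁ % 4 = 3 ∧ (8 : ℤ) ∣ e₁ - e ∧ hC6 c e a b = 4096 * e₁ := by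
  obtain ⟨s, i, hsmod, hs8, hgC, hgE⟩ := exists_normal_two c e hD hc he
  obtain ⟨hP2, hC42, hC62⟩ := two_values i
  set g : ZMod 32768 := 1 + 256 * (i.val : ZMod 32768)
  refine ⟨11 * s, fun a b ha hb => ?_⟩
  have hA : (a : ZMod 32768) = (s : ZMod 32768) * 11 := by
    have := (ZMod.intCast_zmod_eq_zero_iff_dvd (a - 11 * s) 32768).mpr (by simpa using ha)
    push_cast at this
    linear_combination this
  have hB : (b : ZMod 32768) = 1 := by
    have := (ZMod.intCast_zmod_eq_zero_iff_dvd (b - 1) 32768).mpr (by simpa using hb)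
    push_cast at this
    linear_combination this
  -- multiplying by powers of the odd `s` fixes `2 ^ 14`
  have hso : ∀ z : (ZMod 32768), z ≠ 0 → z * 2 = 0 → z * (s : ZMod 32768) = z := fun z _ h2z => by
    obtain ⟨i, hi⟩ : ∃ i, s = 2 * i + 1 := ⟨s / 2, by omega⟩
    rw [hi]; push_cast
    linear_combination (i : ZMod 32768) * h2z
  have h8 : ∀ j : ℕ, (16384 : ZMod 32768) * (s : ZMod 32768) ^ j = 16384 := fun j => by
    induction j with
    | zero => simp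
    | succ j ih => rw [pow_succ, ← mul_assoc, ih, hso _ (by decide) (by decide)]
  have eP : ((32 * hP c e a b - 16384 : ℤ) : ZMod 32768) = 0 := by
    push_cast
    rw [show ((hP c e a b : ℤ) : ZMod 32768) = hP (c : ZMod 32768) (e : ZMod 32768) a b from
      map_hP (Int.castRingHom (ZMod 32768)) c e a b]
    rw [hA, hB, hgC, hgE, hP_smul]
    rw [show (32 : ZMod 32768) * ((s : ZMod 32768) ^ 4 * hP g g 11 1) =
        (32 * hP g g 11 1) * (s : ZMod 32768) ^ 4 by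
      ring, hP2, h8, sub_self]
  have e4 : ((64 * hC4 c e a b - 16384 : ℤ) : ZMod 32768) = 0 := by
    push_cast
    rw [show ((hC4 c e a b : ℤ) : ZMod 32768) = hC4 (c : ZMod 32768) (e : ZMod 32768) a b from
      map_hC4 (Int.castRingHom (ZMod 32768)) c e a b]
    rw [hA, hB, hgC, hgE, hC4_smul]
    rw [show (64 : ZMod 32768) * ((s : ZMod 32768) ^ 6 * hC4 g g 11 1) =
        (64 * hC4 g g 11 1) * (s : ZMod 32768) ^ 6 by
      ring, hC42, h8, sub_self]
  have e6 : ((hC6 c e a b - 4096 * s : ℤ) : ZMod 32768) = 0 := by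
    push_cast
    rw [show ((hC6 c e a b : ℤ) : ZMod 32768) = hC6 (c : ZMod 32768) (e : ZMod 32768) a b from
      map_hC6 (Int.castRingHom (ZMod 32768)) c e a b]
    rw [hA, hB, hgC, hgE, hC6_smul, hC62]
    have h4 : (4096 : ZMod 32768) * (s : ZMod 32768) ^ 2 = 4096 := by
      obtain ⟨i, hi⟩ : ∃ i, s = 4 * i + 3 := ⟨s / 4, by omega⟩
      rw [hi]; push_cast
      have h0 : (4096 : ZMod 32768) * 8 = 0 := rfl
      linear_combination (2 * (i : ZMod 32768) ^ 2 + 3 * i + 1) * h0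
    linear_combination ((s : ZMod 32768) ^ 7 + (s : ZMod 32768) ^ 5 + (s : ZMod 32768) ^ 3
      + (s : ZMod 32768)) * h4
  -- so `hP`, `hC4` are `512`, `256` times odd numbers and `hC6` is `4096` times `s` modulo `8`
  obtain ⟨p, hp⟩ := (ZMod.intCast_zmod_eq_zero_iff_dvd _ 32768).mp eP
  obtain ⟨q, hq⟩ := (ZMod.intCast_zmod_eq_zero_iff_dvd _ 32768).mp e4
  obtain ⟨r, hr⟩ := (ZMod.intCast_zmod_eq_zero_iff_dvd _ 32768).mp e6
  push_cast at hp hq hr
  refine ⟨⟨2 * p + 1, ⟨p, rfl⟩, ?_⟩, ⟨2 * q + 1, ⟨q, rfl⟩, ?_⟩, ⟨8 * r + s, by omega, by omega, ?_⟩⟩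
  · linarith
  · linarith
  · linarith

end Fermat.Agent.LT.Switch
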