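import Fermat.Agent.LT.Switch.Forms
import Fermat.Agent.Arith.Density.Frobenius
import Fermat.Agent.Arith.RootsOfUnity
import Mathlib.RingTheory.RootsOfUnity.AlgebraicallyClosed

/-!
# Primes `≡ 1 (mod 12)` modulo which the pencil quartic has a root

A prime whose Frobenius fixes a root of the quartic and the twelfth roots of unity.
-/

set_option autoImplicit false

noncomputable section

open Polynomial

namespace Fermat.Agent.LT.Switch

open Fermat.Agent.Arith

local notation "Qb" => AlgebraicClosure ℚ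

/-- An element of a field fixed by the `ℓ`-th power is in the prime field. -/
theorem exists_natCast_eq_of_pow_eq {ℓ : ℕ} (hℓ : ℓ.Prime) {F : Type*} [Field F] [CharP F ℓ]
    {x : F} (hx : x ^ ℓ = x) : ∃ n : ℕ, x = (n : F) := by
  classical
  by_contra hno
  have hdeg := FiniteField.X_pow_card_sub_X_natDegree_eq F hℓ.one_lt
  have hne := FiniteField.X_pow_card_sub_X_ne_zero F hℓ.one_lt
  set Z : Finset F := insert x ((Finset.range ℓ).image fun n : ℕ => (n : F)) with hZ
  have hinj : Set.InjOn (fun n : ℕ => (n : F)) (Finset.range ℓ) := fun a ha b hb h => by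
    simp only [Finset.coe_range, Set.mem_Iio] at ha hb
    exact (CharP.natCast_injOn_Iio F ℓ) ha hb h
  have hcard : Z.card = ℓ + 1 := by
    rw [hZ, Finset.card_insert_of_notMem, Finset.card_image_of_injOn hinj, Finset.card_range]
    intro hmem
    obtain ⟨n, -, hn⟩ := Finset.mem_image.mp hmem
    exact hno ⟨n, hn.symm⟩
  have : Fact ℓ.Prime := ⟨hℓ⟩
  have hsub : Z.val ⊆ (X ^ ℓ - X : F[X]).roots := by
    intro z hz
    rw [mem_roots hne, IsRoot, eval_sub, eval_pow, eval_X, sub_eq_zero]
    rcases Finset.mem_insert.mp (Finset.mem_val.mp hz) with rfl | h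
    · exact hx
    · obtain ⟨n, -, rfl⟩ := Finset.mem_image.mp h
      rw [← frobenius_def]
      exact map_natCast (frobenius F ℓ) n
  have := card_le_degree_of_subset_roots hsub
  rw [hcard, hdeg] at this
  omega

/-- A split prime outside a finite set. -/
theorem exists_split_prime (c e : ℤ) (S : Finset ℕ) :
    ∃ ℓ : ℕ, ℓ.Prime ∧ ℓ ∉ S ∧ ℓ % 12 = 1 ∧ ∃ r : ℤ, (ℓ : ℤ) ∣ hP c e r 1 := by
  set g : Qb[X] := X ^ 4 - (Polynomial.C (6 * (c : Qb)) * X ^ 2
    + Polynomial.C (8 * (e : Qb)) * X + Polynomial.C (3 * (c : Qb) ^ 2)) with hg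
  have hdeg : g.degree = 4 := by
    have h : (Polynomial.C (6 * (c : Qb)) * X ^ 2
        + Polynomial.C (8 * (e : Qb)) * X + Polynomial.C (3 * (c : Qb) ^ 2)).degree < 4 :=
      Polynomial.degree_quadratic_le.trans_lt (by decide)
    rw [hg, Polynomial.degree_sub_eq_left_of_degree_lt (by rwa [Polynomial.degree_X_pow]),
      Polynomial.degree_X_pow]; rfl
  -- a root `r` of the quartic and a twelfth root of unity `ζ`
  obtain ⟨r, hr⟩ := IsAlgClosed.exists_root g (by rw [hdeg]; decide)
  have hr' : hP (c : Qb) e r 1 = 0 := by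
    simp only [Polynomial.IsRoot, hg, eval_sub, eval_pow, eval_X, eval_add, eval_mul, eval_C] at hr
    simp only [hP]
    linear_combination hr
  obtain ⟨ζ, hζ⟩ := HasEnoughRootsOfUnity.exists_primitiveRoot Qb 12
  have hrint : IsIntegral ℤ r := by
    refine ⟨(X ^ 4 - (Polynomial.C (6 * c) * X ^ 2 + Polynomial.C (8 * e) * X
      + Polynomial.C (3 * c ^ 2)) : ℤ[X]), ?_, ?_⟩
    · exact Polynomial.monic_X_pow_sub (Polynomial.degree_quadratic_le.trans_lt (by decide))
    · simp only [eval₂_sub, eval₂_pow, eval₂_X, eval₂_add, eval₂_mul, eval₂_C]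
      simp only [eq_intCast]
      simp only [hP] at hr'
      push_cast
      linear_combination hr'
  let L₀ : IntermediateField ℚ Qb := IntermediateField.adjoin ℚ {r, ζ}
  have : FiniteDimensional ℚ L₀ := by
    refine IntermediateField.finiteDimensional_adjoin fun z hz => ?_
    rcases hz with rfl | rfl
    · exact hrint.tower_top
    · exact (hζ.isIntegral (by norm_num)).tower_top
  let L : IntermediateField ℚ Qb := IntermediateField.normalClosure ℚ L₀ Qb
  have : Normal ℚ L := normalClosure.normal ℚ L₀ Qb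
  -- a prime outside `S` whose Frobenius `σ` fixes them
  obtain ⟨ℓ, hℓ, hℓS, A, hA, σ, hσ, -, j, hj⟩ :=
    Density.exists_frobenius_pow (AlgEquiv.restrictNormalHom L) L (fun σ hσ => by
      refine AlgEquiv.ext fun x => Subtype.ext ?_
      rw [AlgEquiv.one_apply]
      exact (AlgEquiv.restrictNormal_commutes σ L x).trans (hσ x x.2)) 1 (S ∪ {2, 3})
  rw [map_one, one_pow] at hj
  have hfix : ∀ z ∈ L₀, σ z = z := fun z hz => by
    have hz' : z ∈ L := L₀.le_normalClosure hz
    have h := congrArg Subtype.val (AlgEquiv.congr_fun hj ⟨z, hz'⟩)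
    exact (AlgEquiv.restrictNormal_commutes σ L ⟨z, hz'⟩).symm.trans h
  simp only [Finset.mem_union, Finset.mem_insert, Finset.mem_singleton, not_or] at hℓS
  have h12 : ¬ ℓ ∣ 12 := fun h => by
    rcases hℓ.dvd_mul.mp (show ℓ ∣ 4 * 3 from h) with h | h
    · exact hℓS.2.1 ((Nat.prime_dvd_prime_iff_eq hℓ Nat.prime_two).mp
        (hℓ.dvd_of_dvd_pow (show ℓ ∣ 2 ^ 2 from h)))
    · exact hℓS.2.2 ((Nat.prime_dvd_prime_iff_eq hℓ Nat.prime_three).mp h)
  refine ⟨ℓ, hℓ, hℓS.1, ?_, ?_⟩
  -- `ζ ^ ℓ = σ ζ = ζ`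
  · have h1 := frobenius_root hA hℓ hσ hζ.pow_eq_one h12
    rw [hfix ζ (IntermediateField.subset_adjoin ℚ _ (Set.mem_insert_of_mem _ rfl))] at h1
    have h2 : 1 % 12 = ℓ % 12 := by
      have h := (hζ.pow_inj (Nat.mod_lt 1 (by norm_num)) (Nat.mod_lt ℓ (by norm_num)))
      refine h ?_
      rw [← pow_eq_pow_mod _ hζ.pow_eq_one, ← pow_eq_pow_mod _ hζ.pow_eq_one, pow_one]
      exact h1
    omega
  -- the residue of `r` is fixed by the `ℓ`-th power, so is in the prime field
  · have hrA := mem_of_isIntegral A hrint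
    have := residueField_charP hA hℓ
    set R := IsLocalRing.residue A ⟨r, hrA⟩ with hR
    have hpow : R ^ ℓ = R := by
      have h := (isFrobeniusAt_iff hA hℓ).mp hσ r hrint
      rw [hfix r (IntermediateField.subset_adjoin ℚ _ (Set.mem_insert _ _))] at h
      rw [hR, ← map_pow]
      refine (residue_eq_iff.mpr ?_).symm
      exact h
    obtain ⟨n, hn⟩ := exists_natCast_eq_of_pow_eq hℓ hpow
    refine ⟨n, (CharP.intCast_eq_zero_iff (IsLocalRing.ResidueField A) ℓ _).mp ?_⟩
    have h0 : hP ((c : A)) (e : A) ⟨r, hrA⟩ 1 = 0 := Subtype.ext (by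
      show A.subtype (hP ((c : A)) (e : A) ⟨r, hrA⟩ 1) = 0
      rw [map_hP, map_intCast, map_intCast, map_one]
      exact hr')
    have h1 := congrArg (IsLocalRing.residue A) h0
    rw [map_hP, map_intCast, map_intCast, map_one, map_zero, ← hR, hn] at h1
    rw [← eq_intCast (Int.castRingHom (IsLocalRing.ResidueField A)), map_hP]
    simpa using h1

end Fermat.Agent.LT.Switch
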