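import Fermat.Agent.LT.Switch.Galois
import Fermat.Agent.LT.Switch.Count
import Fermat.Agent.LT.Switch.SplitPrime
import Fermat.Agent.LT.Switch.Model
import Fermat.Agent.LT.Switch.Local
import Fermat.Agent.LT.Switch.SplitType

/-!
# The switch of a curve multiplicative at `2`, keeping the `3`-torsion

`exists_switch`: a semistable curve, multiplicative at `2`, shares its `3`-torsion with a
semistable curve of negative discriminant whose bad primes, `2` among them, all have odd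
valuations, two of them `≡ 1 (mod 12)`, without a point of order two.
It is used in `LT/Compose/Main`.
-/

set_option autoImplicit false

open Filter

namespace Fermat.Agent.LT.Switch

open WeierstrassCurve

/-! ## Congruences and valuations -/

/-- Simultaneous congruences at prime powers. -/
theorem exists_crt (n : ℕ → ℕ) (t : ℕ → ℤ) (S : Finset ℕ) (hS : ∀ q ∈ S, q.Prime) :
    ∃ a : ℤ, ∀ q ∈ S, (q : ℤ) ^ n q ∣ a - t q := by
  classical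
  induction S using Finset.induction with
  | empty => exact ⟨0, fun q hq => absurd hq (Finset.notMem_empty q)⟩
  | insert p S hp ih =>
    obtain ⟨a, ha⟩ := ih fun q hq => hS q (Finset.mem_insert_of_mem hq)
    obtain ⟨u, v, huv⟩ : IsCoprime (∏ q ∈ S, (q : ℤ) ^ n q) ((p : ℤ) ^ n p) :=
      IsCoprime.prod_left fun q hq => by
        refine IsCoprime.pow ?_
        refine (Nat.prime_iff_prime_int.mp
          (hS q (Finset.mem_insert_of_mem hq))).coprime_iff_not_dvd.mpr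
          fun h => hp ?_
        rwa [← (Nat.prime_dvd_prime_iff_eq (hS q (Finset.mem_insert_of_mem hq))
          (hS p (Finset.mem_insert_self p S))).mp (by exact_mod_cast h)]
    refine ⟨a * (v * (p : ℤ) ^ n p) + t p * (u * ∏ q ∈ S, (q : ℤ) ^ n q), fun q hq => ?_⟩
    rcases Finset.mem_insert.mp hq with rfl | hqS
    · exact ⟨(a - t q) * v, by linear_combination t q * huv⟩
    · obtain ⟨k, hk⟩ := ha q hqS
      obtain ⟨l, hl⟩ := Finset.dvd_prod_of_mem (fun q : ℕ => (q : ℤ) ^ n q) hqS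
      refine ⟨k + (t p - a) * u * l, ?_⟩
      linear_combination hk + a * huv + (t p - a) * u * hl

theorem padicValInt_mul_cube {p : ℕ} [Fact p.Prime] {x y : ℤ} (hx : x ≠ 0) (hy : y ≠ 0) :
    padicValInt p (x * y ^ 3) = padicValInt p x + 3 * padicValInt p y := by
  rw [padicValInt.mul hx (pow_ne_zero _ hy), show y ^ 3 = y * (y * y) by ring,
    padicValInt.mul hy (mul_ne_zero hy hy), padicValInt.mul hy hy]
  ring

theorem padicValInt_eq_one {p : ℕ} [Fact p.Prime] {x : ℤ} (h1 : (p : ℤ) ∣ x)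
    (h2 : ¬ (p : ℤ) ^ 2 ∣ x) : padicValInt p x = 1 := by
  have hx : x ≠ 0 := fun h => h2 (h ▸ dvd_zero _)
  have e1 : 1 ≤ padicValInt p x :=
    ((padicValInt_dvd_iff 1 _).mp (by simpa using h1)).resolve_left hx
  have e2 : padicValInt p x < 2 := by
    by_contra h
    exact h2 ((padicValInt_dvd_iff 2 _).mpr (Or.inr (not_lt.mp h)))
  omega

/-! ## The classes of the parameter at the primes -/

/-- The requirements at an odd prime on a parameter. -/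
def GoodAt (W : WeierstrassCurve ℤ) (q : ℕ) (a b : ℤ) : Prop :=
  ¬ (q : ℤ) ^ 2 ∣ hP W.c₄ W.c₆ a b ∧
    (((q : ℤ) ∣ W.Δ ∨ (q : ℤ) ∣ hP W.c₄ W.c₆ a b) → ¬ (q : ℤ) ∣ hC4 W.c₄ W.c₆ a b) ∧
    ((q : ℤ) ∣ W.Δ → ((q : ℤ) ∣ hP W.c₄ W.c₆ a b ↔ Even (padicValInt q W.Δ))) ∧
    ((q : ℤ) ∣ W.Δ → ∃ w : ZMod q, w ≠ 0 ∧ ((hC4 W.c₄ W.c₆ a b : ℤ) : ZMod q) =
      w ^ 4 * (W.c₄ : ZMod q) ∧
      ((hC6 W.c₄ W.c₆ a b : ℤ) : ZMod q) = w ^ 6 * (W.c₆ : ZMod q))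

/-- The requirements at `2` on a parameter: the scale and the reduced invariants. -/
def GoodAtTwo (W : WeierstrassCurve ℤ) (a b : ℤ) : Prop :=
  ∃ k u c₁ e₁ : ℤ, Odd u ∧ Odd c₁ ∧ e₁ % 4 = 3 ∧ (8 : ℤ) ∣ e₁ - W.c₆ ∧
    hC4 W.c₄ W.c₆ a b = k ^ 4 * c₁ ∧ hC6 W.c₄ W.c₆ a b = k ^ 6 * e₁ ∧
    ((Odd (padicValInt 2 W.Δ) ∧ k = 1 ∧ hP W.c₄ W.c₆ a b = u) ∨
      (Even (padicValInt 2 W.Δ) ∧ k = 4 ∧ hP W.c₄ W.c₆ a b = 512 * u))

variable {W : WeierstrassCurve ℤ}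

theorem c₆_mod_four (hW : W.IsSemistableModel) (h2 : (2 : ℤ) ∣ W.Δ) :
    Odd W.c₄ ∧ W.c₆ % 4 = 3 := by
  have hc : ¬ (2 : ℤ) ∣ W.c₄ := hW 2 Nat.prime_two h2
  refine ⟨Int.not_even_iff_odd.mp fun h => hc h.two_dvd, ?_⟩
  have key : ∀ a₁ a₂ b₄ b₆ : ZMod 4,
      2 * ((a₁ ^ 2 + 4 * a₂) ^ 2 - 24 * b₄) = 2 →
      -(a₁ ^ 2 + 4 * a₂) ^ 3 + 36 * (a₁ ^ 2 + 4 * a₂) * b₄ - 216 * b₆ = 3 := by decide
  have h4 : ((2 * W.c₄ : ℤ) : ZMod 4) = 2 := by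
    obtain ⟨k, hk⟩ : Odd W.c₄ := Int.not_even_iff_odd.mp fun h => hc h.two_dvd
    rw [hk]; push_cast
    rw [show (2 : ZMod 4) * (2 * (k : ZMod 4) + 1) = 4 * (k : ZMod 4) + 2 by ring,
      show (4 : ZMod 4) = 0 from rfl, zero_mul, zero_add]
  have h6 : ((W.c₆ : ℤ) : ZMod 4) = 3 := by
    simp only [WeierstrassCurve.c₄, WeierstrassCurve.c₆, WeierstrassCurve.b₂] at h4 ⊢
    push_cast at h4 ⊢
    exact key _ _ _ _ h4
  have := (ZMod.intCast_zmod_eq_zero_iff_dvd (W.c₆ - 3) 4).mp (by push_cast; rw [h6, sub_self])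
  omega

/-- Near the root the invariants are a scaling of the original ones. -/
theorem exists_scale_root {q : ℕ} (hq : q.Prime) (hq2 : q ≠ 2)
    (hrel : W.c₄ ^ 3 - W.c₆ ^ 2 = 1728 * W.Δ) (hqΔ : (q : ℤ) ∣ W.Δ) (hc : ¬ (q : ℤ) ∣ W.c₄)
    {a b : ℤ} (ha : (q : ℤ) ∣ W.c₄ * a - 3 * W.c₆) (hb : (q : ℤ) ∣ b - 1) :
    ∃ w : ZMod q, w ≠ 0 ∧ ((hC4 W.c₄ W.c₆ a b : ℤ) : ZMod q) = w ^ 4 * (W.c₄ : ZMod q) ∧
      ((hC6 W.c₄ W.c₆ a b : ℤ) : ZMod q) = w ^ 6 * (W.c₆ : ZMod q) := by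
  have : Fact q.Prime := ⟨hq⟩
  have hc0 : (W.c₄ : ZMod q) ≠ 0 := fun h => hc ((ZMod.intCast_zmod_eq_zero_iff_dvd _ q).mp h)
  have h4 : (4 : ZMod q) ≠ 0 := fun h => hq2 ((Nat.prime_dvd_prime_iff_eq hq Nat.prime_two).mp
    (hq.dvd_of_dvd_pow (show q ∣ 2 ^ 2 from (ZMod.natCast_eq_zero_iff 4 q).mp
      (by exact_mod_cast h))))
  have hD : (W.c₄ : ZMod q) ^ 3 = (W.c₆ : ZMod q) ^ 2 := by
    have := (ZMod.intCast_zmod_eq_zero_iff_dvd (W.c₄ ^ 3 - W.c₆ ^ 2) q).mpr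
      (hrel ▸ hqΔ.mul_left 1728)
    push_cast at this
    exact sub_eq_zero.mp this
  have ha' : (W.c₄ : ZMod q) * a = 3 * (W.c₆ : ZMod q) := by
    have := (ZMod.intCast_zmod_eq_zero_iff_dvd _ q).mpr ha
    push_cast at this
    exact sub_eq_zero.mp this
  have hb' : (b : ZMod q) = 1 := by
    have := (ZMod.intCast_zmod_eq_zero_iff_dvd _ q).mpr hb
    push_cast at this
    exact sub_eq_zero.mp this
  set c : ZMod q := (W.c₄ : ZMod q)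
  set e : ZMod q := (W.c₆ : ZMod q)
  -- modulo `q` the parameter is the root `a = 3 S` of the quartic, with `c = S²`, `e = S³`
  set S : ZMod q := e / c with hS
  have e1 : c = S ^ 2 := by rw [hS]; field_simp; linear_combination hD
  have e2 : e = S ^ 3 := by
    rw [hS]; field_simp; linear_combination e * hD
  have e3 : (a : ZMod q) = 3 * S := by rw [hS]; field_simp; linear_combination ha'
  refine ⟨4 * S, mul_ne_zero h4 fun h => hc0 (by rw [e1, h]; ring), ?_, ?_⟩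
  · rw [show ((hC4 W.c₄ W.c₆ a b : ℤ) : ZMod q) = hC4 c e a b from
      map_hC4 (Int.castRingHom (ZMod q)) _ _ a b, e1, e2, e3, hb']
    simp only [hC4]; ring
  · rw [show ((hC6 W.c₄ W.c₆ a b : ℤ) : ZMod q) = hC6 c e a b from
      map_hC6 (Int.castRingHom (ZMod q)) _ _ a b, e1, e2, e3, hb']
    simp only [hC6]; ring

/-- The class at `2`: near `(1, 0)` if `v₂(Δ)` is odd, near the root with scale `4` if it is
even. -/
theorem exists_class_at_two (hW : W.IsSemistableModel) (h2 : (2 : ℤ) ∣ W.Δ)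
    (hrel : W.c₄ ^ 3 - W.c₆ ^ 2 = 1728 * W.Δ) :
    ∃ ta tb : ℤ, ∀ a b : ℤ, (2 : ℤ) ^ 15 ∣ a - ta → (2 : ℤ) ^ 15 ∣ b - tb →
      ¬ ((2 : ℤ) ∣ a ∧ (2 : ℤ) ∣ b) ∧ GoodAtTwo W a b := by
  obtain ⟨hc, he⟩ := c₆_mod_four hW h2
  rcases Nat.even_or_odd (padicValInt 2 W.Δ) with hev | hodd
  · have h256 : (256 : ℤ) ∣ W.c₄ ^ 3 - W.c₆ ^ 2 := by
      have h4 : (4 : ℤ) ∣ W.Δ := by
        by_cases h0 : W.Δ = 0
        · rw [h0]; exact dvd_zero _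
        have h1 : 1 ≤ padicValInt 2 W.Δ :=
          ((padicValInt_dvd_iff 1 _).mp (by simpa using h2)).resolve_left h0
        have := (padicValInt_dvd_iff (p := 2) 2 W.Δ).mpr (Or.inr (by
          obtain ⟨r, hr⟩ := hev; omega))
        simpa using this
      rw [hrel]
      obtain ⟨r, hr⟩ := h4
      exact ⟨27 * r, by rw [hr]; ring⟩
    -- at `a / b = 11 c₆ / c₄`, near the root, the invariants scale by `4` and the value is `512`
    -- times a unit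
    obtain ⟨a₁, ha₁⟩ := exists_class_two W.c₄ W.c₆ h256 hc he
    refine ⟨a₁, 1, fun a b ha hb => ⟨fun h => ?_, ?_⟩⟩
    · have := dvd_sub h.2 ((dvd_pow_self (2 : ℤ) (by norm_num)).trans hb)
      rw [sub_sub_cancel] at this
      omega
    · obtain ⟨⟨u, hu, hP'⟩, ⟨c₁, hc₁, hC⟩, e₁, he₁, he8, hE⟩ := ha₁ a b ha hb
      exact ⟨4, u, c₁, e₁, hu, hc₁, he₁, he8, by rw [hC]; norm_num, by rw [hE]; norm_num,
        Or.inr ⟨hev, rfl, hP'⟩⟩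
  · -- near `(1, 0)` the value is odd and the invariants are unchanged modulo `8`
    refine ⟨1, 0, fun a b ha hb => ?_⟩
    rw [sub_zero] at hb
    have h4 : ((8 : ℕ) : ℤ) ∣ (2 : ℤ) ^ 15 := ⟨4096, by norm_num⟩
    obtain ⟨hP', hC, hE⟩ := congr_base 8 W.c₄ W.c₆ a b (h4.trans ha) (h4.trans hb)
    obtain ⟨k, hk⟩ := hc
    refine ⟨fun h => ?_, 1, hP W.c₄ W.c₆ a b, hC4 W.c₄ W.c₆ a b, hC6 W.c₄ W.c₆ a b,
      Int.odd_iff.mpr (by omega), Int.odd_iff.mpr (by omega), by omega, hE, by ring, by ring,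
      Or.inl ⟨hodd, rfl, rfl⟩⟩
    have := dvd_sub h.1 ((dvd_pow_self (2 : ℤ) (by norm_num)).trans ha)
    rw [sub_sub_cancel] at this
    omega

/-- The class at an odd prime: at a bad prime of even valuation a simple root of `hP`, which makes
the valuation odd, and otherwise `(1, 0)`, which keeps the invariants modulo `q ^ 4`. -/
theorem exists_class_at_odd (hΔ : W.Δ ≠ 0) (hW : W.IsSemistableModel)
    (hrel : W.c₄ ^ 3 - W.c₆ ^ 2 = 1728 * W.Δ) {q : ℕ} (hq : q.Prime) (hq2 : q ≠ 2) :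
    ∃ ta tb : ℤ, ∀ a b : ℤ, (q : ℤ) ^ 4 ∣ a - ta → (q : ℤ) ^ 4 ∣ b - tb →
      ¬ ((q : ℤ) ∣ a ∧ (q : ℤ) ∣ b) ∧ GoodAt W q a b ∧
        (¬ (q : ℤ) ∣ W.Δ → (q : ℤ) ^ 4 ∣ hC4 W.c₄ W.c₆ a b - W.c₄ ∧
          (q : ℤ) ^ 4 ∣ hC6 W.c₄ W.c₆ a b - W.c₆ ∧ ¬ (q : ℤ) ∣ hP W.c₄ W.c₆ a b) := by
  have : Fact q.Prime := ⟨hq⟩
  have hqz := Nat.prime_iff_prime_int.mp hq
  have hone : ¬ (q : ℤ) ∣ 1 := hqz.not_dvd_one
  by_cases hroot : (q : ℤ) ∣ W.Δ ∧ Even (padicValInt q W.Δ)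
  · obtain ⟨hqΔ, hev⟩ := hroot
    have hq2Δ : (q : ℤ) ^ 2 ∣ W.Δ := by
      have h1 : 1 ≤ padicValInt q W.Δ :=
        ((padicValInt_dvd_iff 1 _).mp (by simpa using hqΔ)).resolve_left hΔ
      exact (padicValInt_dvd_iff 2 _).mpr (Or.inr (by obtain ⟨r, hr⟩ := hev; omega))
    obtain ⟨a₁, ha₁⟩ := exists_exact_of_bad hq hq2 W.c₄ W.c₆ (hrel ▸ hq2Δ.mul_left _)
      (hW q hq hqΔ)
    refine ⟨a₁, 1, fun a b ha hb => ?_⟩
    obtain ⟨hroot, h1, h2', h3'⟩ := ha₁ a b ((pow_dvd_pow _ (by norm_num)).trans ha)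
      ((pow_dvd_pow _ (by norm_num)).trans hb)
    have hscale := exists_scale_root hq hq2 hrel hqΔ (hW q hq hqΔ) hroot
      ((dvd_pow_self _ (by norm_num)).trans hb)
    refine ⟨fun h => hone ?_, ⟨h2', fun _ => h3', fun _ => iff_of_true h1 hev, fun _ => hscale⟩,
      fun h => absurd hqΔ h⟩
    have := dvd_sub h.2 ((dvd_pow_self _ (by norm_num)).trans hb)
    rwa [sub_sub_cancel] at this
  · refine ⟨1, 0, fun a b ha hb => ?_⟩
    rw [sub_zero] at hb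
    obtain ⟨hP', hC, hE⟩ := congr_base (q ^ 4) W.c₄ W.c₆ a b (by push_cast; exact ha)
      (by push_cast; exact hb)
    push_cast at hP' hC hE
    have hnP : ¬ (q : ℤ) ∣ hP W.c₄ W.c₆ a b := fun h => hone (by
      have := dvd_sub h ((dvd_pow_self _ (by norm_num)).trans hP')
      rwa [sub_sub_cancel] at this)
    -- the invariants are unchanged modulo `q`: the scale is `1`
    have hscale : ∀ {x y : ℤ}, (q : ℤ) ^ 4 ∣ x - y → ∀ k : ℕ,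
        (x : ZMod q) = (1 : ZMod q) ^ k * (y : ZMod q) := fun {x y} h k => by
      rw [one_pow, one_mul, ← sub_eq_zero, ← Int.cast_sub, ZMod.intCast_zmod_eq_zero_iff_dvd]
      exact (dvd_pow_self _ (by norm_num)).trans h
    refine ⟨fun h => hone ?_, ⟨fun h => hnP ((dvd_pow_self _ (by norm_num)).trans h), ?_,
      fun h => iff_of_false hnP fun hev => hroot ⟨h, hev⟩,
      fun _ => ⟨1, one_ne_zero, hscale hC 4, hscale hE 6⟩⟩, fun _ => ⟨hC, hE, hnP⟩⟩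
    · have := dvd_sub h.1 ((dvd_pow_self _ (by norm_num)).trans ha)
      rwa [sub_sub_cancel] at this
    · rintro (h | h)
      · exact fun hd => hW q hq h (by
          have := dvd_sub hd ((dvd_pow_self _ (by norm_num)).trans hC)
          rwa [sub_sub_cancel] at this)
      · exact absurd h hnP

/-- The class at a good prime with a root of `hP`: the value is divisible exactly once, so the
member is multiplicative there. -/
theorem exists_class_at_split {q : ℕ} (hq : q.Prime) (hq2 : q ≠ 2) (hq3 : q ≠ 3)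
    (hqΔ : ¬ (q : ℤ) ∣ W.Δ) (hrel : W.c₄ ^ 3 - W.c₆ ^ 2 = 1728 * W.Δ) {r : ℤ}
    (hr : (q : ℤ) ∣ hP W.c₄ W.c₆ r 1) :
    ∃ ta tb : ℤ, ∀ a b : ℤ, (q : ℤ) ^ 4 ∣ a - ta → (q : ℤ) ^ 4 ∣ b - tb →
      ¬ ((q : ℤ) ∣ a ∧ (q : ℤ) ∣ b) ∧ GoodAt W q a b ∧ (q : ℤ) ∣ hP W.c₄ W.c₆ a b := by
  have : Fact q.Prime := ⟨hq⟩
  have hqz := Nat.prime_iff_prime_int.mp hq
  obtain ⟨a₁, ha₁⟩ := exists_exact_of_root W.c₄ W.c₆ r hq2 hq3 (fun h => by
    rw [hrel, show (1728 : ℤ) = 2 ^ 6 * 3 ^ 3 by norm_num] at h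
    rcases hqz.dvd_mul.mp h with h | h
    · rcases hqz.dvd_mul.mp h with h | h
      · exact hq2 ((Nat.prime_dvd_prime_iff_eq hq Nat.prime_two).mp
          (by exact_mod_cast hqz.dvd_of_dvd_pow h))
      · exact hq3 ((Nat.prime_dvd_prime_iff_eq hq Nat.prime_three).mp
          (by exact_mod_cast hqz.dvd_of_dvd_pow h))
    · exact hqΔ h) hr
  refine ⟨a₁, 1, fun a b ha hb => ?_⟩
  obtain ⟨h1, h2, h3⟩ := ha₁ a b ((pow_dvd_pow _ (by norm_num)).trans ha)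
    ((pow_dvd_pow _ (by norm_num)).trans hb)
  refine ⟨fun h => hqz.not_dvd_one ?_,
    ⟨h2, fun _ => h3, fun h => absurd h hqΔ, fun h => absurd h hqΔ⟩, h1⟩
  have := dvd_sub h.2 ((dvd_pow_self _ (by norm_num)).trans hb)
  rwa [sub_sub_cancel] at this

/-- Off `6 Δ`, a zero of the quartic is no zero of the quartic invariant. -/
theorem not_dvd_hC4 {q : ℕ} (hq : q.Prime) (hq2 : q ≠ 2) (hq3 : q ≠ 3)
    (hqΔ : ¬ (q : ℤ) ∣ W.Δ) {a b : ℤ} (hab : IsCoprime a b)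
    (hP' : (q : ℤ) ∣ hP W.c₄ W.c₆ a b) : ¬ (q : ℤ) ∣ hC4 W.c₄ W.c₆ a b := by
  intro hC
  have : Fact q.Prime := ⟨hq⟩
  have hqz := Nat.prime_iff_prime_int.mp hq
  have hne : ∀ {k : ℕ}, k.Prime → q ≠ k → (k : ZMod q) ≠ 0 := fun {k} hk hqk h0 => hqk
    ((Nat.prime_dvd_prime_iff_eq hq hk).mp ((ZMod.natCast_eq_zero_iff k q).mp h0))
  have h2' : (2 : ZMod q) ≠ 0 := by exact_mod_cast hne Nat.prime_two hq2
  have h3' : (3 : ZMod q) ≠ 0 := by exact_mod_cast hne Nat.prime_three hq3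
  have hD : (W.c₄ : ZMod q) ^ 3 - (W.c₆ : ZMod q) ^ 2 ≠ 0 := fun h0 => by
    have : ((1728 * W.Δ : ℤ) : ZMod q) = 0 := by
      rw [W.c_relation]; push_cast; exact h0
    push_cast at this
    rw [show (1728 : ZMod q) = 2 ^ 6 * 3 ^ 3 by norm_num, mul_eq_zero] at this
    rcases this with h | h
    · exact mul_ne_zero (pow_ne_zero _ h2') (pow_ne_zero _ h3') h
    · exact hqΔ ((ZMod.intCast_zmod_eq_zero_iff_dvd _ q).mp h)
  have hb : (b : ZMod q) ≠ 0 := fun hb => by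
    have hqb := (ZMod.intCast_zmod_eq_zero_iff_dvd b q).mp hb
    refine hqz.not_dvd_one (isUnit_iff_dvd_one.mp (hab.isUnit_of_dvd' ?_ hqb))
    refine hqz.dvd_of_dvd_pow (n := 4) ?_
    have e : a ^ 4 = hP W.c₄ W.c₆ a b + b * (6 * W.c₄ * a ^ 2 * b + 8 * W.c₆ * a * b ^ 2
        + 3 * W.c₄ ^ 2 * b ^ 3) := by simp only [hP]; ring
    rw [e]; exact dvd_add hP' (hqb.mul_right _)
  have hP0 := (ZMod.intCast_zmod_eq_zero_iff_dvd _ q).mpr hP'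
  have hC0 := (ZMod.intCast_zmod_eq_zero_iff_dvd _ q).mpr hC
  simp only [hP, hC4] at hP0 hC0
  push_cast at hP0 hC0
  -- `r = a / b` would be a common root of the two forms modulo `q`
  set r := (a : ZMod q) * (b : ZMod q)⁻¹
  have hrb : (a : ZMod q) = r * b := by
    show (a : ZMod q) = (a : ZMod q) * (b : ZMod q)⁻¹ * b
    rw [mul_assoc, inv_mul_cancel₀ hb, mul_one]
  rw [hrb] at hP0 hC0
  refine hC4_ne_zero_of_hP h2' h3' hD (r := r) ?_ ?_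
  · refine mul_left_cancel₀ (pow_ne_zero 4 hb) ?_
    simp only [hP]; linear_combination hP0
  · refine mul_left_cancel₀ (pow_ne_zero 4 hb) ?_
    simp only [hC4]; linear_combination hC0

/-- Outside the modulus: primitive and square free is good. -/
theorem goodAt_of_sqfree {q : ℕ} (hq : q.Prime) (hq2 : q ≠ 2) (hq3 : q ≠ 3)
    (hqΔ : ¬ (q : ℤ) ∣ W.Δ) {a b : ℤ}
    (hab : IsCoprime a b) (hsq : ¬ (q : ℤ) ^ 2 ∣ hP W.c₄ W.c₆ a b) : GoodAt W q a b :=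
  ⟨hsq, fun h => not_dvd_hC4 hq hq2 hq3 hqΔ hab (h.resolve_left hqΔ),
    fun h => absurd h hqΔ, fun h => absurd h hqΔ⟩

/-! ## The sign of the value and the model at `3` -/

/-- The signs of the quartic in two sectors: where `R * |a| < |b|` the term `-3 c ^ 2 * b ^ 4`
dominates, where `R * |b| < |a|` the term `a ^ 4`. -/
theorem hP_sign (c e a b : ℤ) (R : ℤ) (hR : R = 1 + 6 * |c| + 8 * |e| + 3 * c ^ 2) :
    (c ≠ 0 → R * |a| < |b| → hP c e a b < 0) ∧ (R * |b| < |a| → 0 < hP c e a b) := by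
  have hcterm : -(c * (a ^ 2 * b ^ 2)) ≤ |c| * (|a| ^ 2 * |b| ^ 2) ∧
      c * (a ^ 2 * b ^ 2) ≤ |c| * (|a| ^ 2 * |b| ^ 2) := by
    have := abs_le.mp (le_refl |c * (a ^ 2 * b ^ 2)|)
    rw [abs_mul, abs_mul, abs_pow, abs_pow] at this
    constructor <;> linarith [this.1, this.2]
  have heterm : -(e * (a * b ^ 3)) ≤ |e| * (|a| * |b| ^ 3) ∧ e * (a * b ^ 3) ≤
      |e| * (|a| * |b| ^ 3) := by
    have := abs_le.mp (le_refl |e * (a * b ^ 3)|)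
    rw [abs_mul, abs_mul, abs_pow] at this
    constructor <;> linarith [this.1, this.2]
  have ha4 : a ^ 4 = |a| ^ 4 := (Even.pow_abs (by decide) a).symm
  have hb4 : b ^ 4 = |b| ^ 4 := (Even.pow_abs (by decide) b).symm
  have hc0 := abs_nonneg c
  have he0 := abs_nonneg e
  have hA := abs_nonneg a
  have hB := abs_nonneg b
  set A := |a|
  set B := |b|
  have hR1 : 1 ≤ R := by rw [hR]; linarith [sq_nonneg c]
  constructor
  · intro hc h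
    have hAB : A ≤ B := le_trans (le_mul_of_one_le_left hA hR1) h.le
    have hB0 : 0 < B := lt_of_le_of_lt (by positivity) h
    -- the other monomials are at most `A * B ^ 3`, and `R * (A * B ^ 3) < B ^ 4 ≤ c ^ 2 * B ^ 4`
    have k1 : A ^ 4 ≤ A * B ^ 3 := by
      rw [show A ^ 4 = A * A ^ 3 by ring]; gcongr
    have k2 : A ^ 2 * B ^ 2 ≤ A * B ^ 3 := by
      rw [show A ^ 2 * B ^ 2 = A * (A * B ^ 2) by ring, show A * B ^ 3 = A * (B * B ^ 2) by ring]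
      gcongr
    have k3 : R * (A * B ^ 3) < B ^ 4 := by
      rw [show R * (A * B ^ 3) = R * A * B ^ 3 by ring, show B ^ 4 = B * B ^ 3 by ring]
      exact mul_lt_mul_of_pos_right h (by positivity)
    have hc1 : 1 ≤ c ^ 2 := by
      have : 0 < c ^ 2 := by positivity
      omega
    have k4 : B ^ 4 ≤ c ^ 2 * B ^ 4 := le_mul_of_one_le_left (by positivity) hc1
    have k5 : (1 + 6 * |c| + 8 * |e|) * (A * B ^ 3) ≤ R * (A * B ^ 3) :=
      mul_le_mul_of_nonneg_right (by rw [hR]; nlinarith [sq_nonneg c]) (by positivity)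
    have k6 : |c| * (A ^ 2 * B ^ 2) ≤ |c| * (A * B ^ 3) := mul_le_mul_of_nonneg_left k2 hc0
    have : hP c e a b = A ^ 4 - 6 * (c * (a ^ 2 * b ^ 2)) - 8 * (e * (a * b ^ 3))
        - 3 * (c ^ 2 * B ^ 4) := by
      simp only [hP]; rw [← ha4, ← hb4]; ring
    rw [this]
    have k9 : 0 < c ^ 2 * B ^ 4 := by positivity
    linarith [hcterm.1, heterm.1]
  · intro h
    have hBA : B ≤ A := le_trans (le_mul_of_one_le_left hB hR1) h.le
    have hA0 : 0 < A := lt_of_le_of_lt (by positivity) h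
    -- the other monomials are at most `A ^ 3 * B`, and `R * (A ^ 3 * B) < A ^ 4`
    have k1 : B ^ 4 ≤ A ^ 3 * B := by
      rw [show B ^ 4 = B ^ 3 * B by ring]; gcongr
    have k2 : A ^ 2 * B ^ 2 ≤ A ^ 3 * B := by
      rw [show A ^ 2 * B ^ 2 = A ^ 2 * B * B by ring, show A ^ 3 * B = A ^ 2 * B * A by ring]
      gcongr
    have k3 : A * B ^ 3 ≤ A ^ 3 * B := by
      rw [show A * B ^ 3 = A * B * B ^ 2 by ring, show A ^ 3 * B = A * B * A ^ 2 by ring]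
      gcongr
    have k4 : R * (A ^ 3 * B) < A ^ 4 := by
      rw [show R * (A ^ 3 * B) = A ^ 3 * (R * B) by ring, show A ^ 4 = A ^ 3 * A by ring]
      exact mul_lt_mul_of_pos_left h (by positivity)
    have k5 : (6 * |c| + 8 * |e| + 3 * c ^ 2) * (A ^ 3 * B) ≤ R * (A ^ 3 * B) :=
      mul_le_mul_of_nonneg_right (by rw [hR]; linarith) (by positivity)
    have k6 : |c| * (A ^ 2 * B ^ 2) ≤ |c| * (A ^ 3 * B) := mul_le_mul_of_nonneg_left k2 hc0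
    have k7 : |e| * (A * B ^ 3) ≤ |e| * (A ^ 3 * B) := mul_le_mul_of_nonneg_left k3 he0
    have k8 : c ^ 2 * B ^ 4 ≤ c ^ 2 * (A ^ 3 * B) := mul_le_mul_of_nonneg_left k1 (sq_nonneg c)
    have : hP c e a b = A ^ 4 - 6 * (c * (a ^ 2 * b ^ 2)) - 8 * (e * (a * b ^ 3))
        - 3 * (c ^ 2 * B ^ 4) := by
      simp only [hP]; rw [← ha4, ← hb4]; ring
    rw [this]
    linarith [hcterm.2, heterm.2]

/-- The congruence at `3` for a model of the member, which has `b₂ ≡ β`. If `3 ∣ c₁` then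
`c₁ ≡ c₄ / k ^ 4` and `e₁ ≡ c₆ / k ^ 6` modulo `81`, so `β = W.b₂ / k ^ 2`: for `k = 4` this is
`-5 W.b₂`, as `-5 ≡ 16⁻¹ (mod 81)`. Otherwise `β = -e₁ / c₁`. -/
theorem exists_model_at_three {a b k c₁ e₁ D : ℤ}
    (hk : k = 1 ∨ k = 4) (hC : hC4 W.c₄ W.c₆ a b = k ^ 4 * c₁)
    (hE : hC6 W.c₄ W.c₆ a b = k ^ 6 * e₁) (hD : c₁ ^ 3 - e₁ ^ 2 = 1728 * D)
    (hg : (3 : ℤ) ∣ W.Δ → ¬ (3 : ℤ) ∣ hC4 W.c₄ W.c₆ a b)
    (h81 : ¬ (3 : ℤ) ∣ W.Δ → (3 : ℤ) ^ 4 ∣ hC4 W.c₄ W.c₆ a b - W.c₄ ∧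
      (3 : ℤ) ^ 4 ∣ hC6 W.c₄ W.c₆ a b - W.c₆) :
    ∃ β : ℤ, 3 ∣ β ^ 2 - c₁ ∧ 27 ∣ β ^ 3 - 3 * β * c₁ - 2 * e₁ := by
  by_cases h3 : (3 : ℤ) ∣ c₁
  · have h3Δ : ¬ (3 : ℤ) ∣ W.Δ := fun h => hg h (hC ▸ h3.mul_left _)
    obtain ⟨⟨i, hi⟩, j, hj⟩ := h81 h3Δ
    rw [hC] at hi
    rw [hE] at hj
    have h4 : W.c₄ = W.b₂ ^ 2 - 24 * W.b₄ := rfl
    have h6 : W.c₆ = -W.b₂ ^ 3 + 36 * W.b₂ * W.b₄ - 216 * W.b₆ := rfl
    rcases hk with rfl | rfl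
    · exact ⟨W.b₂, ⟨8 * W.b₄ - 27 * i, by linear_combination -hi - h4⟩,
        ⟨16 * W.b₆ - 9 * W.b₂ * i - 6 * j, by
          linear_combination -3 * W.b₂ * hi - 2 * hj - 3 * W.b₂ * h4 - 2 * h6⟩⟩
    · exact ⟨-5 * W.b₂, ⟨200 * W.b₄ - 675 * i + 2133 * c₁, by
          linear_combination -25 * hi - 25 * h4⟩,
        ⟨-2000 * W.b₆ + 1125 * W.b₂ * i + 750 * j - 3555 * W.b₂ * c₁ - 37926 * e₁, by
          linear_combination 375 * W.b₂ * hi + 250 * hj + 375 * W.b₂ * h4 + 250 * h6⟩⟩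
  · obtain ⟨s, t, hst⟩ : IsCoprime c₁ (27 : ℤ) := by
      simpa using ((Int.prime_three.coprime_iff_not_dvd.mpr h3).symm).pow_right (n := 3)
    refine ⟨-(e₁ * s), ⟨-576 * D * s ^ 2 - 9 * c₁ * (c₁ * s + 1) * t, ?_⟩,
      ⟨64 * D * (e₁ * s ^ 3) + e₁ * (c₁ * s + 2) * (c₁ * s - 1) * t, ?_⟩⟩
    · linear_combination -s ^ 2 * hD + c₁ * (c₁ * s + 1) * hst
    · linear_combination e₁ * s ^ 3 * hD - e₁ * (c₁ * s + 2) * (c₁ * s - 1) * hst

/-! ## The parameters of the switch -/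

/-- The class at a prime: the requirements at every prime, divisibility at the prescribed split
primes and invariance at `3`. -/
private theorem exists_class (hΔ : W.Δ ≠ 0) (hW : W.IsSemistableModel) (h2 : (2 : ℤ) ∣ W.Δ)
    (hrel : W.c₄ ^ 3 - W.c₆ ^ 2 = 1728 * W.Δ) {q : ℕ} (hq : q.Prime) {L : Prop}
    (hL : L → q ≠ 2 ∧ q ≠ 3 ∧ ¬ (q : ℤ) ∣ W.Δ ∧ ∃ r : ℤ, (q : ℤ) ∣ hP W.c₄ W.c₆ r 1) :
    ∃ ta tb : ℤ, ∀ a b : ℤ, (q : ℤ) ^ (if q = 2 then 15 else 4) ∣ a - ta →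
      (q : ℤ) ^ (if q = 2 then 15 else 4) ∣ b - tb →
      ¬ ((q : ℤ) ∣ a ∧ (q : ℤ) ∣ b) ∧ (q = 2 → GoodAtTwo W a b) ∧ (q ≠ 2 → GoodAt W q a b) ∧
      (L → (q : ℤ) ∣ hP W.c₄ W.c₆ a b) ∧
      (q = 3 → ¬ (q : ℤ) ∣ W.Δ → (q : ℤ) ^ 4 ∣ hC4 W.c₄ W.c₆ a b - W.c₄ ∧
        (q : ℤ) ^ 4 ∣ hC6 W.c₄ W.c₆ a b - W.c₆ ∧ ¬ (q : ℤ) ∣ hP W.c₄ W.c₆ a b) := by
  by_cases hq2 : q = 2
  · subst hq2
    obtain ⟨ta, tb, h⟩ := exists_class_at_two hW h2 hrel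
    refine ⟨ta, tb, fun a b ha hb => ?_⟩
    simp only [if_true, Nat.cast_ofNat] at ha hb
    obtain ⟨g1, g2⟩ := h a b ha hb
    exact ⟨g1, fun _ => g2, fun h => absurd rfl h, fun h => absurd rfl (hL h).1,
      fun h => absurd h (by norm_num)⟩
  by_cases hl : L
  · obtain ⟨-, hq3, hqΔ, r, hr⟩ := hL hl
    obtain ⟨ta, tb, h⟩ := exists_class_at_split hq hq2 hq3 hqΔ hrel hr
    refine ⟨ta, tb, fun a b ha hb => ?_⟩
    simp only [if_neg hq2] at ha hb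
    obtain ⟨g1, g2, g3⟩ := h a b ha hb
    exact ⟨g1, fun h => absurd h hq2, fun _ => g2, fun _ => g3, fun h => absurd h hq3⟩
  obtain ⟨ta, tb, h⟩ := exists_class_at_odd hΔ hW hrel hq hq2
  refine ⟨ta, tb, fun a b ha hb => ?_⟩
  simp only [if_neg hq2] at ha hb
  obtain ⟨g1, g2, g3⟩ := h a b ha hb
  exact ⟨g1, fun h => absurd h hq2, fun _ => g2, fun h => absurd h hl, fun _ => g3⟩

/-- Far along the axis chosen by the sign of `Δ`, the value has the sign opposite to that of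
`Δ`. -/
private theorem mul_hP_neg {c e Δ : ℤ} (hc0 : c ≠ 0) (hΔ : Δ ≠ 0) {R m X : ℕ}
    (hR : R = 1 + 6 * c.natAbs + 8 * e.natAbs + 3 * c.natAbs ^ 2) (hmpos : 0 < m) {a₀ b₀ i j : ℤ}
    (hX : (R + 1) * (a₀.natAbs + b₀.natAbs) < X) {u v : ℕ}
    (hu : u = if 0 < Δ then 0 else R + 1) (hv : v = if 0 < Δ then R + 1 else 0)
    (hi : i ∈ Finset.Ico ((u * X : ℕ) : ℤ) ((u * X : ℕ) + X : ℤ))
    (hj : j ∈ Finset.Ico ((v * X : ℕ) : ℤ) ((v * X : ℕ) + X : ℤ)) :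
    Δ * hP c e (a₀ + m * i) (b₀ + m * j) < 0 := by
  have hR' : (R : ℤ) = 1 + 6 * |c| + 8 * |e| + 3 * c ^ 2 := by
    rw [hR]; push_cast [Int.natCast_natAbs, sq_abs]; rfl
  obtain ⟨hneg, hpos⟩ := hP_sign c e (a₀ + m * i) (b₀ + m * j) R hR'
  rw [Finset.mem_Ico] at hi hj
  push_cast at hi hj
  have hXz : ((R : ℤ) + 1) * (|a₀| + |b₀|) < X := by
    have : (((R + 1) * (a₀.natAbs + b₀.natAbs) : ℕ) : ℤ) < X := by exact_mod_cast hX
    push_cast [Int.natCast_natAbs] at this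
    exact this
  have hm1 : (1 : ℤ) ≤ m := by exact_mod_cast hmpos
  have hX0 : (0 : ℤ) ≤ X := Int.natCast_nonneg X
  have hmX : (X : ℤ) ≤ m * X := le_mul_of_one_le_left hX0 hm1
  -- in the box one coordinate exceeds `R` times the other
  have key : ∀ x₀ y₀ i j : ℤ, ((R : ℤ) + 1) * (|x₀| + |y₀|) < X → 0 ≤ i → i < X →
      ((R : ℤ) + 1) * X ≤ j → (R : ℤ) * |x₀ + m * i| < |y₀ + m * j| :=
      fun x₀ y₀ i j h hi0 hi1 hj0 => by
    have h1 : |x₀ + m * i| ≤ |x₀| + m * X := by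
      refine (abs_add_le _ _).trans ?_
      rw [abs_mul, abs_of_nonneg (by linarith : (0 : ℤ) ≤ m), abs_of_nonneg hi0]
      have : (m : ℤ) * i ≤ m * X := mul_le_mul_of_nonneg_left hi1.le (by linarith)
      linarith
    have h2 : (m : ℤ) * (((R : ℤ) + 1) * X) ≤ m * j := mul_le_mul_of_nonneg_left hj0 (by linarith)
    have h3 := le_abs_self (y₀ + m * j)
    have h4 := neg_abs_le y₀
    have h5 : (R : ℤ) * |x₀ + m * i| ≤ R * (|x₀| + m * X) :=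
      mul_le_mul_of_nonneg_left h1 (Int.natCast_nonneg R)
    have h6 : (0 : ℤ) ≤ (R : ℤ) * |y₀| := by positivity
    have h7 : (0 : ℤ) ≤ |x₀| := abs_nonneg _
    linarith
  by_cases hs : 0 < Δ
  · refine mul_neg_of_pos_of_neg hs (hneg hc0 (key a₀ b₀ i j hXz ?_ ?_ ?_))
    all_goals (simp only [hu, hv, if_pos hs] at hi hj; push_cast at hi hj; linarith)
  · refine mul_neg_of_neg_of_pos (lt_of_le_of_ne (not_lt.mp hs) hΔ)
      (hpos (key b₀ a₀ j i (by rw [add_comm |b₀|]; exact hXz) ?_ ?_ ?_))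
    all_goals (simp only [hu, hv, if_neg hs] at hi hj; push_cast at hi hj; linarith)

/-- The discriminant of the scaled model is even, of odd valuation at `2`. -/
private theorem exists_scaled_discr (hΔ : W.Δ ≠ 0) (h2 : (2 : ℤ) ∣ W.Δ) {k w P : ℤ} (hw : Odd w)
    (hcase : (Odd (padicValInt 2 W.Δ) ∧ k = 1 ∧ P = w) ∨
      (Even (padicValInt 2 W.Δ) ∧ k = 4 ∧ P = 512 * w)) :
    ∃ D : ℤ, k ^ 12 * D = W.Δ * P ^ 3 ∧ (2 : ℤ) ∣ D ∧ Odd (padicValInt 2 D) := by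
  have hw0 : w ≠ 0 := fun h => by rw [h] at hw; exact absurd hw (by decide)
  have hvw : padicValInt 2 w = 0 := padicValInt.eq_zero_of_not_dvd fun h => by
    obtain ⟨r, hr⟩ := hw; omega
  have hp2 : Fact (Nat.Prime 2) := ⟨Nat.prime_two⟩
  rcases hcase with ⟨hvodd, rfl, hPw⟩ | ⟨hveven, rfl, hPw⟩
  · refine ⟨W.Δ * P ^ 3, by ring, h2.mul_right _, ?_⟩
    rw [hPw, padicValInt_mul_cube hΔ hw0, hvw]
    simpa using hvodd
  · refine ⟨8 * W.Δ * w ^ 3, by rw [hPw]; ring,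
      ((Dvd.intro 4 (by norm_num : (2 : ℤ) * 4 = 8)).mul_right _).mul_right _, ?_⟩
    rw [padicValInt_mul_cube (mul_ne_zero (by norm_num) hΔ) hw0, hvw,
      padicValInt.mul (by norm_num) hΔ,
      show padicValInt 2 8 = 3 by
        rw [show (8 : ℤ) = ((2 ^ 3 : ℕ) : ℤ) by norm_num, padicValInt.of_nat,
          padicValNat.prime_pow]]
    obtain ⟨r, hr⟩ := hveven
    exact ⟨r + 1, by omega⟩

/-- Divisibility and valuation of the scaled discriminant at an odd prime. -/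
private theorem scaled_discr_at_odd (hΔ : W.Δ ≠ 0) {k D P : ℤ} (hk : k = 1 ∨ k = 4) (hP0 : P ≠ 0)
    (hkD : k ^ 12 * D = W.Δ * P ^ 3) {q : ℕ} (hq : q.Prime) (hq2 : q ≠ 2) :
    ((q : ℤ) ∣ D ↔ (q : ℤ) ∣ W.Δ ∨ (q : ℤ) ∣ P) ∧
      padicValInt q D = padicValInt q W.Δ + 3 * padicValInt q P := by
  have hk12 : 0 < k ^ 12 := by rcases hk with rfl | rfl <;> norm_num
  have : Fact q.Prime := ⟨hq⟩
  have hqz := Nat.prime_iff_prime_int.mp hq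
  have hqk : ¬ (q : ℤ) ∣ k := fun h => by
    rcases hk with rfl | rfl
    · exact hqz.not_dvd_one h
    · exact hq2 ((Nat.prime_dvd_prime_iff_eq hq Nat.prime_two).mp
        (hq.dvd_of_dvd_pow (show q ∣ 2 ^ 2 by exact_mod_cast h)))
  have hk0 : k ^ 12 ≠ 0 := hk12.ne'
  have hD0 : D ≠ 0 := fun h => by
    rw [h, mul_zero] at hkD
    exact mul_ne_zero hΔ (pow_ne_zero 3 hP0) hkD.symm
  refine ⟨⟨fun h => ?_, fun h => ?_⟩, ?_⟩
  · have h' : (q : ℤ) ∣ W.Δ * P ^ 3 := hkD ▸ h.mul_left _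
    exact (hqz.dvd_mul.mp h').imp id fun h => hqz.dvd_of_dvd_pow h
  · have h' : (q : ℤ) ∣ k ^ 12 * D := by
      rw [hkD]
      rcases h with h | h
      · exact h.mul_right _
      · exact (dvd_pow h three_ne_zero).mul_left _
    exact (hqz.dvd_mul.mp h').resolve_left fun h => hqk (hqz.dvd_of_dvd_pow h)
  · have h' := congrArg (padicValInt q) hkD
    rwa [padicValInt.mul hk0 hD0, padicValInt_mul_cube hΔ hP0,
      padicValInt.eq_zero_of_not_dvd fun h => hqk (hqz.dvd_of_dvd_pow h), zero_add] at h'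

/-- A prime dividing `1728 Δ` is at most `16` or divides `Δ`. -/
private theorem le_sixteen_or_dvd_of_dvd_1728_mul {q : ℕ} {Δ : ℤ} (hq : q.Prime)
    (h : (q : ℤ) ∣ 1728 * Δ) : q ≤ 16 ∨ (q : ℤ) ∣ Δ := by
  refine ((Nat.prime_iff_prime_int.mp hq).dvd_mul.mp h).imp_left fun h' => ?_
  have h'' : q ∣ 2 ^ 6 * 3 ^ 3 := by exact_mod_cast h'
  rcases hq.dvd_mul.mp h'' with h3 | h3 <;>
    · have := Nat.le_of_dvd (by norm_num) (hq.dvd_of_dvd_pow h3)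
      omega

/-- The parameters of the switch: two primes `1` modulo `12` dividing the value of `hP` at a point
`(a, b)` which is good at every prime and where the value has sign opposite to that of `Δ`. -/
private theorem exists_parameters (hΔ : W.Δ ≠ 0) (hW : W.IsSemistableModel) (h2 : (2 : ℤ) ∣ W.Δ)
    (hrel : W.c₄ ^ 3 - W.c₆ ^ 2 = 1728 * W.Δ) (hc0 : W.c₄ ≠ 0) :
    ∃ (l₁ l₂ : ℕ) (a b : ℤ), l₁.Prime ∧ l₂.Prime ∧ l₁ ≠ l₂ ∧ l₁ % 12 = 1 ∧ l₂ % 12 = 1 ∧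
      (l₁ : ℤ) ∣ hP W.c₄ W.c₆ a b ∧ (l₂ : ℤ) ∣ hP W.c₄ W.c₆ a b ∧
      W.Δ * hP W.c₄ W.c₆ a b < 0 ∧ GoodAtTwo W a b ∧
      (∀ q : ℕ, q.Prime → q ≠ 2 → GoodAt W q a b) ∧
      (¬ (3 : ℤ) ∣ W.Δ → (3 : ℤ) ^ 4 ∣ hC4 W.c₄ W.c₆ a b - W.c₄ ∧
        (3 : ℤ) ^ 4 ∣ hC6 W.c₄ W.c₆ a b - W.c₆ ∧ ¬ (3 : ℤ) ∣ hP W.c₄ W.c₆ a b) := by
  classical
  -- `S₀`: the primes up to `16` and the bad primes; `l₁`, `l₂`: split primes outside it
  set S₀ : Finset ℕ := (Finset.range 17).filter Nat.Prime ∪ W.Δ.natAbs.primeFactors with hS₀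
  obtain ⟨l₁, hl₁, hl₁S, hl₁12, r₁, hr₁⟩ := exists_split_prime W.c₄ W.c₆ S₀
  obtain ⟨l₂, hl₂, hl₂S, hl₂12, r₂, hr₂⟩ := exists_split_prime W.c₄ W.c₆ (insert l₁ S₀)
  simp only [Finset.mem_insert, not_or] at hl₂S
  have hS₀mem : ∀ {q : ℕ}, q.Prime → q ≤ 16 ∨ (q : ℤ) ∣ W.Δ → q ∈ S₀ := fun {q} hq h => by
    rcases h with h | h
    · exact Finset.mem_union_left _ (Finset.mem_filter.mpr ⟨Finset.mem_range.mpr (by omega), hq⟩)
    · exact Finset.mem_union_right _ (Nat.mem_primeFactors.mpr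
        ⟨hq, Int.natCast_dvd.mp h, Int.natAbs_ne_zero.mpr hΔ⟩)
  set S : Finset ℕ := S₀ ∪ {l₁, l₂} with hS
  have hSp : ∀ q ∈ S, q.Prime := fun q hq => by
    simp only [hS, hS₀, Finset.mem_union, Finset.mem_filter, Finset.mem_insert,
      Finset.mem_singleton] at hq
    rcases hq with (h | h) | rfl | rfl
    exacts [h.2, Nat.prime_of_mem_primeFactors h, hl₁, hl₂]
  -- the parameters are prescribed modulo `q ^ n q` for `q ∈ S`
  set n : ℕ → ℕ := fun q => if q = 2 then 15 else 4 with hn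
  have hspl : ∀ q, q.Prime → q ∉ S₀ → q ≠ 2 ∧ q ≠ 3 ∧ ¬ (q : ℤ) ∣ W.Δ := fun q hq hqS =>
    ⟨fun h => hqS (hS₀mem hq (Or.inl (by omega))), fun h => hqS (hS₀mem hq (Or.inl (by omega))),
      fun h => hqS (hS₀mem hq (Or.inr h))⟩
  -- the classes
  have hclass : ∀ q ∈ S, ∃ ta tb : ℤ, ∀ a b : ℤ, (q : ℤ) ^ n q ∣ a - ta → (q : ℤ) ^ n q ∣ b - tb →
      ¬ ((q : ℤ) ∣ a ∧ (q : ℤ) ∣ b) ∧ (q = 2 → GoodAtTwo W a b) ∧ (q ≠ 2 → GoodAt W q a b) ∧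
      ((q = l₁ ∨ q = l₂) → (q : ℤ) ∣ hP W.c₄ W.c₆ a b) ∧
      (q = 3 → ¬ (q : ℤ) ∣ W.Δ → (q : ℤ) ^ 4 ∣ hC4 W.c₄ W.c₆ a b - W.c₄ ∧
        (q : ℤ) ^ 4 ∣ hC6 W.c₄ W.c₆ a b - W.c₆ ∧ ¬ (q : ℤ) ∣ hP W.c₄ W.c₆ a b) := by
    intro q hqS
    refine exists_class hΔ hW h2 hrel (hSp q hqS) fun hql => ?_
    rcases hql with rfl | rfl
    exacts [⟨(hspl q hl₁ hl₁S).1, (hspl q hl₁ hl₁S).2.1, (hspl q hl₁ hl₁S).2.2, r₁, hr₁⟩,
      ⟨(hspl q hl₂ hl₂S.2).1, (hspl q hl₂ hl₂S.2).2.1, (hspl q hl₂ hl₂S.2).2.2, r₂, hr₂⟩]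
  choose! ta tb hcl using hclass
  -- one class modulo `m` for all of them
  obtain ⟨a₀, ha₀⟩ := exists_crt n ta S hSp
  obtain ⟨b₀, hb₀⟩ := exists_crt n tb S hSp
  set m : ℕ := ∏ q ∈ S, q ^ n q
  have hmpos : 0 < m := Finset.prod_pos fun q hq => pow_pos (hSp q hq).pos _
  have hdiv : ∀ q ∈ S, (q : ℤ) ^ n q ∣ (m : ℤ) := fun q hq => by
    exact_mod_cast Finset.dvd_prod_of_mem (fun q => q ^ n q) hq
  have hn0 : ∀ q, n q ≠ 0 := fun q => by simp only [hn]; split_ifs <;> norm_num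
  have hmem : ∀ q : ℕ, q.Prime → q ∣ m → q ∈ S := fun q hq h => by
    obtain ⟨r, hr, hqr⟩ := (hq.prime.dvd_finsetProd_iff _).mp h
    rwa [(Nat.prime_dvd_prime_iff_eq hq (hSp r hr)).mp (hq.dvd_of_dvd_pow hqr)]
  have hl₁mem : l₁ ∈ S := Finset.mem_union_right _ (Finset.mem_insert_self _ _)
  have hl₂mem : l₂ ∈ S :=
    Finset.mem_union_right _ (Finset.mem_insert_of_mem (Finset.mem_singleton_self _))
  have hl₁2 : l₁ ≠ 2 := (hspl l₁ hl₁ hl₁S).1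
  have hS₀m : ∀ q ∈ S₀, q ∣ m := fun q hq => (dvd_pow_self q (hn0 q)).trans
    (Finset.dvd_prod_of_mem (fun q => q ^ n q) (Finset.mem_union_left _ hq))
  -- `m` absorbs the primes up to `16` and those of `c₄³ - c₆² = 1728 Δ`
  have hmD : ∀ q : ℕ, q.Prime → (q : ℤ) ∣ W.c₄ ^ 3 - W.c₆ ^ 2 → q ∣ m := fun q hq h => by
    rw [hrel] at h
    exact hS₀m q (hS₀mem hq (le_sixteen_or_dvd_of_dvd_1728_mul hq h))
  have hcop₀ : ∀ q : ℕ, q.Prime → q ∣ m → ¬ ((q : ℤ) ∣ a₀ ∧ (q : ℤ) ∣ b₀) := fun q hq h =>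
    (hcl q (hmem q hq h) a₀ b₀ (ha₀ q (hmem q hq h)) (hb₀ q (hmem q hq h))).1
  -- `m` does not divide the value at `(a₀, b₀)`, which `l₁` divides exactly once
  have hne₀ : ¬ (m : ℤ) ∣ hP W.c₄ W.c₆ a₀ b₀ := fun h =>
    ((hcl l₁ hl₁mem a₀ b₀ (ha₀ _ hl₁mem) (hb₀ _ hl₁mem)).2.2.1 hl₁2).1
      ((dvd_trans (pow_dvd_pow _ (by simp only [hn, if_neg hl₁2]; norm_num))
        (hdiv l₁ hl₁mem)).trans h)
  -- the box is far out on the axis where the sign of `hP` is opposite to that of `Δ`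
  set R : ℕ := 1 + 6 * W.c₄.natAbs + 8 * W.c₆.natAbs + 3 * W.c₄.natAbs ^ 2 with hR
  set u : ℕ := if 0 < W.Δ then 0 else R + 1 with hu
  set v : ℕ := if 0 < W.Δ then R + 1 else 0 with hv
  have hev := eventually_exists_squarefree W.c₄ W.c₆ m hmpos
    (fun q hq h => hS₀m q (hS₀mem hq (Or.inl h))) hmD a₀ b₀ hcop₀ hne₀ u v
  obtain ⟨X, hX, i, hi, j, hj, hcop, hsqf⟩ := ((eventually_gt_atTop
    ((R + 1) * (a₀.natAbs + b₀.natAbs))).and hev).exists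
  set a := a₀ + (m : ℤ) * i with hadef
  set b := b₀ + (m : ℤ) * j with hbdef
  -- `(a, b)` lies in all the classes
  have hcl' : ∀ q ∈ S, _ := fun q hq => hcl q hq a b
    (by rw [hadef, add_sub_right_comm]; exact dvd_add (ha₀ q hq) ((hdiv q hq).mul_right i))
    (by rw [hbdef, add_sub_right_comm]; exact dvd_add (hb₀ q hq) ((hdiv q hq).mul_right j))
  have hgood : ∀ q : ℕ, q.Prime → q ≠ 2 → GoodAt W q a b := fun q hq hq2 => by
    by_cases hqS : q ∈ S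
    · exact (hcl' q hqS).2.2.1 hq2
    · obtain ⟨-, hq3, hqΔ⟩ := hspl q hq fun h => hqS (Finset.mem_union_left _ h)
      exact goodAt_of_sqfree hq hq2 hq3 hqΔ hcop (hsqf q hq fun h => hqS (hmem q hq h))
  -- the sign
  have hPsign : W.Δ * hP W.c₄ W.c₆ a b < 0 := mul_hP_neg hc0 hΔ hR hmpos hX hu hv hi hj
  have h2mem : 2 ∈ S := Finset.mem_union_left _ (hS₀mem Nat.prime_two (Or.inl (by norm_num)))
  have h3mem : 3 ∈ S := Finset.mem_union_left _ (hS₀mem Nat.prime_three (Or.inl (by norm_num)))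
  exact ⟨l₁, l₂, a, b, hl₁, hl₂, Ne.symm hl₂S.1, hl₁12, hl₂12,
    (hcl' l₁ hl₁mem).2.2.2.1 (Or.inl rfl), (hcl' l₂ hl₂mem).2.2.2.1 (Or.inr rfl), hPsign,
    (hcl' 2 h2mem).2.1 rfl, hgood, (hcl' 3 h3mem).2.2.2.2 rfl⟩

/-! ## The switch -/

/-- Off `2`, the discriminant of the scaled member has odd valuation at its prime divisors. -/
private theorem odd_padicValInt_scaled {a b D : ℤ} {q : ℕ} (hq : q.Prime) (hg : GoodAt W q a b)
    (hiff : (q : ℤ) ∣ D ↔ (q : ℤ) ∣ W.Δ ∨ (q : ℤ) ∣ hP W.c₄ W.c₆ a b)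
    (hv : padicValInt q D = padicValInt q W.Δ + 3 * padicValInt q (hP W.c₄ W.c₆ a b))
    (hqD : (q : ℤ) ∣ D) : Odd (padicValInt q D) := by
  set P := hP W.c₄ W.c₆ a b
  have : Fact q.Prime := ⟨hq⟩
  obtain ⟨hsq, -, hΔiff, -⟩ := hg
  rw [hv]
  by_cases hqP : (q : ℤ) ∣ P
  · rw [padicValInt_eq_one hqP hsq]
    by_cases hqΔ : (q : ℤ) ∣ W.Δ
    · exact ((hΔiff hqΔ).mp hqP).add_odd (by decide)
    · rw [padicValInt.eq_zero_of_not_dvd hqΔ]; decide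
  · have hqΔ := (hiff.mp hqD).resolve_right hqP
    rw [padicValInt.eq_zero_of_not_dvd hqP, mul_zero, add_zero]
    exact Nat.not_even_iff_odd.mp fun h => hqP ((hΔiff hqΔ).mpr h)

/-- At an odd bad prime of `W` the reduced invariants of the scaled member are scaled, so the
reduction type is the same. -/
private theorem apOfModel_eq_of_scaled {W' : WeierstrassCurve ℤ} {a b k : ℤ} {q : ℕ} (hq : q.Prime)
    (hq2 : q ≠ 2) (hk : k = 1 ∨ k = 4) (hg : GoodAt W q a b)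
    (hC : hC4 W.c₄ W.c₆ a b = k ^ 4 * W'.c₄) (hE : hC6 W.c₄ W.c₆ a b = k ^ 6 * W'.c₆)
    (hqΔ : (q : ℤ) ∣ W.Δ) (hqD : (q : ℤ) ∣ W'.Δ) (hWq : ¬ (q : ℤ) ∣ W.c₄)
    (hWq' : ¬ (q : ℤ) ∣ W'.c₄) : W'.apOfModel q = W.apOfModel q := by
  have : Fact q.Prime := ⟨hq⟩
  obtain ⟨w, hw0, h4, h6⟩ := hg.2.2.2 hqΔ
  rw [hC] at h4
  rw [hE] at h6
  push_cast at h4 h6
  have hk0 : (k : ZMod q) ≠ 0 := by
    intro h
    have h' := (ZMod.intCast_zmod_eq_zero_iff_dvd k q).mp h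
    rcases hk with rfl | rfl
    · exact (Nat.prime_iff_prime_int.mp hq).not_dvd_one h'
    · exact hq2 ((Nat.prime_dvd_prime_iff_eq hq Nat.prime_two).mp
        (hq.dvd_of_dvd_pow (show q ∣ 2 ^ 2 by exact_mod_cast h')))
  refine apOfModel_eq_of_scale hq2 hqΔ hqD hWq hWq'
    (w := w / (k : ZMod q)) (div_ne_zero hw0 hk0) ?_ ?_
  · rw [div_pow, div_mul_eq_mul_div, eq_div_iff (pow_ne_zero _ hk0), ← h4]; ring
  · rw [div_pow, div_mul_eq_mul_div, eq_div_iff (pow_ne_zero _ hk0), ← h6]; ring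

/-- **The switch at `3`** of a curve `W` multiplicative at `2`: a semistable `W'` with the same
3-torsion, negative discriminant, bad at `2` and at two primes `1` modulo `12`, with odd valuation
at every bad prime and no point of order two. It is good at `3` if `W` is, is bad where `W` is
with the same `a_ℓ` there, and has congruent traces and irreducibility modulo `3`. -/
theorem exists_switch (W : WeierstrassCurve ℤ) (hΔ : W.Δ ≠ 0) (hW : W.IsSemistableModel)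
    (h2 : (2 : ℤ) ∣ W.Δ) :
    ∃ W' : WeierstrassCurve ℤ, W'.Δ < 0 ∧ W'.IsSemistableModel ∧ (2 : ℤ) ∣ W'.Δ ∧
      (∀ ℓ : ℕ, ℓ.Prime → (ℓ : ℤ) ∣ W'.Δ → Odd (padicValInt ℓ W'.Δ)) ∧
      (∃ ℓ₁ ℓ₂ : ℕ, ℓ₁.Prime ∧ ℓ₂.Prime ∧ ℓ₁ ≠ ℓ₂ ∧ ℓ₁ % 12 = 1 ∧ ℓ₂ % 12 = 1 ∧
        (ℓ₁ : ℤ) ∣ W'.Δ ∧ (ℓ₂ : ℤ) ∣ W'.Δ) ∧
      (∀ x : ℚ, 4 * x ^ 3 + (W'.b₂ : ℚ) * x ^ 2 + 2 * (W'.b₄ : ℚ) * x + (W'.b₆ : ℚ) ≠ 0) ∧
      (∀ ℓ : ℕ, ℓ.Prime → W.IsGoodPrimeFor ℓ → W'.IsGoodPrimeFor ℓ → ℓ ≠ 3 →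
        (3 : ℤ) ∣ W'.apOfModel ℓ - W.apOfModel ℓ) ∧
      (W.ModRepIsIrreducible 3 → W'.ModRepIsIrreducible 3) ∧
      ((3 : ℤ) ∣ W'.Δ → (3 : ℤ) ∣ W.Δ) ∧
      (∀ ℓ : ℕ, ℓ.Prime → (ℓ : ℤ) ∣ W.Δ → (ℓ : ℤ) ∣ W'.Δ ∧ W'.apOfModel ℓ = W.apOfModel ℓ) ∧
      Nonempty (TorsionEquiv W W') := by
  classical
  have hrel : W.c₄ ^ 3 - W.c₆ ^ 2 = 1728 * W.Δ := W.c_relation.symm
  obtain ⟨hcodd, -⟩ := c₆_mod_four hW h2
  have hc0 : W.c₄ ≠ 0 := fun h => by rw [h] at hcodd; exact absurd hcodd (by decide)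
  obtain ⟨l₁, l₂, a, b, hl₁, hl₂, hne, hl₁12, hl₂12, hd₁, hd₂, hPsign, htwo, hgood, h3cl⟩ :=
    exists_parameters hΔ hW h2 hrel hc0
  set P := hP W.c₄ W.c₆ a b with hPdef
  have hP0 : P ≠ 0 := fun h => by rw [h, mul_zero] at hPsign; exact lt_irrefl _ hPsign
  -- the member scaled by `k`: invariants `c₁`, `e₁`, discriminant `D = Δ P³ / k¹²`
  obtain ⟨k, w, c₁, e₁, hw, hc₁, he₁, he8, hC, hE, hcase⟩ := htwo
  obtain ⟨D, hkD, hD2, hDodd⟩ := exists_scaled_discr hΔ h2 hw hcase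
  have hk : k = 1 ∨ k = 4 := hcase.imp (fun h => h.2.1) fun h => h.2.1
  have hk12 : 0 < k ^ 12 := by rcases hk with rfl | rfl <;> norm_num
  have hrel' : c₁ ^ 3 - e₁ ^ 2 = 1728 * D := by
    refine mul_left_cancel₀ hk12.ne' ?_
    have := hC4_cube_sub_hC6_sq W.c₄ W.c₆ a b
    rw [hC, hE, hrel, ← hPdef] at this
    linear_combination this - 1728 * hkD
  have hval : ∀ q : ℕ, q.Prime → q ≠ 2 →
      ((q : ℤ) ∣ D ↔ (q : ℤ) ∣ W.Δ ∨ (q : ℤ) ∣ P) ∧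
        padicValInt q D = padicValInt q W.Δ + 3 * padicValInt q P := fun q hq hq2 =>
    scaled_discr_at_odd hΔ hk hP0 hkD hq hq2
  have h3gcd := hgood 3 Nat.prime_three (by norm_num)
  obtain ⟨W', hW'c, hW'e⟩ := exists_model c₁ e₁ hc₁ he₁ ⟨D, hrel'⟩
    (exists_model_at_three hk hC hE hrel' (fun h => h3gcd.2.1 (Or.inl h))
      fun h => ⟨(h3cl h).1, (h3cl h).2.1⟩)
  have hW'Δ : W'.Δ = D := by
    have := W'.c_relation
    rw [hW'c, hW'e, hrel'] at this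
    exact mul_left_cancel₀ (by norm_num) this
  -- negative, semistable, odd valuations
  have hDneg : D < 0 := by
    have h1 : k ^ 12 * D < 0 := by
      rw [hkD, show W.Δ * P ^ 3 = W.Δ * P * P ^ 2 by ring]
      exact mul_neg_of_neg_of_pos hPsign (by positivity)
    exact neg_of_mul_neg_right h1 hk12.le
  have hss : W'.IsSemistableModel := fun q hq hqD hqc => by
    rw [hW'Δ] at hqD
    rw [hW'c] at hqc
    by_cases hq2 : q = 2
    · subst hq2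
      obtain ⟨r, hr⟩ := hc₁
      omega
    · exact (hgood q hq hq2).2.1 ((hval q hq hq2).1.mp hqD) (hC ▸ hqc.mul_left _)
  have hoddv : ∀ q : ℕ, q.Prime → (q : ℤ) ∣ W'.Δ → Odd (padicValInt q W'.Δ) := fun q hq hqD => by
    rw [hW'Δ] at hqD ⊢
    by_cases hq2 : q = 2
    · exact hq2 ▸ hDodd
    exact odd_padicValInt_scaled hq (hgood q hq hq2) (hval q hq hq2).1 (hval q hq hq2).2 hqD
  have hl : ∀ l : ℕ, l.Prime → l % 12 = 1 → (l : ℤ) ∣ P → (l : ℤ) ∣ W'.Δ := fun l hlp hl12 h => by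
    rw [hW'Δ, (hval l hlp (by omega)).1]
    exact Or.inr h
  -- `W'` is a member of the pencil of `W`, so has the same `3`-torsion
  let member : IntMember W W' :=
    { a := a, m := b, k := k
      hk := by rcases hk with rfl | rfl <;> norm_num
      hc := by rw [hW'c]; exact hC
      he := by rw [hW'e]; exact hE
      hP0 := hP0
      hΔ := hΔ
      hΔ' := by rw [hW'Δ]; exact hDneg.ne }
  have h2' : (2 : ℤ) ∣ W'.Δ := hW'Δ.symm ▸ hD2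
  have hneg' : W'.Δ < 0 := hW'Δ.symm ▸ hDneg
  -- at a bad prime of `W` the reduced invariants are scaled, so the reduction type is the same
  have hsplit : ∀ q : ℕ, q.Prime → (q : ℤ) ∣ W.Δ →
      (q : ℤ) ∣ W'.Δ ∧ W'.apOfModel q = W.apOfModel q := fun q hq hqΔ => by
    have : Fact q.Prime := ⟨hq⟩
    by_cases hq2 : q = 2
    · subst hq2
      exact ⟨h2', apOfModel_two_eq h2 h2' (hW 2 Nat.prime_two h2) (hss 2 Nat.prime_two h2')
        (hW'e ▸ he8)⟩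
    have hqD : (q : ℤ) ∣ W'.Δ := hW'Δ.symm ▸ (hval q hq hq2).1.mpr (Or.inl hqΔ)
    exact ⟨hqD, apOfModel_eq_of_scaled hq hq2 hk (hgood q hq hq2) (hW'c.symm ▸ hC) (hW'e.symm ▸ hE)
      hqΔ hqD (hW q hq hqΔ) (hss q hq hqD)⟩
  refine ⟨W', hneg', hss, h2', hoddv, ⟨l₁, l₂, hl₁, hl₂, hne, hl₁12, hl₂12,
      hl l₁ hl₁ hl₁12 hd₁, hl l₂ hl₂ hl₂12 hd₂⟩,
    fun x => two_division_ne_zero W' hneg' hss hoddv h2' x,
    fun ℓ hℓ hg hg' h3 => member.torsionEquiv.dvd_apOfModel_sub hℓ hg hg' h3,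
    member.torsionEquiv.modRepIsIrreducible, fun h => ?_, hsplit, ⟨member.torsionEquiv⟩⟩
  by_contra h3
  rw [hW'Δ] at h
  exact (h3cl h3).2.2 (((hval 3 Nat.prime_three (by norm_num)).1.mp h).resolve_left h3)

end Fermat.Agent.LT.Switch
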