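import Fermat.Agent.LT.Switch.Torsion
import Fermat.Agent.EC.FrobTrace.Main
import Fermat.Agent.EC.Torsion.Galois
import Fermat.Agent.Arith.Frobenius
import Fermat.Prelude.Def_FLTPrelim_ModularRep

/-!
# Galois equivariance of the pencil on `3`-torsion

An integral member of the pencil has the same `3`-torsion: the isomorphism is additive and commutes
with Galois, hence irreducibility and the traces of Frobenius modulo `3` are preserved.
-/

set_option autoImplicit false

noncomputable section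

namespace Fermat.Agent.LT.Switch

open WeierstrassCurve WeierstrassCurve.Affine

local notation "Qb" => AlgebraicClosure ℚ

/-- The curve over `ℚ̄`. -/
abbrev qbCurve (W : WeierstrassCurve ℤ) : WeierstrassCurve Qb :=
  (W.map (Int.castRingHom ℚ))⁄Qb

theorem qbCurve_eq (W : WeierstrassCurve ℤ) : qbCurve W = W.map (Int.castRingHom Qb) := by
  ext <;> simp [qbCurve]

/-- The `3`-torsion of the curve over `ℚ̄`. -/
abbrev threeTors (W : WeierstrassCurve ℤ) :=
  Submodule.torsionBy ℤ ((W.map (Int.castRingHom ℚ))⁄Qb).Point (3 : ℕ)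

/-- An isomorphism of the `3`-torsion commuting with Galois. -/
structure TorsionEquiv (W W' : WeierstrassCurve ℤ) where
  toEquiv : threeTors W ≃+ threeTors W'
  smul_eq : ∀ (σ : Qb ≃ₐ[ℚ] Qb) (x : threeTors W), toEquiv (σ • x) = σ • toEquiv x

theorem threeTors_nsmul {W : WeierstrassCurve ℤ} (x : threeTors W) : (3 : ℕ) • x.1 = 0 := by
  have := (Submodule.mem_torsionBy_iff _ _).mp x.2
  rwa [natCast_zsmul] at this

/-- An integral member of the pencil of `W`, up to the scale `k`. -/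
structure IntMember (W W' : WeierstrassCurve ℤ) where
  a : ℤ
  m : ℤ
  k : ℤ
  hk : k ≠ 0
  hc : hC4 W.c₄ W.c₆ a m = k ^ 4 * W'.c₄
  he : hC6 W.c₄ W.c₆ a m = k ^ 6 * W'.c₆
  hP0 : hP W.c₄ W.c₆ a m ≠ 0
  hΔ : W.Δ ≠ 0
  hΔ' : W'.Δ ≠ 0

namespace IntMember

variable {W W' : WeierstrassCurve ℤ} (D : IntMember W W')

/-- The member over `ℚ̄`. -/
def toMember : Member (qbCurve W) (qbCurve W') where
  a := (D.a : Qb)
  m := (D.m : Qb)
  k := (D.k : Qb)
  hk := Int.cast_ne_zero.mpr D.hk
  hc := by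
    have h := congrArg (Int.cast : ℤ → Qb) D.hc
    simp only [← Int.coe_castRingHom, map_hC4, map_mul, map_pow] at h
    simpa [qbCurve_eq] using h
  he := by
    have h := congrArg (Int.cast : ℤ → Qb) D.he
    simp only [← Int.coe_castRingHom, map_hC6, map_mul, map_pow] at h
    simpa [qbCurve_eq] using h
  hP0 := by
    have h : ((hP W.c₄ W.c₆ D.a D.m : ℤ) : Qb) ≠ 0 := Int.cast_ne_zero.mpr D.hP0
    simp only [← Int.coe_castRingHom, map_hP] at h
    simpa [qbCurve_eq] using h
  hΔ := by simpa [qbCurve_eq] using D.hΔ'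

theorem imgX_map (σ : Qb ≃ₐ[ℚ] Qb) (x : Qb) :
    σ (D.toMember.imgX x) = D.toMember.imgX (σ x) := by
  simp only [Member.imgX, Member.imgSX, sX, qbCurve_eq, hN, hW, hL, hM, toMember,
    WeierstrassCurve.map_b₂, WeierstrassCurve.map_c₄, WeierstrassCurve.map_c₆, eq_intCast,
    map_div₀, map_sub, map_add, map_mul, map_pow, map_intCast, map_ofNat, map_neg]

theorem imgY_map (σ : Qb ≃ₐ[ℚ] Qb) (x y : Qb) :
    σ (D.toMember.imgY x y) = D.toMember.imgY (σ x) (σ y) := by
  rw [Member.imgY, Member.imgY, ← D.imgX_map σ x]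
  simp only [Member.imgSY, sX, sY, qbCurve_eq, hP, hW, toMember,
    WeierstrassCurve.map_a₁, WeierstrassCurve.map_a₃, WeierstrassCurve.map_b₂,
    WeierstrassCurve.map_c₄, WeierstrassCurve.map_c₆, eq_intCast,
    map_div₀, map_sub, map_add, map_mul, map_pow, map_intCast, map_ofNat]

/-- The map on `3`-torsion. -/
def torsMap : threeTors W →+ threeTors W' :=
  AddMonoidHom.mk'
    (fun x => ⟨D.toMember.img x.1, (Submodule.mem_torsionBy_iff _ _).mpr (by
      rw [natCast_zsmul]; exact D.toMember.three_nsmul_img (threeTors_nsmul x))⟩)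
    fun x y => Subtype.ext (D.toMember.img_add (threeTors_nsmul x) (threeTors_nsmul y))

theorem torsMap_smul (σ : Qb ≃ₐ[ℚ] Qb) (x : threeTors W) :
    D.torsMap (σ • x) = σ • D.torsMap x := by
  obtain ⟨P, hP⟩ := x
  refine Subtype.ext ?_
  show D.toMember.img (σ • P) = σ • D.toMember.img P
  obtain _ | ⟨x, y, h⟩ := P
  · rfl
  have h3 : (3 : ℕ) • (Point.some x y h : (qbCurve W).toAffine.Point) = 0 :=
    threeTors_nsmul ⟨_, hP⟩
  have h3' : (3 : ℕ) • (σ • (Point.some x y h : (qbCurve W).toAffine.Point)) = 0 :=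
    threeTors_nsmul (σ • (⟨_, hP⟩ : threeTors W))
  obtain ⟨h', e⟩ := Mazur.Fifteen.smul_some (W.map (Int.castRingHom ℚ)) σ h
  rw [e] at h3' ⊢
  rw [D.toMember.img_some h' h3', D.toMember.img_some h h3]
  obtain ⟨h'', e'⟩ := Mazur.Fifteen.smul_some (W'.map (Int.castRingHom ℚ)) σ
    (D.toMember.nonsingular_img h (flex_of_three_nsmul _ h h3).1)
  rw [e', Point.some.injEq]
  exact ⟨(D.imgX_map σ x).symm, (D.imgY_map σ x y).symm⟩

theorem torsMap_bijective : Function.Bijective D.torsMap := by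
  have hE : ∀ V : WeierstrassCurve ℤ, V.Δ ≠ 0 →
      Nat.card (threeTors V) = 3 ^ 2 := fun V hV => by
    have : (V.map (Int.castRingHom ℚ)).IsElliptic := ⟨isUnit_iff_ne_zero.mpr (by simpa using hV)⟩
    exact EC.Torsion.natCard_torsionBy_algebraicClosureRat _ (by norm_num)
  have : Finite (threeTors W') :=
    Nat.finite_of_card_ne_zero (by rw [hE W' D.hΔ']; norm_num)
  refine (Nat.bijective_iff_injective_and_card _).mpr ⟨fun x y h => Subtype.ext ?_,
    (hE W D.hΔ).trans (hE W' D.hΔ').symm⟩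
  exact D.toMember.img_injOn (threeTors_nsmul x) (threeTors_nsmul y) (congrArg Subtype.val h)

/-- The isomorphism of `3`-torsion. -/
def torsionEquiv : TorsionEquiv W W' where
  toEquiv := AddEquiv.ofBijective D.torsMap D.torsMap_bijective
  smul_eq := D.torsMap_smul

end IntMember

namespace TorsionEquiv

variable {W W' : WeierstrassCurve ℤ} (e : TorsionEquiv W W')

/-- The linear equivalence. -/
def linEquiv : threeTors W ≃ₗ[ZMod 3] threeTors W' :=
  { e.toEquiv with map_smul' := fun c x => ZMod.map_smul e.toEquiv.toAddMonoidHom c x }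

theorem linEquiv_smul (σ : Qb ≃ₐ[ℚ] Qb) (x : threeTors W) :
    e.linEquiv (σ • x) = σ • e.linEquiv x :=
  e.smul_eq σ x

include e in
/-- The switched curve has irreducible mod `3` representation if the curve has. -/
theorem modRepIsIrreducible (h : W.ModRepIsIrreducible 3) : W'.ModRepIsIrreducible 3 := by
  obtain ⟨hnt, h⟩ := h
  refine ⟨e.toEquiv.symm.toEquiv.nontrivial, fun N hN => ?_⟩
  rcases h (N.comap (e.linEquiv : threeTors W →ₗ[ZMod 3] threeTors W')) (fun σ x hx => by
    rw [Submodule.mem_comap] at hx ⊢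
    show e.linEquiv (σ • x) ∈ N
    rw [e.linEquiv_smul]
    exact hN σ _ hx) with h0 | h0
  · left
    refine eq_bot_iff.mpr fun y hy => ?_
    obtain ⟨x, rfl⟩ := e.linEquiv.surjective y
    have : x ∈ N.comap (e.linEquiv : threeTors W →ₗ[ZMod 3] threeTors W') := hy
    rw [h0, Submodule.mem_bot] at this
    rw [this, map_zero, Submodule.mem_bot]
  · right
    refine eq_top_iff.mpr fun y _ => ?_
    obtain ⟨x, rfl⟩ := e.linEquiv.surjective y
    exact (h0.symm ▸ Submodule.mem_top :
      x ∈ N.comap (e.linEquiv : threeTors W →ₗ[ZMod 3] threeTors W'))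

include e in
theorem galoisTrace_eq (σ : Qb ≃ₐ[ℚ] Qb) :
    Point.galoisTrace (K := Qb) ℚ (W'.map (Int.castRingHom ℚ)).toAffine 3 σ =
      Point.galoisTrace (K := Qb) ℚ (W.map (Int.castRingHom ℚ)).toAffine 3 σ := by
  rw [Point.galoisTrace_def, Point.galoisTrace_def,
    ← LinearMap.trace_conj' (Point.galoisRepModuleEnd ℚ (W.map (Int.castRingHom ℚ)).toAffine 3 σ)
      e.linEquiv]
  congr 1
  refine LinearMap.ext fun y => ?_
  obtain ⟨x, rfl⟩ := e.linEquiv.surjective y
  rw [LinearEquiv.conj_apply_apply, LinearEquiv.symm_apply_apply,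
    Point.galoisRepModuleEnd_apply, Point.galoisRepModuleEnd_apply, e.linEquiv_smul]

include e in
/-- The switched curve has the same traces modulo `3` at common good primes other than `3`. -/
theorem dvd_apOfModel_sub {ℓ : ℕ} (hℓ : ℓ.Prime) (hg : W.IsGoodPrimeFor ℓ)
    (hg' : W'.IsGoodPrimeFor ℓ) (h3 : ℓ ≠ 3) : (3 : ℤ) ∣ W'.apOfModel ℓ - W.apOfModel ℓ := by
  obtain ⟨A, hA⟩ := Arith.exists_liesOverPrime hℓ
  obtain ⟨σ, hσ⟩ := Arith.exists_isFrobeniusAt hA hℓ
  have h1 := EC.FrobTrace.galoisTrace_frobenius (p := 3) W hℓ hg h3 hA hσ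
  have h2 := EC.FrobTrace.galoisTrace_frobenius (p := 3) W' hℓ hg' h3 hA hσ
  have key := e.galoisTrace_eq σ
  refine (ZMod.intCast_zmod_eq_zero_iff_dvd _ 3).mp ?_
  push_cast
  rw [← h1, ← h2]
  exact sub_eq_zero.mpr key

end TorsionEquiv

end Fermat.Agent.LT.Switch
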